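import Fermat.Agent.S36.Base.Interface

/-!
# S36 / Base / B0 : descent from `ℚ̄` to `E = ℚ̄^I`  (helper6)

`stmt_LinDisj`, `stmt_SpanE`, `stmt_Descent`.
The descent uses an `E`-linear retraction `λ : ℚ̄ → E` of the inclusion, applied coefficientwise.
-/

set_option autoImplicit false

noncomputable section

namespace Fermat.Agent.S36.Base

open Fermat.Agent.S24 (Qbar FF)
open Fermat.Agent.ES.Mid (GQ gal coe_gal)
open ModularCurve (coeffMap coeffMap_coeff coeffEmb laurentBaseChange modularFunctionFieldFull)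

theorem Desc_coeff_const_mul {K : Type} [Field K] (c : K) (y : LaurentSeries K) (k : ℤ) :
    (algebraMap K (LaurentSeries K) c * y).coeff k = c * y.coeff k := by
  rw [ModularCurve.algebraMap_laurentSeries_eq_single]
  exact HahnSeries.coeff_single_zero_mul

theorem Desc_coeff_sum {K : Type} [Field K] {n : ℕ} (c : Fin n → K) (y : Fin n → LaurentSeries K)
    (k : ℤ) :
    (∑ i, algebraMap K (LaurentSeries K) (c i) * y i).coeff k = ∑ i, c i * (y i).coeff k := by
  rw [HahnSeries.coeff_sum]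
  exact Finset.sum_congr rfl fun i _ => Desc_coeff_const_mul (c i) (y i) k

theorem stmt_LinDisj : Stmt_LinDisj := by
  intro A n c z hc h i
  ext k
  have h1 := congrArg (fun y : LaurentSeries Qbar => y.coeff k) h
  simp only [Desc_coeff_sum, cmE_coeff, HahnSeries.coeff_zero] at h1
  have h2 : ∑ j, (z j).coeff k • c j = 0 := by
    rw [← h1]
    refine Finset.sum_congr rfl fun j _ => ?_
    rw [Algebra.smul_def, mul_comm]
  exact Fintype.linearIndependent_iff.1 hc (fun j => (z j).coeff k) h2 i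

theorem stmt_SpanE (h : Stmt_Span) : Stmt_SpanE := by
  intro A N x
  have : Algebra.IsAlgebraic ℚ Qbar := AlgebraicClosure.isAlgebraic ℚ
  obtain ⟨n, c, f, hf, hx⟩ := h Qbar (modularFunctionFieldFull N) (x : LaurentSeries Qbar) x.2
  refine ⟨n, c, fun i => ⟨coeffEmb (IE A) (f i),
    ModularCurve.coeffEmb_mem_laurentBaseChange (IE A) (hf i)⟩, ?_⟩
  apply Subtype.ext
  rw [hx]
  have e : ((∑ i, algebraMap Qbar (FF N) (c i) * emb A N ⟨coeffEmb (IE A) (f i),
      ModularCurve.coeffEmb_mem_laurentBaseChange (IE A) (hf i)⟩ : FF N) : LaurentSeries Qbar)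
      = ∑ i, ((algebraMap Qbar (FF N) (c i) * emb A N ⟨coeffEmb (IE A) (f i),
      ModularCurve.coeffEmb_mem_laurentBaseChange (IE A) (hf i)⟩ : FF N) : LaurentSeries Qbar) :=
    AddSubmonoidClass.coe_finsetSum _ _
  rw [e]
  refine Finset.sum_congr rfl fun i _ => ?_
  show _ = algebraMap Qbar (LaurentSeries Qbar) (c i) * cmE A (coeffEmb (IE A) (f i))
  rw [cmE_coeffEmb]

/-- an `E`-linear retraction of `E → ℚ̄`. -/
theorem Desc_exists_retraction (A : ValuationSubring Qbar) :
    ∃ l : Qbar →ₗ[IE A] IE A, ∀ e : IE A, l (algebraMap (IE A) Qbar e) = e := by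
  obtain ⟨g, hg⟩ := LinearMap.exists_leftInverse_of_injective (Algebra.linearMap (IE A) Qbar)
    (LinearMap.ker_eq_bot.2 (IE.algebraMap_injective A))
  exact ⟨g, fun e => LinearMap.congr_fun hg e⟩

theorem stmt_Descent (h : Stmt_Span) : Stmt_Descent := by
  intro A N x hx
  obtain ⟨n, c, z, hxz⟩ := stmt_SpanE h A N x
  obtain ⟨l, hl⟩ := Desc_exists_retraction A
  refine ⟨∑ i, algebraMap (IE A) (FE A N) (l (c i)) * z i, ?_⟩
  apply Subtype.ext
  ext k
  -- the `k`-th coefficient of `x`
  have hxk : (x : LaurentSeries Qbar).coeff k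
      = ∑ i, c i * algebraMap (IE A) Qbar ((z i : LE A).coeff k) := by
    have e : (x : LaurentSeries Qbar)
        = ∑ i, algebraMap Qbar (LaurentSeries Qbar) (c i) * cmE A (z i : LE A) := by
      conv_lhs => rw [hxz]
      exact AddSubmonoidClass.coe_finsetSum _ _
    rw [e, Desc_coeff_sum]
    rfl
  -- it is fixed by inertia
  have hfix : ∀ σ ∈ A.inertiaSubgroupIn ℚ,
      σ ((x : LaurentSeries Qbar).coeff k) = (x : LaurentSeries Qbar).coeff k := by
    intro σ hσ
    have h1 := congrArg (fun y : FF N => (y : LaurentSeries Qbar).coeff k) (hx σ hσ)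
    simp only [coe_gal, coeffMap_coeff] at h1
    exact h1
  obtain ⟨e, he⟩ := (IE.mem_range_iff A).2 hfix
  have he' : e = ∑ i, l (c i) * (z i : LE A).coeff k := by
    rw [← hl e, he, hxk, map_sum]
    refine Finset.sum_congr rfl fun i _ => ?_
    rw [mul_comm (c i), ← Algebra.smul_def, map_smul, smul_eq_mul, mul_comm]
  rw [coe_emb, cmE_coeff, ← he, he']
  congr 1
  have e2 : ((∑ i, algebraMap (IE A) (FE A N) (l (c i)) * z i : FE A N) : LE A)
      = ∑ i, algebraMap (IE A) (LE A) (l (c i)) * (z i : LE A) :=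
    AddSubmonoidClass.coe_finsetSum _ _
  rw [e2, Desc_coeff_sum]

end Fermat.Agent.S36.Base

end

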