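import Fermat.Agent.S36.Base.Interface

/-!
# S36 / Base : B2  (`m` is a unit of `A_E`, `μ_m ⊆ A_E`, units of `A_E` are `m`-th powers), `r ∤ m`
-/

set_option autoImplicit false

noncomputable section

namespace Fermat.Agent.S36.Base

open Fermat.Agent.S24 (Qbar)
open Fermat.Agent.ES.Mid (GQ)

variable {A : ValuationSubring Qbar}

/-- inertia acts trivially on the residue field. -/
theorem Mu_sub_mem_nonunits {σ : GQ} (hσ : σ ∈ A.inertiaSubgroupIn ℚ) :
    ∀ a ∈ A, σ a - a ∈ A.nonunits := by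
  obtain ⟨g, hg, rfl⟩ := hσ
  intro a ha
  have h1 : g • (IsLocalRing.residue A ⟨a, ha⟩) = IsLocalRing.residue A ⟨a, ha⟩ :=
    RingEquiv.congr_fun (MonoidHom.mem_ker.1 hg) (IsLocalRing.residue A ⟨a, ha⟩)
  rw [← IsLocalRing.ResidueField.residue_smul, ← sub_eq_zero, ← map_sub,
    IsLocalRing.residue_eq_zero_iff, ← ValuationSubring.coe_mem_nonunits_iff] at h1
  exact h1

theorem Mu_natCast_not_mem {r m : ℕ} (hr : r.Prime) (hA : A.LiesOverPrime r) (hm : ¬ r ∣ m) :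
    ((m : ℕ) : A) ∉ IsLocalRing.maximalIdeal A := by
  intro h
  have hrA : ((r : ℕ) : A) ∈ IsLocalRing.maximalIdeal A := by
    rw [← ValuationSubring.coe_mem_nonunits_iff]
    push_cast
    exact hA
  have hcop : Nat.Coprime r m := (Nat.Prime.coprime_iff_not_dvd hr).2 hm
  obtain ⟨a, b, hab⟩ := Nat.isCoprime_iff_coprime.2 hcop
  have h1 : (1 : A) ∈ IsLocalRing.maximalIdeal A := by
    have e : (1 : A) = (a : A) * ((r : ℕ) : A) + (b : A) * ((m : ℕ) : A) := by
      have := congrArg (Int.cast : ℤ → A) hab.symm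
      push_cast at this
      exact this
    rw [e]
    exact Ideal.add_mem _ (Ideal.mul_mem_left _ _ hrA) (Ideal.mul_mem_left _ _ h)
  exact (Ideal.ne_top_iff_one _).1 (IsLocalRing.maximalIdeal.isMaximal A).ne_top h1

/-- roots of unity of order prime to `r` are separated by the reduction. -/
theorem Mu_sep {r m : ℕ} (hr : r.Prime) (hA : A.LiesOverPrime r) (hm : ¬ r ∣ m) {z : Qbar}
    (hz : z ^ m = 1) (h1 : z - 1 ∈ A.nonunits) : z = 1 := by
  have hzA : z ∈ A := by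
    have := A.add_mem _ _ (A.nonunits_subset h1) A.one_mem
    rwa [sub_add_cancel] at this
  by_contra hne
  set z' : A := ⟨z, hzA⟩ with hz'
  have hres : IsLocalRing.residue A z' = 1 := by
    rw [← sub_eq_zero, ← map_one (IsLocalRing.residue A), ← map_sub,
      IsLocalRing.residue_eq_zero_iff, ← ValuationSubring.coe_mem_nonunits_iff]
    exact h1
  have hsum : ∑ i ∈ Finset.range m, z' ^ i = 0 := by
    have h2 : (z' - 1) * ∑ i ∈ Finset.range m, z' ^ i = 0 := by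
      rw [mul_geom_sum, sub_eq_zero]
      exact Subtype.ext hz
    refine (mul_eq_zero.1 h2).resolve_left fun h => hne ?_
    exact congrArg Subtype.val (sub_eq_zero.1 h)
  apply Mu_natCast_not_mem (A := A) hr hA hm
  rw [← IsLocalRing.residue_eq_zero_iff, map_natCast]
  have := congrArg (IsLocalRing.residue A) hsum
  rw [map_sum, map_zero] at this
  simpa [hres] using this

theorem Mu_mem_of_pow_mem {y : Qbar} {m : ℕ} (hm : m ≠ 0) (h : y ^ m ∈ A) : y ∈ A := by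
  rw [← A.valuation_le_one_iff] at h ⊢
  rw [map_pow] at h
  exact (pow_le_one_iff hm).1 h

/-- an `m`-th root of an element fixed by inertia, which is a unit of `A`, is fixed by inertia. -/
theorem Mu_fixed {r m : ℕ} (hr : r.Prime) (hA : A.LiesOverPrime r) (hm : ¬ r ∣ m) {y : Qbar}
    (hy0 : y ≠ 0) (hy : y ∈ A) (hy' : y⁻¹ ∈ A) {σ : GQ} (hσ : σ ∈ A.inertiaSubgroupIn ℚ)
    (h : σ (y ^ m) = y ^ m) : σ y = y := by
  have h1 : σ y * y⁻¹ = 1 := by
    apply Mu_sep hr hA hm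
    · rw [mul_pow, ← map_pow, h, inv_pow, mul_inv_cancel₀ (pow_ne_zero m hy0)]
    · have e : σ y * y⁻¹ - 1 = (σ y - y) * y⁻¹ := by
        rw [sub_mul, mul_inv_cancel₀ hy0]
      rw [e]
      have h2 := Mu_sub_mem_nonunits hσ y hy
      have h3 : (⟨σ y - y, A.nonunits_subset h2⟩ : A) ∈ IsLocalRing.maximalIdeal A := by
        rw [← ValuationSubring.coe_mem_nonunits_iff]; exact h2
      have h4 := Ideal.mul_mem_right (⟨y⁻¹, hy'⟩ : A) _ h3
      rw [← ValuationSubring.coe_mem_nonunits_iff] at h4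
      exact h4
  have h2 := congrArg (· * y) h1
  simpa [mul_assoc, inv_mul_cancel₀ hy0] using h2

/-- the inclusion `A_E → ℚ̄`. -/
def Mu_val (A : ValuationSubring Qbar) : AE A →+* Qbar :=
  (algebraMap (IE A) Qbar).comp (algebraMap (AE A) (IE A))

theorem Mu_val_injective : Function.Injective (Mu_val A) :=
  (IE.algebraMap_injective A).comp (AE.algebraMap_injective A)

theorem Mu_val_mem (x : AE A) : Mu_val A x ∈ A := AE.mem A x

theorem Mu_val_fixed (x : AE A) {σ : GQ} (hσ : σ ∈ A.inertiaSubgroupIn ℚ) :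
    σ (Mu_val A x) = Mu_val A x := IE.fixed A _ hσ

theorem Mu_exists_val {y : Qbar} (hy : y ∈ A) (hfix : ∀ σ ∈ A.inertiaSubgroupIn ℚ, σ y = y) :
    ∃ x : AE A, Mu_val A x = y :=
  ⟨AE.mk A (IE.mk A y hfix) hy, rfl⟩

theorem Mu_inv_mem_of_isUnit {x : AE A} (hx : IsUnit x) :
    Mu_val A x ≠ 0 ∧ (Mu_val A x)⁻¹ ∈ A := by
  obtain ⟨u, rfl⟩ := hx
  have h1 : Mu_val A (u : AE A) * Mu_val A ((u⁻¹ : (AE A)ˣ) : AE A) = 1 := by
    rw [← map_mul, Units.mul_inv, map_one]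
  refine ⟨left_ne_zero_of_mul_eq_one h1, ?_⟩
  rw [inv_eq_of_mul_eq_one_right h1]
  exact Mu_val_mem _

/-- **B2.** -/
theorem stmt_Mu : Stmt_Mu := by
  intro r A hr hA m hm0 hm
  refine ⟨?_, ?_, ?_⟩
  · -- `m` is a unit
    have hmQ : ((m : ℕ) : Qbar) ≠ 0 := Nat.cast_ne_zero.2 hm0
    have hu : IsUnit ((m : ℕ) : A) := by
      by_contra h
      exact Mu_natCast_not_mem hr hA hm ((IsLocalRing.mem_maximalIdeal _).2 h)
    obtain ⟨u, hu⟩ := hu
    have h1 : ((m : ℕ) : Qbar) * (((u⁻¹ : Aˣ) : A) : Qbar) = 1 := by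
      have := congrArg (Subtype.val) (Units.mul_inv u)
      rw [hu] at this
      simpa using this
    have hinv : ((m : ℕ) : Qbar)⁻¹ ∈ A := by
      rw [inv_eq_of_mul_eq_one_right h1]
      exact ((u⁻¹ : Aˣ) : A).2
    obtain ⟨x, hx⟩ := Mu_exists_val hinv (fun σ _ => by rw [map_inv₀, map_natCast])
    refine IsUnit.of_mul_eq_one x (Mu_val_injective ?_)
    rw [map_mul, map_natCast, hx, map_one, mul_inv_cancel₀ hmQ]
  · -- roots of unity
    have : NeZero ((m : ℕ) : Qbar) := ⟨Nat.cast_ne_zero.2 hm0⟩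
    obtain ⟨ζ, hζ⟩ := HasEnoughRootsOfUnity.exists_primitiveRoot Qbar m
    have hζ0 : ζ ≠ 0 := hζ.ne_zero hm0
    have hζA : ζ ∈ A := Mu_mem_of_pow_mem hm0 (by rw [hζ.pow_eq_one]; exact A.one_mem)
    have hζA' : ζ⁻¹ ∈ A :=
      Mu_mem_of_pow_mem hm0 (by rw [inv_pow, hζ.pow_eq_one, inv_one]; exact A.one_mem)
    obtain ⟨x, hx⟩ := Mu_exists_val hζA (fun σ hσ =>
      Mu_fixed hr hA hm hζ0 hζA hζA' hσ (by rw [hζ.pow_eq_one, map_one]))
    exact ⟨x, IsPrimitiveRoot.of_map_of_injective (f := Mu_val A) (by rw [hx]; exact hζ)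
      Mu_val_injective⟩
  · -- roots of units
    intro ε hε
    obtain ⟨he0, heinv⟩ := Mu_inv_mem_of_isUnit hε
    obtain ⟨y, hy⟩ := IsAlgClosed.exists_pow_nat_eq (Mu_val A ε) (Nat.pos_of_ne_zero hm0)
    have hy0 : y ≠ 0 := by
      rintro rfl
      rw [zero_pow hm0] at hy
      exact he0 hy.symm
    have hyA : y ∈ A := Mu_mem_of_pow_mem hm0 (by rw [hy]; exact Mu_val_mem ε)
    have hyA' : y⁻¹ ∈ A := Mu_mem_of_pow_mem hm0 (by rw [inv_pow, hy]; exact heinv)
    obtain ⟨x, hx⟩ := Mu_exists_val hyA (fun σ hσ =>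
      Mu_fixed hr hA hm hy0 hyA hyA' hσ (by rw [hy]; exact Mu_val_fixed ε hσ))
    exact ⟨x, Mu_val_injective (by rw [map_pow, hx, hy])⟩

end Fermat.Agent.S36.Base

end

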