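import Fermat.Agent.S36.Base.Defs
import Fermat.Agent.S36.AbsInterface

/-!
# S36 / Base : interface (statements as Props), architect helper3

Every package proves `theorem xxx : Stmt_xxx` (possibly from other `Stmt_`s as hypotheses) in its own
NEW file importing this one.  Notation: `A` valuation subring of `ℚ̄` over the prime `r`, `I` its
inertia group, `E = IE A = ℚ̄^I`, `A_E = AE A`, `F_E = FE A N ⊆ LE A = E((q))`,
`emb A N : F_E → FF N`.
-/

set_option autoImplicit false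

noncomputable section

namespace Fermat.Agent.S36.Base

open Fermat.Agent.S24 (Qbar FF funAlg)
open Fermat.Agent.S24.QX (qExpHom)
open Fermat.Agent.ES.Mid (GQ gal IsDiv)
open Fermat.Agent.KL (FinOverR PolyR Chart cst IsHtOne)
open ModularCurve (coeffMap coeffEmb laurentBaseChange modularFunctionFieldFull)
open AlgebraicCurve Polynomial

/-! ### B0 : descent -/

/-- B0a. `L · F₀` is the `L`-span of `F₀` (`L/ℚ` algebraic).  [The span is a subring, a domain,
integral over the field `coeffEmb F₀`, hence a field.] -/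
def Stmt_Span : Prop :=
  ∀ (L : Type) [Field L] [Algebra ℚ L] [Algebra.IsAlgebraic ℚ L]
    (F₀ : IntermediateField ℚ (LaurentSeries ℚ)) (x : LaurentSeries L),
    x ∈ laurentBaseChange L F₀ →
    ∃ (n : ℕ) (c : Fin n → L) (f : Fin n → LaurentSeries ℚ), (∀ i, f i ∈ F₀) ∧
      x = ∑ i, algebraMap L (LaurentSeries L) (c i) * coeffEmb L (f i)

/-- B0. an element of `FF N` fixed by inertia lies in `F_E`. -/
def Stmt_Descent : Prop :=
  ∀ (A : ValuationSubring Qbar) (N : ℕ) (x : FF N),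
    (∀ σ ∈ A.inertiaSubgroupIn ℚ, gal N σ x = x) → ∃ y : FE A N, emb A N y = x

/-- B0'. `FF N = ℚ̄ · F_E`. -/
def Stmt_SpanE : Prop :=
  ∀ (A : ValuationSubring Qbar) (N : ℕ) (x : FF N),
    ∃ (n : ℕ) (c : Fin n → Qbar) (z : Fin n → FE A N),
      x = ∑ i, algebraMap Qbar (FF N) (c i) * emb A N (z i)

/-- B0''. linear disjointness: `E`-independent constants are independent over `E((q))`. -/
def Stmt_LinDisj : Prop :=
  ∀ (A : ValuationSubring Qbar) (n : ℕ) (c : Fin n → Qbar) (z : Fin n → LE A),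
    LinearIndependent (IE A) c →
    ∑ i, algebraMap Qbar (LaurentSeries Qbar) (c i) * cmE A (z i) = 0 → ∀ i, z i = 0

/-! ### B1 : `A_E` is a discrete valuation ring with uniformiser `r` -/

/-- B1a. `ℚ̄^I` is unramified: every nonzero element fixed by inertia is `r ^ k * unit of A`. -/
def Stmt_Unram : Prop :=
  ∀ (r : ℕ) (A : ValuationSubring Qbar), r.Prime → A.LiesOverPrime r → ∀ x : Qbar, x ≠ 0 →
    (∀ σ ∈ A.inertiaSubgroupIn ℚ, σ x = x) →
    ∃ k : ℤ, x * (r : Qbar) ^ k ∈ A ∧ (x * (r : Qbar) ^ k)⁻¹ ∈ A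

/-- B1b. -/
def Stmt_DVR : Prop :=
  ∀ (r : ℕ) (A : ValuationSubring Qbar), r.Prime → A.LiesOverPrime r →
    IsDiscreteValuationRing (AE A) ∧ Irreducible ((r : ℕ) : AE A)

/-! ### B2, B3 : roots of unity, roots of units, residue field -/

/-- B2. -/
def Stmt_Mu : Prop :=
  ∀ (r : ℕ) (A : ValuationSubring Qbar), r.Prime → A.LiesOverPrime r → ∀ m : ℕ, m ≠ 0 → ¬ r ∣ m →
    IsUnit ((m : ℕ) : AE A) ∧ (∃ ζ : AE A, IsPrimitiveRoot ζ m) ∧
      ∀ ε : AE A, IsUnit ε → ∃ y : AE A, y ^ m = ε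

/-- B3. `A_E → A / 𝔪_A` is onto. -/
def Stmt_Res : Prop :=
  ∀ (r : ℕ) (A : ValuationSubring Qbar), r.Prime → A.LiesOverPrime r → ∀ a : A,
    ∃ b : AE A, a - AE.toA A b ∈ IsLocalRing.maximalIdeal A

/-! ### B4, B6 : Laurent series -/

/-- B4. the hypothesis of `Stmt_COV` on `L = E((q))`. -/
def Stmt_IntConst : Prop :=
  ∀ (A : ValuationSubring Qbar) (c : LE A), IsIntegral (AE A) c →
    c ∈ (algebraMap (AE A) (LE A)).range

/-- B6. `m`-th roots in `K((q))`. -/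
def Stmt_RootL : Prop :=
  ∀ (K : Type) [Field K] [CharZero K] (m : ℕ) (u : LaurentSeries K), m ≠ 0 → u ≠ 0 →
    (m : ℤ) ∣ u.order → (∃ c : K, c ^ m = u.leadingCoeff) → ∃ y : LaurentSeries K, y ^ m = u

/-! ### B5, B7 : the function field `F_E` -/

/-- B5. `F_E` is a function field of one variable over `E`. -/
def Stmt_Fin : Prop :=
  ∀ (A : ValuationSubring Qbar) (N : ℕ) [NeZero N] (t : FE A N), Transcendental (IE A) t →
    Transcendental (AE A) t ∧ FinOverR (PolyR (AE A) t) (FE A N)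

/-- B7. every element of `F_E` is a quotient of elements of `E[j_d : d ∣ N]`. -/
def Stmt_Frac : Prop :=
  ∀ (A : ValuationSubring Qbar) (N : ℕ) [NeZero N] (x : FE A N),
    ∃ (θ₁ θ₂ : funAlg N) (a₁ a₂ : FE A N), a₂ ≠ 0 ∧ x * a₂ = a₁ ∧
      emb A N a₁ = qExpHom N θ₁ ∧ emb A N a₂ = qExpHom N θ₂

/-! ### HDIV : divisibility of divisors over `E` -/

/-- HD1. a place of `FF N` above a horizontal prime of a chart. -/
def Stmt_PlaceAbove : Prop :=
  ∀ (A : ValuationSubring Qbar) (N : ℕ) [NeZero N] (t : FE A N), Transcendental (IE A) t →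
    ∀ 𝔭 : Ideal (Chart (AE A) t), 𝔭.IsPrime → (∀ c : AE A, c ≠ 0 → cst (AE A) t c ∉ 𝔭) →
    ∃ P : Place Qbar (FF N),
      (∀ z : FE A N, z ≠ 0 → IntAt 𝔭 z → 0 ≤ P.ord (emb A N z)) ∧
      (∀ z : FE A N, z ≠ 0 → PosAt 𝔭 z → 0 < P.ord (emb A N z))

/-- HD2. constant field extensions are unramified (characteristic zero), abstract form.
`O` is a discrete valuation ring of `F/E` with uniformiser `π`, `P` a place of `Fb = Kb · F` above
`O`.  Then `π` is a uniformiser at `P`. -/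
def Stmt_EOne : Prop :=
  ∀ (E Kb F Fb : Type) [Field E] [CharZero E] [Field Kb] [Field F] [Field Fb] [Algebra E Kb]
    [Algebra E F] [Algebra Kb Fb] [Algebra F Fb] [Algebra E Fb] [IsScalarTower E Kb Fb]
    [IsScalarTower E F Fb] (O : ValuationSubring F) (π : F) (P : Place Kb Fb),
    (∀ c : E, algebraMap E F c ∈ O) → π ≠ 0 → π ∈ O.nonunits →
    (∀ z ∈ O.nonunits, z / π ∈ O) → (∀ z : F, ∃ k : ℕ, z * π ^ k ∈ O) →
    (∀ z ∈ O, ∃ h : E[X], h ≠ 0 ∧ aeval z h ∈ O.nonunits) →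
    (∀ x : Fb, ∃ (n : ℕ) (c : Fin n → Kb) (z : Fin n → F),
      x = ∑ i, algebraMap Kb Fb (c i) * algebraMap F Fb (z i)) →
    (∀ f : Fb, f ≠ 0 → 0 ≤ P.ord f → ∃ a : Kb, f = algebraMap Kb Fb a ∨
      0 < P.ord (f - algebraMap Kb Fb a)) →
    (∀ z ∈ O, z ≠ 0 → 0 ≤ P.ord (algebraMap F Fb z)) → 0 < P.ord (algebraMap F Fb π) →
    P.ord (algebraMap F Fb π) = 1

/-- HD3 = (HDIV) of `ZData`, on one chart. -/
def Stmt_HDIV : Prop :=
  ∀ (A : ValuationSubring Qbar) (N m : ℕ) [NeZero N] (t u : FE A N), Transcendental (IE A) t →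
    IsDiv N m (emb A N u) →
    ∀ 𝔭 : Ideal (Chart (AE A) t), IsHtOne 𝔭 → (∀ c : AE A, c ≠ 0 → cst (AE A) t c ∉ 𝔭) →
      ∃ g : FE A N, g ≠ 0 ∧ UnitAt 𝔭 (u / g ^ m)

end Fermat.Agent.S36.Base

end
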