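import Fermat.Agent.S36.Base.Interface

/-!
# S36 / Base : B1b, `A_E` is a discrete valuation ring with uniformiser `r` (from `Stmt_Unram`)
-/

set_option autoImplicit false

noncomputable section

namespace Fermat.Agent.S36.Base

open Fermat.Agent.S24 (Qbar)

/-- In a domain, a nonzero nonunit `p` such that every nonzero element is associated to a power of
`p` is irreducible. -/
theorem DVR_irreducible_of {R : Type} [CommRing R] [IsDomain R] (p : R) (hp0 : p ≠ 0)
    (hpu : ¬ IsUnit p) (hfac : ∀ x : R, x ≠ 0 → ∃ n : ℕ, Associated (p ^ n) x) :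
    Irreducible p := by
  refine ⟨hpu, fun a b hab => ?_⟩
  have ha : a ≠ 0 := by
    rintro rfl
    exact hp0 (by rw [hab, zero_mul])
  have hb : b ≠ 0 := by
    rintro rfl
    exact hp0 (by rw [hab, mul_zero])
  obtain ⟨n, u, hu⟩ := hfac a ha
  obtain ⟨k, w, hw⟩ := hfac b hb
  rcases n with _ | n
  · left
    rw [← hu, pow_zero, one_mul]
    exact u.isUnit
  rcases k with _ | k
  · right
    rw [← hw, pow_zero, one_mul]
    exact w.isUnit
  exfalso
  apply hpu
  have h1 : p * 1 = p * (p * (p ^ n * p ^ k * u * w)) := by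
    rw [mul_one]
    conv_lhs => rw [hab, ← hu, ← hw]
    ring
  exact IsUnit.of_mul_eq_one _ (mul_left_cancel₀ hp0 h1).symm

variable (A : ValuationSubring Qbar)

/-- the inclusion `A_E → ℚ̄`. -/
def DVR_ι : AE A →+* Qbar := (algebraMap (IE A) Qbar).comp (algebraMap (AE A) (IE A))

theorem DVR_ι_apply (y : AE A) :
    DVR_ι A y = algebraMap (IE A) Qbar (algebraMap (AE A) (IE A) y) := rfl

theorem DVR_ι_injective : Function.Injective (DVR_ι A) :=
  (IE.algebraMap_injective A).comp (AE.algebraMap_injective A)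

theorem DVR_ι_mem (y : AE A) : DVR_ι A y ∈ A := AE.mem A y

theorem DVR_isUnit_of {y : AE A} (hy : y ≠ 0) (h : (DVR_ι A y)⁻¹ ∈ A) : IsUnit y := by
  have h' : algebraMap (IE A) Qbar (algebraMap (AE A) (IE A) y)⁻¹ ∈ A := by
    rw [map_inv₀]
    exact h
  refine IsUnit.of_mul_eq_one (AE.mk A _ h') ?_
  apply AE.algebraMap_injective A
  rw [map_mul, AE.algebraMap_mk, map_one]
  exact mul_inv_cancel₀ (fun h0 => hy (AE.algebraMap_injective A (by rw [h0, map_zero])))

theorem DVR_inv_mem_of_isUnit {y : AE A} (h : IsUnit y) : (DVR_ι A y)⁻¹ ∈ A := by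
  obtain ⟨z, hz⟩ := h.exists_right_inv
  have h1 : DVR_ι A y * DVR_ι A z = 1 := by rw [← map_mul, hz, map_one]
  rw [← eq_inv_of_mul_eq_one_right h1]
  exact DVR_ι_mem A z

theorem DVR_r_ne_zero {r : ℕ} (hr : r.Prime) : ((r : ℕ) : AE A) ≠ 0 := by
  intro h
  have h1 : DVR_ι A ((r : ℕ) : AE A) = 0 := by rw [h, map_zero]
  rw [map_natCast] at h1
  exact hr.ne_zero (by exact_mod_cast h1)

theorem DVR_r_not_isUnit {r : ℕ} (hr : r.Prime) (hA : A.LiesOverPrime r) :
    ¬ IsUnit ((r : ℕ) : AE A) := by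
  intro h
  have h1 := DVR_inv_mem_of_isUnit A h
  rw [map_natCast] at h1
  have h2 : A.valuation (r : Qbar) < 1 := (A.mem_nonunits_iff).1 hA
  have h3 : A.valuation (r : Qbar)⁻¹ ≤ 1 := (A.valuation_le_one_iff _).2 h1
  have h0 : (r : Qbar) ≠ 0 := by exact_mod_cast hr.ne_zero
  have h4 : A.valuation (r : Qbar) * A.valuation (r : Qbar)⁻¹ = 1 := by
    rw [← map_mul, mul_inv_cancel₀ h0, map_one]
  have h5 : A.valuation (r : Qbar) * A.valuation (r : Qbar)⁻¹ < 1 :=
    lt_of_le_of_lt (mul_le_of_le_one_right' h3) h2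
  exact absurd h4 h5.ne

theorem DVR_fac (h : Stmt_Unram) {r : ℕ} (hr : r.Prime) (hA : A.LiesOverPrime r) (y : AE A)
    (hy : y ≠ 0) : ∃ n : ℕ, Associated (((r : ℕ) : AE A) ^ n) y := by
  have hx0 : DVR_ι A y ≠ 0 := fun h0 => hy (DVR_ι_injective A (by rw [h0, map_zero]))
  have hr0 : (r : Qbar) ≠ 0 := by exact_mod_cast hr.ne_zero
  have hr0' : ((r : ℕ) : IE A) ≠ 0 := by exact_mod_cast hr.ne_zero
  obtain ⟨k, hk1, hk2⟩ := h r A hr hA (DVR_ι A y) hx0 (fun σ hσ => IE.fixed A _ hσ)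
  obtain ⟨n, rfl | rfl⟩ := k.eq_nat_or_neg
  · -- `k = n ≥ 0` : then `y * r ^ n` is a unit, hence `n = 0`
    rw [zpow_natCast] at hk1 hk2
    have hu : IsUnit (y * ((r : ℕ) : AE A) ^ n) := by
      apply DVR_isUnit_of A (mul_ne_zero hy (pow_ne_zero _ (DVR_r_ne_zero A hr)))
      rw [map_mul, map_pow, map_natCast]
      exact hk2
    refine ⟨0, ?_⟩
    rw [pow_zero]
    exact associated_one_iff_isUnit.2 (isUnit_of_mul_isUnit_left hu) |>.symm
  · rw [zpow_neg, zpow_natCast] at hk1 hk2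
    have he : algebraMap (IE A) Qbar (algebraMap (AE A) (IE A) y * (((r : ℕ) : IE A) ^ n)⁻¹)
        = DVR_ι A y * ((r : Qbar) ^ n)⁻¹ := by
      rw [map_mul, map_inv₀, map_pow, map_natCast]
      rfl
    have hmem : algebraMap (IE A) Qbar (algebraMap (AE A) (IE A) y * (((r : ℕ) : IE A) ^ n)⁻¹)
        ∈ A := by
      rw [he]
      exact hk1
    have hε : DVR_ι A (AE.mk A _ hmem) = DVR_ι A y * ((r : Qbar) ^ n)⁻¹ := by
      rw [DVR_ι_apply, AE.algebraMap_mk, he]
    have hε0 : AE.mk A _ hmem ≠ 0 := by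
      intro h0
      rw [h0, map_zero] at hε
      exact mul_ne_zero hx0 (inv_ne_zero (pow_ne_zero _ hr0)) hε.symm
    have hu : IsUnit (AE.mk A _ hmem) := by
      apply DVR_isUnit_of A hε0
      rw [hε]
      exact hk2
    obtain ⟨u, hu⟩ := hu
    refine ⟨n, u, ?_⟩
    rw [hu]
    apply DVR_ι_injective A
    rw [map_mul, hε, map_pow, map_natCast]
    field_simp

theorem stmt_DVR (h : Stmt_Unram) : Stmt_DVR := by
  intro r A hr hA
  have hirr : Irreducible ((r : ℕ) : AE A) :=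
    DVR_irreducible_of _ (DVR_r_ne_zero A hr) (DVR_r_not_isUnit A hr hA) (DVR_fac A h hr hA)
  exact ⟨IsDiscreteValuationRing.ofHasUnitMulPowIrreducibleFactorization
    ⟨_, hirr, fun {x} hx => DVR_fac A h hr hA x hx⟩, hirr⟩

end Fermat.Agent.S36.Base

end
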