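import Fermat.Agent.S36.Base.Interface
import Fermat.Agent.KL.PolyRing2
import Fermat.Agent.S24.DegreeBound
import Fermat.Agent.S24.DegPrincipalCore

/-!
# S36 / Base, package B5 : `F_E` is finite over `E(t)` (from linear disjointness)

Abstract form (`Fin_abs`): `A₀ ⊆ E = Frac A₀ ⊆ K` fields, `F_E / E` and `F / K` fields,
`e : F_E → F` compatible, `K` and `F_E` linearly disjoint over `E` in `F`, and `F` finite over
`K(x)` for all transcendental `x`.  Then `F_E` is finite over `E(t)` for all transcendental `t`.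
-/

set_option autoImplicit false

noncomputable section

namespace Fermat.Agent.S36.Base

open Polynomial IntermediateField
open Fermat.Agent.KL (FinOverR PolyR)

section Abs

/-- the powers of a transcendental element are linearly independent. -/
lemma Fin_linInd_pow {R S : Type*} [CommRing R] [Ring S] [Algebra R S] {x : S}
    (hx : Transcendental R x) : LinearIndependent R (fun n : ℕ => x ^ n) := by
  have h1 := (Polynomial.basisMonomials R).linearIndependent.map' (aeval x).toLinearMap
    (LinearMap.ker_eq_bot.2 (transcendental_iff_injective.1 hx))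
  have h2 : (⇑(aeval x).toLinearMap ∘ ⇑(Polynomial.basisMonomials R)) = fun n : ℕ => x ^ n := by
    ext n
    simp
  rwa [h2] at h1

/-- conversely. -/
lemma Fin_transc_of_linInd {R S : Type*} [CommRing R] [Ring S] [Algebra R S] {x : S}
    (h : LinearIndependent R (fun n : ℕ => x ^ n)) : Transcendental R x := by
  rw [transcendental_iff]
  intro p hp
  rw [aeval_eq_sum_range] at hp
  have h0 := linearIndependent_iff'.1 h _ _ hp
  ext k
  by_cases hk : k < p.natDegree + 1
  · exact h0 k (Finset.mem_range.2 hk)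
  · exact coeff_eq_zero_of_natDegree_lt (by omega)

/-- if the `t ^ k * y i` are `R`-independent then the `y i` are `R[t]`-independent. -/
lemma Fin_linInd_adjoin {R F ι : Type*} [CommRing R] [CommRing F] [Algebra R F] (t : F)
    (y : ι → F) (h : LinearIndependent R (fun p : ℕ × ι => t ^ p.1 * y p.2)) :
    LinearIndependent (Algebra.adjoin R {t}) y := by
  classical
  rw [linearIndependent_iff']
  intro s g hg i hi
  have hP : ∀ j, ∃ P : R[X], aeval t P = (g j : F) := by
    intro j
    have h1 : (g j : F) ∈ (aeval t : R[X] →ₐ[R] F).range := by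
      rw [← Algebra.adjoin_singleton_eq_range_aeval]
      exact (g j).2
    exact h1
  choose P hP using hP
  let D := s.sup (fun j => (P j).natDegree) + 1
  have hD : ∀ j ∈ s, (P j).natDegree < D := fun j hj =>
    Nat.lt_succ_of_le (Finset.le_sup (f := fun j => (P j).natDegree) hj)
  have key : ∑ p ∈ Finset.range D ×ˢ s, (P p.2).coeff p.1 • (t ^ p.1 * y p.2) = 0 := by
    rw [Finset.sum_product_right, ← hg]
    refine Finset.sum_congr rfl fun j hj => ?_
    rw [Subalgebra.smul_def, ← hP j, aeval_eq_sum_range' (hD j hj), smul_eq_mul, Finset.sum_mul]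
    refine Finset.sum_congr rfl fun k _ => by rw [smul_mul_assoc]
  have h0 := linearIndependent_iff'.1 h _ (fun p => (P p.2).coeff p.1) key
  have hPi : P i = 0 := by
    ext k
    by_cases hk : k < D
    · exact h0 (k, i) (Finset.mem_product.2 ⟨Finset.mem_range.2 hk, hi⟩)
    · exact coeff_eq_zero_of_natDegree_lt (lt_of_lt_of_le (hD i hi) (not_lt.1 hk))
  apply Subtype.ext
  rw [← hP i, hPi]
  simp

variable {E K FE F : Type} [Field E] [Field K] [Algebra E K] [Field FE] [Algebra E FE] [Field F]
  [Algebra K F] (e : FE →+* F)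
  (he : ∀ c : E, e (algebraMap E FE c) = algebraMap K F (algebraMap E K c))
  (hLD : ∀ (n : ℕ) (c : Fin n → K) (z : Fin n → FE), LinearIndependent E c →
    ∑ i, algebraMap K F (c i) * e (z i) = 0 → ∀ i, z i = 0)

include he hLD

/-- linear disjointness, the other way round. -/
lemma Fin_LD {ι : Type*} (z : ι → FE) (hz : LinearIndependent E z) :
    LinearIndependent K (fun i => e (z i)) := by
  classical
  rw [linearIndependent_iff']
  intro s g hg i hi
  let V : Submodule E K := Submodule.span E (g '' (s : Set ι))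
  have : Module.Finite E V := Module.Finite.span_of_finite E (Set.Finite.image _ s.finite_toSet)
  let b := Module.finBasis E V
  let c : Fin (Module.finrank E V) → K := fun l => (b l : K)
  have hc : LinearIndependent E c := b.linearIndependent.map' V.subtype (Submodule.ker_subtype V)
  have hgV : ∀ j ∈ s, g j ∈ V := fun j hj => Submodule.subset_span ⟨j, hj, rfl⟩
  let ee : ι → Fin (Module.finrank E V) → E :=
    fun j l => if hj : j ∈ s then b.repr ⟨g j, hgV j hj⟩ l else 0
  have hge : ∀ j ∈ s, g j = ∑ l, ee j l • c l := by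
    intro j hj
    have h1 := congrArg (Subtype.val) (b.sum_repr ⟨g j, hgV j hj⟩)
    rw [AddSubmonoidClass.coe_finsetSum] at h1
    refine h1.symm.trans ?_
    refine Finset.sum_congr rfl fun l _ => ?_
    simp only [ee, dif_pos hj, c]
    rfl
  have key : ∑ l, algebraMap K F (c l) * e (∑ j ∈ s, ee j l • z j) = 0 := by
    rw [← hg]
    simp only [map_sum, Finset.mul_sum]
    rw [Finset.sum_comm]
    refine Finset.sum_congr rfl fun j hj => ?_
    conv_rhs => rw [hge j hj, Finset.sum_smul]
    refine Finset.sum_congr rfl fun l _ => ?_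
    rw [Algebra.smul_def, map_mul, he, Algebra.smul_def, Algebra.smul_def, map_mul]
    ring
  have h0 := hLD _ c _ hc key
  have h1 : ∀ l, ∀ j ∈ s, ee j l = 0 := fun l =>
    linearIndependent_iff'.1 hz s (fun j => ee j l) (h0 l)
  rw [hge i hi]
  exact Finset.sum_eq_zero fun l _ => by rw [h1 l i hi, zero_smul]

lemma Fin_transc {t : FE} (ht : Transcendental E t) : Transcendental K (e t) := by
  apply Fin_transc_of_linInd
  have := Fin_LD e he hLD _ (Fin_linInd_pow ht)
  simpa only [map_pow] using this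

open scoped IntermediateField.algebraAdjoinAdjoin in
lemma Fin_bound {t : FE} (ht : Transcendental E t) [FiniteDimensional K⟮e t⟯ F]
    {ι : Type*} [Fintype ι] (y : ι → FE) (hy : LinearIndependent E⟮t⟯ y) :
    Fintype.card ι ≤ Module.finrank K⟮e t⟯ F := by
  have h1 : LinearIndependent E (fun n : ℕ => (AdjoinSimple.gen E t) ^ n) := by
    apply LinearIndependent.of_comp (E⟮t⟯.val.toLinearMap)
    have h2 : (⇑(E⟮t⟯.val.toLinearMap) ∘ fun n : ℕ => (AdjoinSimple.gen E t) ^ n)
        = fun n : ℕ => t ^ n := by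
      ext n
      simp
    rw [h2]
    exact Fin_linInd_pow ht
  have h2 := linearIndependent_smul h1 hy
  have h3 := Fin_LD e he hLD _ h2
  have h4 : LinearIndependent K (fun p : ℕ × ι => (e t) ^ p.1 * e (y p.2)) := by
    have h5 : (fun p : ℕ × ι => e ((AdjoinSimple.gen E t) ^ p.1 • y p.2))
        = fun p : ℕ × ι => (e t) ^ p.1 * e (y p.2) := by
      ext p
      rw [IntermediateField.smul_def, smul_eq_mul, map_mul]
      simp
    rwa [h5] at h3
  have h5 := Fin_linInd_adjoin (e t) (fun i => e (y i)) h4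
  have h6 : LinearIndependent K⟮e t⟯ (fun i => e (y i)) :=
    (LinearIndependent.iff_fractionRing (Algebra.adjoin K {e t}) K⟮e t⟯).1 h5
  exact h6.fintype_card_le_finrank

lemma Fin_fd {t : FE} (ht : Transcendental E t) [FiniteDimensional K⟮e t⟯ F] :
    FiniteDimensional E⟮t⟯ FE := by
  rw [FiniteDimensional, ← Module.rank_lt_aleph0_iff]
  refine lt_of_le_of_lt (rank_le (n := Module.finrank K⟮e t⟯ F) fun s hs => ?_)
    (Cardinal.natCast_lt_aleph0)
  have := Fin_bound e he hLD ht (fun i : s => (i : FE)) hs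
  simpa using this

omit he hLD

variable {A₀ : Type} [CommRing A₀] [IsDomain A₀] [Algebra A₀ E] [IsFractionRing A₀ E]
  [Algebra A₀ FE] [IsScalarTower A₀ E FE]

omit [IsDomain A₀] [IsFractionRing A₀ E] in
lemma Fin_mem (t : FE) (x : PolyR A₀ t) : (x : FE) ∈ E⟮t⟯ := by
  have h : PolyR A₀ t ≤ E⟮t⟯.toSubalgebra.restrictScalars A₀ :=
    Algebra.adjoin_le (by
      intro y hy
      rw [Set.mem_singleton_iff.1 hy]
      exact mem_adjoin_simple_self E t)
  exact h x.2

/-- `A₀[t] → E(t)`. -/
abbrev Fin_alg (t : FE) : Algebra (PolyR A₀ t) E⟮t⟯ :=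
  (RingHom.codRestrict (algebraMap (PolyR A₀ t) FE) E⟮t⟯ (Fin_mem t)).toAlgebra

/-- every polynomial over `E` is a constant multiple of a polynomial over `A₀`. -/
lemma Fin_norm (t : FE) (r : E[X]) : ∃ (b : A₀) (x : PolyR A₀ t), b ≠ 0 ∧
    (x : FE) = algebraMap A₀ FE b * aeval t r := by
  obtain ⟨b, hbM, hb⟩ := IsLocalization.integerNormalization_spec (nonZeroDivisors A₀) r
  refine ⟨b, ⟨aeval t (IsLocalization.integerNormalization (nonZeroDivisors A₀) r), ?_⟩,
    nonZeroDivisors.ne_zero hbM, ?_⟩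
  · show _ ∈ Algebra.adjoin A₀ {t}
    rw [Algebra.adjoin_singleton_eq_range_aeval]
    exact ⟨_, rfl⟩
  · show aeval t (IsLocalization.integerNormalization (nonZeroDivisors A₀) r) = _
    rw [← aeval_map_algebraMap E, hb, ← algebraMap_smul E b r, map_smul, algebraMap_smul,
      Algebra.smul_def]

lemma Fin_frac (t : FE) :
    letI := Fin_alg (A₀ := A₀) (E := E) t
    IsFractionRing (PolyR A₀ t) E⟮t⟯ ∧ IsScalarTower (PolyR A₀ t) E⟮t⟯ FE := by
  let _ := Fin_alg (A₀ := A₀) (E := E) t
  have hcoe : ∀ x : PolyR A₀ t, ((algebraMap (PolyR A₀ t) E⟮t⟯ x : E⟮t⟯) : FE) = (x : FE) :=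
    fun _ => rfl
  have hinj : Function.Injective (algebraMap (PolyR A₀ t) E⟮t⟯) := by
    intro x y hxy
    apply Subtype.ext
    rw [← hcoe x, ← hcoe y, hxy]
  have : FaithfulSMul (PolyR A₀ t) E⟮t⟯ := (faithfulSMul_iff_algebraMap_injective _ _).2 hinj
  refine ⟨IsFractionRing.of_field _ _ fun z => ?_, IsScalarTower.of_algebraMap_eq fun _ => rfl⟩
  obtain ⟨r, s, hz⟩ := (mem_adjoin_simple_iff E (z : FE)).1 z.2
  obtain ⟨b, x, hb, hx⟩ := Fin_norm (A₀ := A₀) t r
  obtain ⟨b', x', hb', hx'⟩ := Fin_norm (A₀ := A₀) t s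
  have hinjA : Function.Injective (algebraMap A₀ FE) := by
    rw [IsScalarTower.algebraMap_eq A₀ E FE]
    exact (algebraMap E FE).injective.comp (IsFractionRing.injective A₀ E)
  have hbF : algebraMap A₀ FE b ≠ 0 := fun h => hb (hinjA (by rw [h, map_zero]))
  have hbF' : algebraMap A₀ FE b' ≠ 0 := fun h => hb' (hinjA (by rw [h, map_zero]))
  refine ⟨algebraMap A₀ (PolyR A₀ t) b' * x, algebraMap A₀ (PolyR A₀ t) b * x', ?_⟩
  apply Subtype.ext
  have e1 : ((algebraMap (PolyR A₀ t) E⟮t⟯ (algebraMap A₀ (PolyR A₀ t) b' * x) /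
      algebraMap (PolyR A₀ t) E⟮t⟯ (algebraMap A₀ (PolyR A₀ t) b * x') : E⟮t⟯) : FE)
      = (algebraMap A₀ FE b' * (x : FE)) / (algebraMap A₀ FE b * (x' : FE)) := rfl
  rw [e1, hz, hx, hx']
  have e2 : algebraMap A₀ FE b' * (algebraMap A₀ FE b * aeval t r)
      = (algebraMap A₀ FE b' * algebraMap A₀ FE b) * aeval t r := by ring
  have e3 : algebraMap A₀ FE b * (algebraMap A₀ FE b' * aeval t s)
      = (algebraMap A₀ FE b' * algebraMap A₀ FE b) * aeval t s := by ring
  rw [e2, e3, mul_div_mul_left _ _ (mul_ne_zero hbF' hbF)]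

include he hLD in
/-- **B5, abstract form.** -/
theorem Fin_abs (hFD : ∀ x : F, Transcendental K x → FiniteDimensional K⟮x⟯ F) (t : FE)
    (ht : Transcendental E t) : Transcendental A₀ t ∧ FinOverR (PolyR A₀ t) FE := by
  refine ⟨ht.restrictScalars (IsFractionRing.injective A₀ E), ?_⟩
  have := hFD (e t) (Fin_transc e he hLD ht)
  have hfd : FiniteDimensional E⟮t⟯ FE := Fin_fd e he hLD ht
  let _ := Fin_alg (A₀ := A₀) (E := E) t
  obtain ⟨h1, h2⟩ := Fin_frac (A₀ := A₀) (E := E) t
  exact Fermat.Agent.KL.PR2.finOverR_of_finiteDimensional (K := E⟮t⟯) hfd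

end Abs

open Fermat.Agent.S24 (Qbar FF) in
/-- **B5.** `F_E` is a function field of one variable over `E`. -/
theorem stmt_Fin (hL : Stmt_LinDisj) : Stmt_Fin := by
  intro A N _ t ht
  refine Fin_abs (E := IE A) (K := Qbar) (FE := FE A N) (F := FF N) (A₀ := AE A) (emb A N)
    (emb_algebraMap A N) ?_ ?_ t ht
  · intro n c z hc hsum i
    have h1 := congrArg (Subtype.val) hsum
    have h2 : ∑ i, algebraMap Qbar (LaurentSeries Qbar) (c i) * cmE A ((z i : FE A N) : LE A)
        = 0 := by
      rw [AddSubmonoidClass.coe_finsetSum] at h1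
      exact h1
    exact Subtype.ext (hL A n c (fun i => ((z i : FE A N) : LE A)) hc h2 i)
  · intro x hx
    have := (Fermat.Agent.S24.finrank_FF_le N).1
    exact Fermat.Agent.S24.finiteDimensional_adjoin_simple_of_transcendental
      (Fermat.Agent.S24.jF N) (Fermat.Agent.S24.DegBd.transcendental_jF N) x hx

end Fermat.Agent.S36.Base

end
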