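import Fermat.Agent.S36.Base.Interface

/-!
# S36 / Base, B7 : elements of `F_E` are quotients of `E`-polynomials in the `j_d`
-/

set_option autoImplicit false

noncomputable section

namespace Fermat.Agent.S36.Base

open Fermat.Agent.S24 (Qbar FF funAlg)
open Fermat.Agent.S24.QX (qExpHom)
open ModularCurve (coeffMap coeffEmb laurentBaseChange modularFunctionFieldFull)

variable (A : ValuationSubring Qbar) (N : ℕ) [NeZero N]

/-- `a ∈ E[j_d : d ∣ N]` (what we need of it). -/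
def Frac_R (a : LE A) : Prop :=
  a ∈ FE A N ∧ ∃ θ : funAlg N, cmE A a = ((qExpHom N θ : FF N) : LaurentSeries Qbar)

/-- quotients. -/
def Frac_Q (x : LE A) : Prop :=
  ∃ a₁ a₂ : LE A, Frac_R A N a₁ ∧ Frac_R A N a₂ ∧ a₂ ≠ 0 ∧ x * a₂ = a₁

variable {A N}

theorem Frac_R_const (c : IE A) : Frac_R A N (algebraMap (IE A) (LE A) c) := by
  refine ⟨(FE A N).algebraMap_mem c, algebraMap Qbar (funAlg N) (algebraMap (IE A) Qbar c), ?_⟩
  rw [cmE_algebraMap, AlgHom.commutes]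
  rfl

theorem Frac_R_zero : Frac_R A N 0 := by
  simpa using Frac_R_const (A := A) (N := N) 0

theorem Frac_R_one : Frac_R A N 1 := by
  simpa using Frac_R_const (A := A) (N := N) 1

theorem Frac_R_add {a b : LE A} (ha : Frac_R A N a) (hb : Frac_R A N b) : Frac_R A N (a + b) := by
  obtain ⟨ha1, θ, hθ⟩ := ha
  obtain ⟨hb1, θ', hθ'⟩ := hb
  refine ⟨add_mem ha1 hb1, θ + θ', ?_⟩
  have h : qExpHom N (θ + θ') = qExpHom N θ + qExpHom N θ' := (qExpHom N).toRingHom.map_add θ θ'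
  rw [map_add, hθ, hθ', h]
  rfl

theorem Frac_R_mul {a b : LE A} (ha : Frac_R A N a) (hb : Frac_R A N b) : Frac_R A N (a * b) := by
  obtain ⟨ha1, θ, hθ⟩ := ha
  obtain ⟨hb1, θ', hθ'⟩ := hb
  refine ⟨mul_mem ha1 hb1, θ * θ', ?_⟩
  rw [map_mul, map_mul, hθ, hθ']
  rfl

theorem Frac_R_neg {a : LE A} (ha : Frac_R A N a) : Frac_R A N (-a) := by
  obtain ⟨ha1, θ, hθ⟩ := ha
  refine ⟨neg_mem ha1, -θ, ?_⟩
  rw [map_neg, map_neg, hθ]
  rfl

theorem Frac_R_gen (d : ℕ) [NeZero d] (hd : d ∣ N) :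
    Frac_R A N (coeffEmb (IE A) (ModularCurve.qExpand ℚ d ModularCurve.jq)) := by
  refine ⟨ModularCurve.coeffEmb_mem_laurentBaseChange (IE A) (ModularCurve.jqd_mem_full N hd),
    Fermat.Agent.S24.jAlg N d hd, ?_⟩
  rw [cmE_coeffEmb, Fermat.Agent.S24.QX.qExpHom_jAlg]
  rfl

theorem Frac_Q_of_R {a : LE A} (ha : Frac_R A N a) : Frac_Q A N a :=
  ⟨a, 1, ha, Frac_R_one, one_ne_zero, mul_one a⟩

theorem Frac_Q_add {x y : LE A} (hx : Frac_Q A N x) (hy : Frac_Q A N y) : Frac_Q A N (x + y) := by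
  obtain ⟨a₁, a₂, h1, h2, h0, h⟩ := hx
  obtain ⟨b₁, b₂, g1, g2, g0, g⟩ := hy
  refine ⟨a₁ * b₂ + b₁ * a₂, a₂ * b₂, Frac_R_add (Frac_R_mul h1 g2) (Frac_R_mul g1 h2),
    Frac_R_mul h2 g2, mul_ne_zero h0 g0, ?_⟩
  rw [← h, ← g]
  ring

theorem Frac_Q_mul {x y : LE A} (hx : Frac_Q A N x) (hy : Frac_Q A N y) : Frac_Q A N (x * y) := by
  obtain ⟨a₁, a₂, h1, h2, h0, h⟩ := hx
  obtain ⟨b₁, b₂, g1, g2, g0, g⟩ := hy
  refine ⟨a₁ * b₁, a₂ * b₂, Frac_R_mul h1 g1, Frac_R_mul h2 g2, mul_ne_zero h0 g0, ?_⟩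
  rw [← h, ← g]
  ring

theorem Frac_Q_neg {x : LE A} (hx : Frac_Q A N x) : Frac_Q A N (-x) := by
  obtain ⟨a₁, a₂, h1, h2, h0, h⟩ := hx
  refine ⟨-a₁, a₂, Frac_R_neg h1, h2, h0, ?_⟩
  rw [← h]
  ring

theorem Frac_Q_inv {x : LE A} (hx : Frac_Q A N x) : Frac_Q A N x⁻¹ := by
  by_cases hx0 : x = 0
  · rw [hx0, inv_zero]
    exact Frac_Q_of_R Frac_R_zero
  obtain ⟨a₁, a₂, h1, h2, h0, h⟩ := hx
  refine ⟨a₂, a₁, h2, h1, ?_, ?_⟩
  · rw [← h]
    exact mul_ne_zero hx0 h0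
  · rw [← h, ← mul_assoc, inv_mul_cancel₀ hx0, one_mul]

theorem Frac_coeffEmb_algebraMap (c : ℚ) :
    coeffEmb (IE A) (algebraMap ℚ (LaurentSeries ℚ) c)
      = algebraMap (IE A) (LE A) (algebraMap ℚ (IE A) c) := by
  rw [ModularCurve.algebraMap_laurentSeries_eq_single,
    ModularCurve.algebraMap_laurentSeries_eq_single]
  exact ModularCurve.coeffMap_single _ _ _

theorem Frac_Q_coeffEmb {z : LaurentSeries ℚ} (hz : z ∈ modularFunctionFieldFull N) :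
    Frac_Q A N (coeffEmb (IE A) z) := by
  unfold ModularCurve.modularFunctionFieldFull at hz
  induction hz using IntermediateField.adjoin_induction with
  | mem x hx =>
    obtain ⟨d, hd0, hd, rfl⟩ := hx
    exact Frac_Q_of_R (Frac_R_gen d hd)
  | algebraMap c =>
    rw [Frac_coeffEmb_algebraMap]
    exact Frac_Q_of_R (Frac_R_const _)
  | add x y _ _ hx hy => rw [map_add]; exact Frac_Q_add hx hy
  | inv x _ hx => rw [map_inv₀]; exact Frac_Q_inv hx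
  | mul x y _ _ hx hy => rw [map_mul]; exact Frac_Q_mul hx hy

theorem Frac_Q_of_mem {x : LE A} (hx : x ∈ FE A N) : Frac_Q A N x := by
  rw [ModularCurve.mem_laurentBaseChange_iff] at hx
  induction hx using Subfield.closure_induction with
  | mem y hy =>
      rcases hy with ⟨a, rfl⟩ | ⟨z, hz, rfl⟩
      · exact Frac_Q_of_R (Frac_R_const a)
      · exact Frac_Q_coeffEmb hz
  | one => exact Frac_Q_of_R Frac_R_one
  | add x y _ _ hx hy => exact Frac_Q_add hx hy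
  | neg x _ hx => exact Frac_Q_neg hx
  | inv x _ hx => exact Frac_Q_inv hx
  | mul x y _ _ hx hy => exact Frac_Q_mul hx hy

theorem stmt_Frac : Stmt_Frac := by
  intro A N _ x
  obtain ⟨a₁, a₂, ⟨h1, θ₁, hθ₁⟩, ⟨h2, θ₂, hθ₂⟩, h0, h⟩ := Frac_Q_of_mem (A := A) (N := N) x.2
  refine ⟨θ₁, θ₂, ⟨a₁, h1⟩, ⟨a₂, h2⟩, ?_, Subtype.ext h, Subtype.ext ?_, Subtype.ext ?_⟩
  · intro h'
    exact h0 (congrArg Subtype.val h')
  · rw [coe_emb]; exact hθ₁
  · rw [coe_emb]; exact hθ₂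

end Fermat.Agent.S36.Base

end

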