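import Fermat.Agent.S36.Base.Interface

/-!
# S36 / Base, package B0a : `L · F₀` is the `L`-span of `F₀` (`L / ℚ` algebraic)
-/

set_option autoImplicit false

noncomputable section

namespace Fermat.Agent.S36.Base

open ModularCurve (coeffMap coeffEmb laurentBaseChange modularFunctionFieldFull)

/-- abstract form: the compositum of `L` and `K₀` is the `L`-span of `K₀` if the elements of `L` are
integral over `K₀`. -/
theorem Span_abs {Ω L : Type*} [Field Ω] [Field L] [Algebra L Ω] (K₀ : Subfield Ω)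
    (hint : ∀ c : L, IsIntegral K₀ (algebraMap L Ω c)) (x : Ω)
    (hx : x ∈ Subfield.closure (Set.range (algebraMap L Ω) ∪ (K₀ : Set Ω))) :
    ∃ (n : ℕ) (c : Fin n → L) (g : Fin n → Ω), (∀ i, g i ∈ K₀) ∧
      x = ∑ i, algebraMap L Ω (c i) * g i := by
  set W : Subalgebra L Ω := Algebra.adjoin L (K₀ : Set Ω) with hW
  set S' : Subalgebra K₀ Ω := Algebra.adjoin K₀ (Set.range (algebraMap L Ω)) with hS'
  have hWS : ∀ y ∈ W, y ∈ S' := by
    intro y hy
    induction hy using Algebra.adjoin_induction with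
    | mem y hy => exact S'.algebraMap_mem ⟨y, hy⟩
    | algebraMap c => exact Algebra.subset_adjoin ⟨c, rfl⟩
    | add y z _ _ hy hz => exact add_mem hy hz
    | mul y z _ _ hy hz => exact mul_mem hy hz
  have hSW : ∀ y ∈ S', y ∈ W := by
    intro y hy
    induction hy using Algebra.adjoin_induction with
    | mem y hy => obtain ⟨c, rfl⟩ := hy; exact W.algebraMap_mem c
    | algebraMap c => exact Algebra.subset_adjoin c.2
    | add y z _ _ hy hz => exact add_mem hy hz
    | mul y z _ _ hy hz => exact mul_mem hy hz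
  have hSint : ∀ y ∈ S', IsIntegral K₀ y := by
    intro y hy
    have hle : S' ≤ integralClosure K₀ Ω := Algebra.adjoin_le (by
      rintro _ ⟨c, rfl⟩
      exact hint c)
    exact hle hy
  have hinv : ∀ y ∈ W, y⁻¹ ∈ W := by
    intro y hy
    have hy' := hWS y hy
    exact hSW _ (Subalgebra.inv_mem_of_algebraic S' (x := ⟨y, hy'⟩) (hSint y hy').isAlgebraic)
  have hxW : x ∈ W := by
    induction hx using Subfield.closure_induction with
    | mem y hy =>
      rcases hy with ⟨c, rfl⟩ | hy
      · exact W.algebraMap_mem c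
      · exact Algebra.subset_adjoin hy
    | one => exact one_mem W
    | add y z _ _ hy hz => exact add_mem hy hz
    | neg y _ hy => exact neg_mem hy
    | inv y _ hy => exact hinv y hy
    | mul y z _ _ hy hz => exact mul_mem hy hz
  have h1 : x ∈ Subalgebra.toSubmodule W := hxW
  rw [hW, Algebra.adjoin_eq_span] at h1
  have h2 : (Submonoid.closure (K₀ : Set Ω) : Set Ω) = (K₀ : Set Ω) := by
    have := Submonoid.closure_eq K₀.toSubring.toSubmonoid
    exact congrArg (fun M : Submonoid Ω => (M : Set Ω)) this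
  rw [h2, Submodule.mem_span_set'] at h1
  obtain ⟨n, c, g, hg⟩ := h1
  refine ⟨n, c, fun i => (g i : Ω), fun i => (g i).2, ?_⟩
  rw [← hg]
  exact Finset.sum_congr rfl fun i _ => Algebra.smul_def _ _

theorem stmt_Span : Stmt_Span := by
  intro L _ _ _ F₀ x hx
  rw [ModularCurve.mem_laurentBaseChange_iff] at hx
  set K₀ : Subfield (LaurentSeries L) := F₀.toSubfield.map (coeffEmb L) with hK₀
  have hcoe : (K₀ : Set (LaurentSeries L)) = ⇑(coeffEmb L) '' (F₀ : Set (LaurentSeries ℚ)) := rfl
  -- the constants are integral over `K₀`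
  have hint : ∀ c : L, IsIntegral K₀ (algebraMap L (LaurentSeries L) c) := by
    intro c
    have hc : IsIntegral ℚ c := Algebra.IsIntegral.isIntegral c
    let ψ₀ : ℚ →+* K₀ := ((coeffEmb L).comp (algebraMap ℚ (LaurentSeries ℚ))).codRestrict K₀
      (fun q => ⟨algebraMap ℚ (LaurentSeries ℚ) q, F₀.algebraMap_mem q, rfl⟩)
    exact IsIntegral.map_of_comp_eq ψ₀ (algebraMap L (LaurentSeries L))
      (Subsingleton.elim _ _) hc
  obtain ⟨n, c, g, hgK, hg⟩ := Span_abs K₀ hint x (by rw [hcoe]; exact hx)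
  have hg' : ∀ i, ∃ f : LaurentSeries ℚ, f ∈ F₀ ∧ coeffEmb L f = g i := by
    intro i
    obtain ⟨f, hf, e⟩ := hgK i
    exact ⟨f, hf, e⟩
  choose f hf hfe using hg'
  refine ⟨n, c, f, hf, ?_⟩
  rw [hg]
  refine Finset.sum_congr rfl fun i _ => ?_
  rw [hfe]

end Fermat.Agent.S36.Base

end
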