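import Mathlib

/-!
# S36 / Base : the inertia field is unramified (abstract form, helper38)

Complement to `Mathlib/NumberTheory/RamificationInertia/HilbertTheory.lean`: if `E` is the inertia
field of `P` in `L/K` and `𝓟E` is the prime of `E` below `P`, then `𝓟E` is unramified over `K`.
-/

set_option autoImplicit false

namespace Fermat.Agent.S36.Base

open MulAction Pointwise Ideal

variable (A K L : Type*) {B : Type*} [Field K] [Field L] [Algebra K L] [CommRing A] [CommRing B]
  [Algebra A B] {p : Ideal A} (P : Ideal B) [P.LiesOver p]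
variable [Algebra A K] [IsFractionRing A K] [Algebra A L] [IsScalarTower A K L] [Algebra B L]
  [IsScalarTower A B L] [IsFractionRing B L] [MulSemiringAction Gal(L/K) B]
  [SMulDistribClass Gal(L/K) B L]
variable (E 𝓞E : Type*) [Field E] [Algebra E L] [IsInertiaField K L P E] [CommRing 𝓞E]
  [Algebra 𝓞E E] [IsFractionRing 𝓞E E] [Algebra 𝓞E B] [Algebra 𝓞E L] [IsScalarTower 𝓞E E L]
  [IsScalarTower 𝓞E B L] (𝓟E : Ideal 𝓞E) [hE : P.LiesOver 𝓟E]
variable [IsGalois K L] [IsDedekindDomain A] [IsDedekindDomain B] [Module.Finite A B]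
  [Module.IsTorsionFree A B] [Algebra A 𝓞E] [Module.Finite A 𝓞E] [IsScalarTower A 𝓞E B]
  [IsDedekindDomain 𝓞E] [𝓟E.LiesOver p]
variable [FiniteDimensional K L] [Ring.HasFiniteQuotients A] [𝓟E.IsMaximal] [P.IsMaximal]

include K L E P in
/-- the prime of the inertia field below `P` is unramified over `K`. -/
theorem Unram_ramIdx_inertiaField (hp : p ≠ ⊥) : 𝓟E.ramificationIdx A = 1 := by
  have inst₁ : Module.Finite 𝓞E B := Module.Finite.right A 𝓞E B
  have inst₂ : Module.IsTorsionFree 𝓞E B := by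
    rw [Module.isTorsionFree_iff_faithfulSMul]
    apply Algebra.IsAlgebraic.faithfulSMul_tower_top A
  have inst₃ : Module.IsTorsionFree A 𝓞E := Module.IsTorsionFree.of_faithfulSMul _ _ B
  have inst₄ : IsGaloisGroup Gal(L/K) A B := .of_isFractionRing _ _ _ K L
  have inst₅ : IsGaloisGroup (inertia Gal(L/K) P) 𝓞E B := .of_isFractionRing _ _ _ E L
  have h𝓟 : 𝓟E ≠ ⊥ := Ideal.ne_bot_of_liesOver_of_ne_bot hp 𝓟E
  have : p.IsMaximal := over_def P p ▸ Ideal.IsMaximal.under A P
  have : Finite (A ⧸ p) := Ring.HasFiniteQuotients.finiteQuotient hp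
  have h1 := card_inertia_eq_ramificationIdxIn (G := Gal(L/K)) p P
  have : Ring.HasFiniteQuotients 𝓞E := Ring.HasFiniteQuotients.of_module_finite A 𝓞E
  have : Finite (𝓞E ⧸ 𝓟E) := Ring.HasFiniteQuotients.finiteQuotient h𝓟
  have h2 := card_inertia_eq_ramificationIdxIn (G := inertia Gal(L/K) P) 𝓟E P
  have h3 : Nat.card (P.inertia (inertia Gal(L/K) P)) = Nat.card (inertia Gal(L/K) P) := by
    have : P.inertia (inertia Gal(L/K) P) = ⊤ := by
      rw [eq_top_iff]
      intro σ _
      exact σ.2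
    rw [this]
    exact Subgroup.card_top
  have h4 := ramificationIdx_tower (R := A) 𝓟E P
  rw [ramificationIdxIn_eq_ramificationIdx p P Gal(L/K)] at h1
  rw [ramificationIdxIn_eq_ramificationIdx 𝓟E P (inertia Gal(L/K) P)] at h2
  rw [← h1, ← h2, h3] at h4
  have h5 : 0 < Nat.card (inertia Gal(L/K) P) := Nat.card_pos
  exact (right_eq_mul₀ h5.ne').1 h4

end Fermat.Agent.S36.Base
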