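import Fermat.Agent.S36.Base.Interface
import Fermat.Agent.S36.Base.UnramAbs
import Fermat.Agent.CFT.GN.DictAB
import Fermat.Agent.S14.DIC

set_option autoImplicit false

namespace Fermat.Agent.S36.Base

open MulAction Pointwise Ideal NumberField IsDedekindDomain

theorem Unram_lt_exp_neg_one (x : WithZero (Multiplicative ℤ)) (h : x < WithZero.exp (-1 : ℤ)) :
    x ≤ WithZero.exp (-((2 : ℕ) : ℤ)) := by
  rcases eq_or_ne x 0 with rfl | hx
  · exact zero_le
  · obtain ⟨n, rfl⟩ : ∃ n : ℤ, x = WithZero.exp n := ⟨WithZero.log x, (WithZero.exp_log hx).symm⟩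
    rw [WithZero.exp_lt_exp] at h
    rw [WithZero.exp_le_exp]
    push_cast
    omega

/-- ramification index one implies that `q` is a uniformiser at `v`. -/
theorem Unram_val_q (F : Type) [Field F] [NumberField F] (v : HeightOneSpectrum (𝓞 F))
    (q : ℕ) (hq : q.Prime) (hqv : (q : 𝓞 F) ∈ v.asIdeal)
    (he : v.asIdeal.ramificationIdx ℤ = 1) :
    v.valuation F (q : F) = WithZero.exp (-1 : ℤ) := by
  set P : Ideal (𝓞 F) := v.asIdeal with hP
  have hPmax : P.IsMaximal := v.isMaximal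
  have hq0 : ((q : ℤ)) ∈ P.under ℤ := by
    rw [Ideal.mem_comap]
    simpa using hqv
  have hp0 : P.under ℤ ≠ ⊥ := by
    intro h0
    rw [h0, Ideal.mem_bot] at hq0
    exact hq.ne_zero (by exact_mod_cast hq0)
  have h3 := Ideal.ramificationIdx'_eq_ramificationIdx (P.under ℤ) P hp0
  rw [he] at h3
  have hspan : P.under ℤ = Ideal.span {(q : ℤ)} := by
    have hmax : (Ideal.span {(q : ℤ)}).IsMaximal := by
      have := (Int.prime_iff_natAbs_prime (k := (q : ℤ))).2 (by simpa using hq)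
      exact PrincipalIdealRing.isMaximal_of_irreducible this.irreducible
    refine (hmax.eq_of_le ?_ ?_).symm
    · exact Ideal.IsPrime.ne_top inferInstance
    · rwa [Ideal.span_singleton_le_iff_mem]
  have h4 : ¬ (q : 𝓞 F) ∈ P ^ 2 := by
    intro h5
    have h6 : (P.under ℤ).map (algebraMap ℤ (𝓞 F)) ≤ P := Ideal.map_comap_le
    refine (Ideal.ramificationIdx'_ne_one_iff h6).2 ?_ h3
    rw [hspan, Ideal.map_span, Set.image_singleton, Ideal.span_singleton_le_iff_mem]
    simpa using h5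
  have h7 : v.valuation F (q : F) = v.intValuation (q : 𝓞 F) := by
    rw [← HeightOneSpectrum.valuation_of_algebraMap (K := F)]
    simp
  rw [h7]
  apply le_antisymm
  · have := (v.intValuation_le_pow_iff_mem (q : 𝓞 F) 1).2 (by simpa using hqv)
    simpa using this
  · by_contra hlt
    rw [not_le] at hlt
    apply h4
    rw [← v.intValuation_le_pow_iff_mem]
    exact Unram_lt_exp_neg_one _ hlt

/-- number field level: an element fixed by the inertia group of `P` is `r ^ (-k) * n / d` with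
`n, d ∉ P`. -/
theorem Unram_nf (L : Type) [Field L] [NumberField L] [IsGalois ℚ L] (P : Ideal (𝓞 L))
    [P.IsMaximal] (r : ℕ) (hr : r.Prime) (hrP : (r : 𝓞 L) ∈ P) (x : L) (hx0 : x ≠ 0)
    (hfix : ∀ σ ∈ inertia Gal(L/ℚ) P, σ x = x) :
    ∃ (k : ℤ) (n d : 𝓞 L), n ∉ P ∧ d ∉ P ∧ x * (r : L) ^ k * (d : L) = (n : L) := by
  let E : IntermediateField ℚ L := FixedPoints.intermediateField (inertia Gal(L/ℚ) P)
  let 𝓟E : Ideal (𝓞 E) := P.under (𝓞 E)
  have : 𝓟E.IsMaximal := Ideal.IsMaximal.under (𝓞 E) P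
  have : 𝓟E.LiesOver (P.under ℤ) := ⟨by
    show P.under ℤ = (P.under (𝓞 E)).under ℤ
    rw [Ideal.under_under]⟩
  have hq0 : ((r : ℤ)) ∈ P.under ℤ := by
    rw [Ideal.mem_comap]
    simpa using hrP
  have hp0 : P.under ℤ ≠ ⊥ := by
    intro h0
    rw [h0, Ideal.mem_bot] at hq0
    exact hr.ne_zero (by exact_mod_cast hq0)
  have he : 𝓟E.ramificationIdx ℤ = 1 :=
    Unram_ramIdx_inertiaField ℤ ℚ L P E (𝓞 E) 𝓟E hp0
  have h𝓟0 : 𝓟E ≠ ⊥ := Ideal.ne_bot_of_liesOver_of_ne_bot hp0 𝓟E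
  let w : HeightOneSpectrum (𝓞 E) := ⟨𝓟E, inferInstance, h𝓟0⟩
  have hrw : (r : 𝓞 E) ∈ w.asIdeal := by
    show algebraMap (𝓞 E) (𝓞 L) (r : 𝓞 E) ∈ P
    simpa using hrP
  have hval := Unram_val_q E w r hr hrw he
  let x' : E := ⟨x, fun σ => hfix σ.1 σ.2⟩
  have hx'0 : x' ≠ 0 := fun h => hx0 (congrArg Subtype.val h)
  have hvx0 : w.valuation E x' ≠ 0 := (Valuation.ne_zero_iff _).2 hx'0
  obtain ⟨m, hm⟩ : ∃ m : ℤ, w.valuation E x' = WithZero.exp (-m) :=
    ⟨-WithZero.log (w.valuation E x'), by rw [neg_neg, WithZero.exp_log hvx0]⟩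
  let y : E := x' * (r : E) ^ (-m)
  have hy : w.valuation E y = 1 := by
    simp only [y, map_mul, map_zpow₀, hval, hm]
    rw [← WithZero.exp_zsmul, ← WithZero.exp_add]
    simp
  obtain ⟨n, d, hnd⟩ := w.exists_primeCompl_mul_eq_of_integer y hy.le
  have hd : w.valuation E (algebraMap (𝓞 E) E (d : 𝓞 E)) = 1 :=
    (HeightOneSpectrum.valuation_eq_one_iff_notMem (K := E) (v := w)).mpr d.2
  have hn : n ∉ 𝓟E := by
    have h2 := congrArg (w.valuation E) hnd
    rw [map_mul, hy, hd, one_mul] at h2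
    exact (HeightOneSpectrum.valuation_eq_one_iff_notMem (K := E) (v := w)).mp h2.symm
  refine ⟨-m, algebraMap (𝓞 E) (𝓞 L) n, algebraMap (𝓞 E) (𝓞 L) d, hn, d.2, ?_⟩
  have h3 := congrArg (algebraMap E L) hnd
  rw [map_mul, map_mul, map_zpow₀, map_natCast] at h3
  exact h3


open Fermat.Agent.S24 (Qbar) in
/-- B1a. -/
theorem stmt_Unram : Stmt_Unram := by
  intro r A hr hA x hx0 hfix
  have : Algebra.IsAlgebraic ℚ Qbar := AlgebraicClosure.isAlgebraic ℚ
  have : IsAlgClosure ℚ Qbar := ⟨inferInstance, inferInstance⟩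
  have : Normal ℚ Qbar := IsAlgClosure.normal ℚ Qbar
  have : IsGalois ℚ Qbar := ⟨⟩
  have hint : IsIntegral ℚ x := Algebra.IsIntegral.isIntegral x
  have : FiniteDimensional ℚ (IntermediateField.adjoin ℚ {x}) :=
    IntermediateField.adjoin.finiteDimensional hint
  let L : IntermediateField ℚ Qbar :=
    IntermediateField.normalClosure ℚ (IntermediateField.adjoin ℚ {x}) Qbar
  have hfd : FiniteDimensional ℚ L :=
    normalClosure.is_finiteDimensional ℚ (IntermediateField.adjoin ℚ {x}) Qbar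
  have hNF : NumberField L := { to_charZero := inferInstance, to_finiteDimensional := hfd }
  have hnorm : Normal ℚ L := normalClosure.normal ℚ (IntermediateField.adjoin ℚ {x}) Qbar
  have hG : IsGalois ℚ L := ⟨⟩
  have hxL : x ∈ L :=
    IntermediateField.le_normalClosure _ (IntermediateField.mem_adjoin_simple_self ℚ x)
  obtain ⟨v, hv⟩ := (Fermat.Agent.CFT.GN.dictA L).2.1 A r hr hA
  have hA' : (r : Qbar) ∈ A.nonunits := hA
  have hrv : (r : 𝓞 L) ∈ v.asIdeal := (hv _).2 (by simpa using hA')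
  have := v.isMaximal
  obtain ⟨k, n, d, hn, hd, hnd⟩ := Unram_nf L v.asIdeal r hr hrv ⟨x, hxL⟩
    (fun h => hx0 (congrArg Subtype.val h)) (by
    intro h hh
    obtain ⟨σ₀, rfl⟩ := AlgEquiv.restrictNormalHom_surjective (F := ℚ) (K₁ := L) Qbar h
    have hσ : ∀ y : L, σ₀ (y : Qbar) = ((AlgEquiv.restrictNormalHom L σ₀) y : Qbar) :=
      fun y => (AlgEquiv.restrictNormal_commutes σ₀ L y).symm
    have hUo : IsOpen (L.fixingSubgroup : Set (Qbar ≃ₐ[ℚ] Qbar)) :=
      IntermediateField.fixingSubgroup_isOpen L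
    have hUn : L.fixingSubgroup.Normal := (InfiniteGalois.normal_iff_isGalois L).2 hG
    obtain ⟨u, hu, hu2⟩ := Fermat.Agent.S14.stmt_DIC L.fixingSubgroup hUo hUn A r hr hA σ₀ (by
      intro b hb hfixb
      have hbL : b ∈ L := by
        rw [← InfiniteGalois.fixedField_fixingSubgroup L, IntermediateField.mem_fixedField_iff]
        exact hfixb
      have hb' : IsIntegral ℤ (⟨b, hbL⟩ : L) :=
        (isIntegral_algebraMap_iff (algebraMap L Qbar).injective).mp hb
      let z : 𝓞 L := ⟨⟨b, hbL⟩, hb'⟩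
      have h1 := (hv _).1 (hh z)
      have h2 : ((((AlgEquiv.restrictNormalHom L σ₀) • z - z : 𝓞 L) : L) : Qbar) = σ₀ b - b := by
        have := hσ ⟨b, hbL⟩
        rw [this]
        rfl
      rwa [h2] at h1)
    have h5 : u (σ₀ x) = x := hfix (u * σ₀) hu2
    have h6 := hσ ⟨x, hxL⟩
    have h7 : σ₀ x = ((AlgEquiv.restrictNormalHom L σ₀) ⟨x, hxL⟩ : Qbar) := h6
    rw [h7, (IntermediateField.mem_fixingSubgroup_iff L u).mp hu _ (Subtype.mem _)] at h5
    exact Subtype.ext h5)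
  have h1 : x * (r : Qbar) ^ k * Fermat.Agent.CFT.GN.DictAB.iota L d
      = Fermat.Agent.CFT.GN.DictAB.iota L n := by
    have := congrArg (algebraMap L Qbar) hnd
    rw [map_mul, map_mul, map_zpow₀, map_natCast] at this
    exact this
  have h2 := congrArg A.valuation h1
  rw [map_mul, Fermat.Agent.CFT.GN.DictAB.val_eq_one_of_not_mem L hv hd,
    Fermat.Agent.CFT.GN.DictAB.val_eq_one_of_not_mem L hv hn, mul_one] at h2
  refine ⟨k, (A.valuation_le_one_iff _).1 h2.le, (A.valuation_le_one_iff _).1 ?_⟩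
  rw [map_inv₀, h2, inv_one]

end Fermat.Agent.S36.Base
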