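import Fermat.Agent.S36.Base.Interface
import Fermat.Agent.S24.PlaceBasic

/-!
# S36 / Base, package HD2 (helper2): constant field extensions are unramified (`Stmt_EOne`)

`R = Kb[i(O)] ⊆ Fb`.  The ring `R / i(π) R` is a quotient of `Kb ⊗_E κ(O)`, which is von Neumann
regular (characteristic zero): for every `x ∈ R` there are `y, x₁ ∈ R` with
`x (1 - x y) = i(π) x₁` (`EOne_vnr`; primitive element theorem + a gcd computation in `Kb[X]`).
Hence `P.ord (i π) ∣ P.ord x` for all `x ∈ R`, by induction on `P.ord x`.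
-/

set_option autoImplicit false
set_option linter.style.haveILetI false

noncomputable section

namespace Fermat.Agent.S36.Base

open AlgebraicCurve Polynomial

/-! ### polynomials -/

/-- `K[X] / (h)` is von Neumann regular for separable `h`. -/
theorem EOne_poly {K : Type*} [Field K] (h G : K[X]) (hs : h.Separable) :
    ∃ u Q : K[X], G * (1 - G * u) = Q * h := by
  obtain ⟨d, G', h', hG', hh', a, b, hab⟩ :
      ∃ d G' h' : K[X], G = d * G' ∧ h = d * h' ∧ ∃ a b : K[X], d = G * a + h * b := by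
    classical
    obtain ⟨G', hG'⟩ := EuclideanDomain.gcd_dvd_left G h
    obtain ⟨h', hh'⟩ := EuclideanDomain.gcd_dvd_right G h
    exact ⟨_, G', h', hG', hh', _, _, EuclideanDomain.gcd_eq_gcd_ab G h⟩
  subst hG' hh'
  have hd0 : d ≠ 0 := left_ne_zero_of_mul hs.ne_zero
  have hc1 : IsCoprime G' h' := by
    refine ⟨a, b, mul_left_cancel₀ hd0 ?_⟩
    rw [mul_one]
    conv_rhs => rw [hab]
    ring
  obtain ⟨u, v, huv⟩ : IsCoprime (d * G') h' := hs.isCoprime.mul_left hc1
  refine ⟨u, G' * v, ?_⟩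
  have h1 : 1 - d * G' * u = v * h' := by rw [← huv]; ring
  rw [h1]
  ring

/-! ### primitive elements in the residue field -/

theorem EOne_PE (E R : Type) [Field E] [CharZero E] [CommRing R] [IsLocalRing R] [Algebra E R]
    (halg : ∀ z : R, ∃ h : E[X], h ≠ 0 ∧ aeval z h ∈ IsLocalRing.maximalIdeal R)
    (s : ℕ) (z : Fin s → R) :
    ∃ (b : R) (h : E[X]) (g : Fin s → E[X]), h.Separable ∧
      aeval b h ∈ IsLocalRing.maximalIdeal R ∧
      ∀ j, z j - aeval b (g j) ∈ IsLocalRing.maximalIdeal R := by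
  have hres : ∀ (x : R) (p : E[X]), aeval (IsLocalRing.residue R x) p =
      IsLocalRing.residue R (aeval x p) :=
    fun x p => aeval_algebraMap_apply (IsLocalRing.ResidueField R) x p
  have hint : ∀ y : IsLocalRing.ResidueField R, IsIntegral E y := by
    intro y
    obtain ⟨x, rfl⟩ := IsLocalRing.residue_surjective y
    obtain ⟨h, h0, hh⟩ := halg x
    exact IsAlgebraic.isIntegral
      ⟨h, h0, by rw [hres]; exact (IsLocalRing.residue_eq_zero_iff _).2 hh⟩
  let κ0 : IntermediateField E (IsLocalRing.ResidueField R) :=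
    IntermediateField.adjoin E (Set.range fun j => IsLocalRing.residue R (z j))
  haveI : FiniteDimensional E κ0 := IntermediateField.finiteDimensional_adjoin (fun x _ => hint x)
  obtain ⟨α, hα⟩ := Field.exists_primitive_element E κ0
  obtain ⟨b, hb⟩ := IsLocalRing.residue_surjective (α : IsLocalRing.ResidueField R)
  have hαalg : IsAlgebraic E α := IsAlgebraic.of_finite E α
  have hcoe : ∀ p : E[X], ((aeval α p : κ0) : IsLocalRing.ResidueField R) =
      IsLocalRing.residue R (aeval b p) := by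
    intro p
    rw [← hres, hb]
    exact (aeval_algebraMap_apply (IsLocalRing.ResidueField R) α p).symm
  have hg : ∀ j, ∃ g : E[X], IsLocalRing.residue R (aeval b g) = IsLocalRing.residue R (z j) := by
    intro j
    have hmem : IsLocalRing.residue R (z j) ∈ κ0 := IntermediateField.subset_adjoin _ _ ⟨j, rfl⟩
    have h1 : (⟨_, hmem⟩ : κ0) ∈ (IntermediateField.adjoin E {α}).toSubalgebra := by
      rw [hα]; trivial
    rw [IntermediateField.adjoin_simple_toSubalgebra_of_isAlgebraic hαalg,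
      Algebra.adjoin_singleton_eq_range_aeval] at h1
    obtain ⟨g, hg⟩ := h1
    refine ⟨g, ?_⟩
    rw [← hcoe]
    exact congrArg Subtype.val hg
  choose g hg using hg
  refine ⟨b, minpoly E α, g, Algebra.IsSeparable.isSeparable E α, ?_, fun j => ?_⟩
  · rw [← IsLocalRing.residue_eq_zero_iff, ← hcoe, minpoly.aeval]
    rfl
  · rw [← IsLocalRing.residue_eq_zero_iff, map_sub, hg, sub_self]

/-! ### the ring `R = Kb[i(O)]` -/

section Main

variable {E Kb F Fb : Type} [Field E] [CharZero E] [Field Kb] [Field F] [Field Fb] [Algebra E Kb]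
    [Algebra E F] [Algebra Kb Fb] [Algebra F Fb] [Algebra E Fb] [IsScalarTower E Kb Fb]
    [IsScalarTower E F Fb]

omit [Field Kb] [Field Fb] [Algebra E Kb] [Algebra Kb Fb] [Algebra F Fb] [Algebra E Fb]
  [IsScalarTower E Kb Fb] [IsScalarTower E F Fb] in
theorem EOne_PE_O (O : ValuationSubring F) (h1 : ∀ c : E, algebraMap E F c ∈ O)
    (h6 : ∀ z ∈ O, ∃ h : E[X], h ≠ 0 ∧ aeval z h ∈ O.nonunits) (s : ℕ) (z : Fin s → F)
    (hz : ∀ j, z j ∈ O) :
    ∃ (b : F) (h : E[X]) (g : Fin s → E[X]), b ∈ O ∧ h.Separable ∧ aeval b h ∈ O.nonunits ∧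
      ∀ j, z j - aeval b (g j) ∈ O.nonunits := by
  letI : Algebra E O := ((algebraMap E F).codRestrict O.toSubring h1).toAlgebra
  haveI : IsScalarTower E O F := IsScalarTower.of_algebraMap_eq fun _ => rfl
  have hcoe : ∀ (x : O) (p : E[X]), ((aeval x p : O) : F) = aeval (x : F) p :=
    fun x p => (aeval_algebraMap_apply F x p).symm
  obtain ⟨b, h, g, hs, hb, hg⟩ := EOne_PE E O (fun x => by
    obtain ⟨h, h0, hh⟩ := h6 x.1 x.2
    refine ⟨h, h0, ?_⟩
    rw [← ValuationSubring.coe_mem_nonunits_iff, hcoe]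
    exact hh) s (fun j => ⟨z j, hz j⟩)
  refine ⟨b, h, g, b.2, hs, ?_, fun j => ?_⟩
  · rw [← hcoe, ValuationSubring.coe_mem_nonunits_iff]
    exact hb
  · have h2 := hg j
    rw [← ValuationSubring.coe_mem_nonunits_iff] at h2
    rw [← hcoe]
    exact h2

/-- `R = Kb[i(O)]`. -/
def EOne_R (Kb : Type) {F : Type} (Fb : Type) [Field Kb] [Field F] [Field Fb] [Algebra Kb Fb]
    [Algebra F Fb] (O : ValuationSubring F) : Subalgebra Kb Fb :=
  Algebra.adjoin Kb ((algebraMap F Fb) '' (O : Set F))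

omit [Field E] [CharZero E] [Algebra E Kb] [Algebra E F] [Algebra E Fb] [IsScalarTower E Kb Fb]
  [IsScalarTower E F Fb] in
theorem EOne_mem_R {O : ValuationSubring F} {z : F} (hz : z ∈ O) :
    algebraMap F Fb z ∈ EOne_R Kb Fb O := Algebra.subset_adjoin ⟨z, hz, rfl⟩

omit [Field E] [CharZero E] [Algebra E Kb] [Algebra E F] [Algebra E Fb] [IsScalarTower E Kb Fb]
  [IsScalarTower E F Fb] in
theorem EOne_rep {O : ValuationSubring F} {x : Fb} (hx : x ∈ EOne_R Kb Fb O) :
    ∃ (n : ℕ) (c : Fin n → Kb) (z : Fin n → F), (∀ j, z j ∈ O) ∧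
      x = ∑ j, algebraMap Kb Fb (c j) * algebraMap F Fb (z j) := by
  have h1 : x ∈ Subalgebra.toSubmodule (EOne_R Kb Fb O) := hx
  rw [EOne_R, Algebra.adjoin_eq_span] at h1
  have h2 : (Submonoid.closure ((algebraMap F Fb) '' (O : Set F)) : Set Fb) =
      (algebraMap F Fb) '' (O : Set F) := by
    have h3 : (algebraMap F Fb) '' (O : Set F) =
      ((O.toSubring.toSubmonoid.map (algebraMap F Fb) : Submonoid Fb) : Set Fb) := rfl
    rw [h3, Submonoid.closure_eq]
  rw [h2, Submodule.mem_span_set'] at h1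
  obtain ⟨n, c, g, rfl⟩ := h1
  have h4 : ∀ j, ∃ z ∈ O, algebraMap F Fb z = (g j : Fb) := fun j => (g j).2
  choose z hz hzg using h4
  exact ⟨n, c, z, hz, Finset.sum_congr rfl fun j _ => by rw [hzg, Algebra.smul_def]⟩

omit [Field E] [CharZero E] [Algebra E Kb] [Algebra E F] [Algebra E Fb] [IsScalarTower E Kb Fb]
  [IsScalarTower E F Fb] in
theorem EOne_sum_mem_R {O : ValuationSubring F} {n : ℕ} (c : Fin n → Kb) (z : Fin n → F)
    (hz : ∀ j, z j ∈ O) :
    ∑ j, algebraMap Kb Fb (c j) * algebraMap F Fb (z j) ∈ EOne_R Kb Fb O :=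
  Subalgebra.sum_mem _ fun j _ =>
    Subalgebra.mul_mem _ (Subalgebra.algebraMap_mem _ _) (EOne_mem_R (hz j))

omit [Field E] [CharZero E] [Algebra E Kb] [Algebra E F] [Algebra E Fb] [IsScalarTower E Kb Fb]
  [IsScalarTower E F Fb] in
theorem EOne_aeval_mem_R {O : ValuationSubring F} {β : Fb} (hβ : β ∈ EOne_R Kb Fb O)
    (p : Kb[X]) : aeval β p ∈ EOne_R Kb Fb O :=
  (Algebra.adjoin_le (Set.singleton_subset_iff.2 hβ) : Algebra.adjoin Kb {β} ≤ EOne_R Kb Fb O)
    (aeval_mem_adjoin_singleton Kb β)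

omit [Field E] [CharZero E] [Algebra E Kb] [Algebra E F] [Algebra E Fb] [IsScalarTower E Kb Fb]
  [IsScalarTower E F Fb] in
theorem EOne_R_le {O : ValuationSubring F} (P : Place Kb Fb)
    (h9 : ∀ z ∈ O, z ≠ 0 → 0 ≤ P.ord (algebraMap F Fb z)) {x : Fb} (hx : x ∈ EOne_R Kb Fb O) :
    x ∈ P.toValuationSubring := by
  induction hx using Algebra.adjoin_induction with
  | mem x hx =>
    obtain ⟨z, hz, rfl⟩ := hx
    rcases eq_or_ne z 0 with rfl | h0
    · rw [map_zero]; exact zero_mem _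
    · exact S24.mem_of_ord_nonneg P ((_root_.map_ne_zero _).2 h0) (h9 z hz h0)
  | algebraMap c => exact P.algebraMap_mem' c
  | add x y _ _ hx hy => exact add_mem hx hy
  | mul x y _ _ hx hy => exact mul_mem hx hy

/-- `R / i(π) R` is von Neumann regular. -/
theorem EOne_vnr (O : ValuationSubring F) (π : F) (h1 : ∀ c : E, algebraMap E F c ∈ O)
    (h2 : π ≠ 0) (h3 : π ∈ O.nonunits) (h4 : ∀ z ∈ O.nonunits, z / π ∈ O)
    (h6 : ∀ z ∈ O, ∃ h : E[X], h ≠ 0 ∧ aeval z h ∈ O.nonunits) {x : Fb}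
    (hx : x ∈ EOne_R Kb Fb O) :
    ∃ y ∈ EOne_R Kb Fb O, ∃ x1 ∈ EOne_R Kb Fb O, x * (1 - x * y) = algebraMap F Fb π * x1 := by
  obtain ⟨n, c, z, hz, rfl⟩ := EOne_rep hx
  obtain ⟨b, h, g, hb, hsep, hhb, hg⟩ := EOne_PE_O O h1 h6 n z hz
  have hβ : algebraMap F Fb b ∈ EOne_R Kb Fb O := EOne_mem_R hb
  set β : Fb := algebraMap F Fb b with hβdef
  -- evaluation of polynomials with coefficients in `E`
  have hev : ∀ p : E[X], aeval β (p.map (algebraMap E Kb)) = algebraMap F Fb (aeval b p) := by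
    intro p
    rw [aeval_map_algebraMap, hβdef, aeval_algebraMap_apply]
  let G : Kb[X] := ∑ j, C (c j) * (g j).map (algebraMap E Kb)
  obtain ⟨u, Q, huQ⟩ := EOne_poly (h.map (algebraMap E Kb)) G hsep.map
  have e1 := congrArg (aeval β) huQ
  rw [map_mul, map_sub, map_one, map_mul, map_mul, hev] at e1
  have hy0 : aeval b h = π * (aeval b h / π) := by field_simp
  have hG : aeval β G = ∑ j, algebraMap Kb Fb (c j) * algebraMap F Fb (aeval b (g j)) := by
    rw [map_sum]
    exact Finset.sum_congr rfl fun j _ => by rw [map_mul, aeval_C, hev]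
  have hxw : ∑ j, algebraMap Kb Fb (c j) * algebraMap F Fb (z j) = aeval β G +
      algebraMap F Fb π *
        ∑ j, algebraMap Kb Fb (c j) * algebraMap F Fb ((z j - aeval b (g j)) / π) := by
    rw [hG, Finset.mul_sum, ← Finset.sum_add_distrib]
    refine Finset.sum_congr rfl fun j _ => ?_
    have h5 : z j = aeval b (g j) + π * ((z j - aeval b (g j)) / π) := by field_simp; ring
    conv_lhs => rw [h5, map_add, map_mul]
    ring
  have hw : ∑ j, algebraMap Kb Fb (c j) * algebraMap F Fb ((z j - aeval b (g j)) / π) ∈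
      EOne_R Kb Fb O := EOne_sum_mem_R _ _ fun j => h4 _ (hg j)
  set w : Fb := ∑ j, algebraMap Kb Fb (c j) * algebraMap F Fb ((z j - aeval b (g j)) / π) with hwdef
  rw [hy0, map_mul] at e1
  have hgm := EOne_aeval_mem_R hβ G
  have hum := EOne_aeval_mem_R hβ u
  have hQm := EOne_aeval_mem_R hβ Q
  have hy0m : algebraMap F Fb (aeval b h / π) ∈ EOne_R Kb Fb O := EOne_mem_R (h4 _ hhb)
  rw [hxw]
  refine ⟨aeval β u, hum, aeval β Q * algebraMap F Fb (aeval b h / π) +
    w * (1 - (aeval β G + algebraMap F Fb π * w) * aeval β u) - aeval β G * w * aeval β u, ?_, ?_⟩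
  · exact Subalgebra.sub_mem _ (Subalgebra.add_mem _ (Subalgebra.mul_mem _ hQm hy0m)
      (Subalgebra.mul_mem _ hw (Subalgebra.sub_mem _ (Subalgebra.one_mem _)
        (Subalgebra.mul_mem _ (Subalgebra.add_mem _ hgm
          (Subalgebra.mul_mem _ (EOne_mem_R (O.nonunits_subset h3)) hw)) hum))))
      (Subalgebra.mul_mem _ (Subalgebra.mul_mem _ hgm hw) hum)
  · linear_combination e1

/-! ### orders -/

omit [Field E] [CharZero E] [Field F] [Algebra E Kb] [Algebra E F] [Algebra F Fb] [Algebra E Fb]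
  [IsScalarTower E Kb Fb] [IsScalarTower E F Fb] in
theorem EOne_ord_neg (P : Place Kb Fb) (w : Fb) : P.ord (-w) = P.ord w := by
  rcases eq_or_ne w 0 with rfl | hw
  · rw [neg_zero]
  · have h1 : -w = algebraMap Kb Fb (-1) * w := by rw [map_neg, map_one]; ring
    have h2 : algebraMap Kb Fb (-1) ≠ 0 := (_root_.map_ne_zero _).2 (neg_ne_zero.2 one_ne_zero)
    rw [h1, P.ord_mul h2 hw, S24.ord_algebraMap, zero_add]

omit [Field E] [CharZero E] [Field F] [Algebra E Kb] [Algebra E F] [Algebra F Fb] [Algebra E Fb]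
  [IsScalarTower E Kb Fb] [IsScalarTower E F Fb] in
theorem EOne_ord_one_sub (P : Place Kb Fb) {w : Fb} (hw : w = 0 ∨ 0 < P.ord w) :
    1 - w ≠ 0 ∧ P.ord (1 - w) = 0 := by
  rcases hw with rfl | hw
  · rw [sub_zero]; exact ⟨one_ne_zero, P.ord_one⟩
  · have hw0 : w ≠ 0 := by
      rintro rfl
      rw [P.ord_zero] at hw
      exact lt_irrefl _ hw
    constructor
    · intro h
      have h1 : w = 1 := (sub_eq_zero.1 h).symm
      rw [h1, P.ord_one] at hw
      exact lt_irrefl _ hw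
    · rw [sub_eq_add_neg, S24.ord_add_eq_of_lt P one_ne_zero (neg_ne_zero.2 hw0)
        (by rw [P.ord_one, EOne_ord_neg]; exact hw), P.ord_one]

omit [Field E] [CharZero E] [Field F] [Algebra E Kb] [Algebra E F] [Algebra F Fb] [Algebra E Fb]
  [IsScalarTower E Kb Fb] [IsScalarTower E F Fb] in
/-- the induction. -/
theorem EOne_claim (P : Place Kb Fb) (R : Subalgebra Kb Fb) (p : Fb)
    (hR : ∀ x ∈ R, x ∈ P.toValuationSubring) (hp : 0 < P.ord p)
    (hvnr : ∀ x ∈ R, ∃ y ∈ R, ∃ x1 ∈ R, x * (1 - x * y) = p * x1) :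
    ∀ (n : ℕ) (x : Fb), x ∈ R → x ≠ 0 → P.ord x = n → P.ord p ∣ (n : ℤ) := by
  have hp0 : p ≠ 0 := by
    rintro rfl
    rw [P.ord_zero] at hp
    exact lt_irrefl _ hp
  intro n
  induction n using Nat.strong_induction_on with
  | _ n ih =>
    intro x hx hx0 hn
    rcases Nat.eq_zero_or_pos n with rfl | hnpos
    · exact dvd_zero _
    obtain ⟨y, hy, x1, hx1, he⟩ := hvnr x hx
    have hxy : x * y = 0 ∨ 0 < P.ord (x * y) := by
      rcases eq_or_ne y 0 with rfl | hy0
      · left; rw [mul_zero]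
      · right
        rw [P.ord_mul hx0 hy0, hn]
        have := S24.ord_nonneg_of_mem P (hR y hy)
        have : (0 : ℤ) < n := by exact_mod_cast hnpos
        omega
    obtain ⟨h1, h2⟩ := EOne_ord_one_sub P hxy
    have hx10 : x1 ≠ 0 := by
      rintro rfl
      rw [mul_zero] at he
      exact mul_ne_zero hx0 h1 he
    have h3 := congrArg P.ord he
    rw [P.ord_mul hx0 h1, P.ord_mul hp0 hx10, h2, add_zero, hn] at h3
    have h4 := S24.ord_nonneg_of_mem P (hR x1 hx1)
    obtain ⟨m, hm⟩ := Int.eq_ofNat_of_zero_le h4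
    have hlt : m < n := by
      have : (m : ℤ) < n := by omega
      exact_mod_cast this
    have h5 := ih m hlt x1 hx1 hx10 hm
    rw [h3, hm]
    exact dvd_add (dvd_refl _) h5

end Main

/-! ### the statement -/

theorem stmt_EOne : Stmt_EOne := by
  intro E Kb F Fb _ _ _ _ _ _ _ _ _ _ _ _ O π P h1 h2 h3 h4 h5 h6 h7 _ h9 h10
  have hclaim := EOne_claim P (EOne_R Kb Fb O) (algebraMap F Fb π) (fun x hx => EOne_R_le P h9 hx)
    h10 (fun x hx => EOne_vnr O π h1 h2 h3 h4 h6 hx)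
  obtain ⟨t, ht⟩ := S24.exists_ord_eq_one P
  have ht0 : t ≠ 0 := by
    rintro rfl
    rw [P.ord_zero] at ht
    exact zero_ne_one ht
  obtain ⟨n, c, z, hz⟩ := h7 t
  -- a common denominator
  have hk : ∃ k : ℕ, ∀ j, z j * π ^ k ∈ O := by
    choose k hk using h5
    refine ⟨∑ j, k (z j), fun j => ?_⟩
    have h8 : k (z j) ≤ ∑ j, k (z j) :=
      Finset.single_le_sum (f := fun j => k (z j)) (fun _ _ => Nat.zero_le _) (Finset.mem_univ j)
    obtain ⟨m, hm⟩ := Nat.exists_eq_add_of_le h8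
    rw [hm, pow_add, ← mul_assoc]
    exact mul_mem (hk (z j)) (pow_mem (O.nonunits_subset h3) m)
  obtain ⟨k, hk⟩ := hk
  have hπ0 : algebraMap F Fb π ≠ 0 := (_root_.map_ne_zero _).2 h2
  have hmem : t * algebraMap F Fb π ^ k ∈ EOne_R Kb Fb O := by
    have h8 : t * algebraMap F Fb π ^ k =
        ∑ j, algebraMap Kb Fb (c j) * algebraMap F Fb (z j * π ^ k) := by
      rw [hz, Finset.sum_mul]
      exact Finset.sum_congr rfl fun j _ => by rw [map_mul, map_pow, mul_assoc]
    rw [h8]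
    exact EOne_sum_mem_R _ _ hk
  have hne : t * algebraMap F Fb π ^ k ≠ 0 := mul_ne_zero ht0 (pow_ne_zero k hπ0)
  have hord : P.ord (t * algebraMap F Fb π ^ k) = 1 + k * P.ord (algebraMap F Fb π) := by
    rw [P.ord_mul ht0 (pow_ne_zero k hπ0), ht, ← zpow_natCast, P.ord_zpow]
  have hnn := S24.ord_nonneg_of_mem P (EOne_R_le P h9 hmem)
  obtain ⟨m, hm⟩ := Int.eq_ofNat_of_zero_le hnn
  have hd := hclaim m _ hmem hne hm
  rw [← hm, hord] at hd
  have hd1 : P.ord (algebraMap F Fb π) ∣ 1 :=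
    (dvd_add_left (Dvd.intro_left _ rfl)).1 hd
  exact Int.eq_one_of_dvd_one h10.le hd1

end Fermat.Agent.S36.Base

end
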