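import Fermat.Agent.KL.HtOne
import Fermat.Agent.S36.AtAPI

/-!
# S36 / Base / HD3, abstract part : the valuation ring of a height one prime   (helper3)
-/

set_option autoImplicit false
set_option linter.unusedSectionVars false

namespace Fermat.Agent.S36.Base

open Fermat.Agent.KL Fermat.Agent.S36

section HDIVAbs

variable {B F : Type} [CommRing B] [IsDomain B] [IsNoetherianRing B] [IsIntegrallyClosed B]
  [Field F] [Algebra B F] [IsFractionRing B F]

/-- elements of `B` factor as `unit * π ^ k` locally at a height one prime. -/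
theorem HDIV_factor_B (𝔭 : Ideal B) [𝔭.IsPrime] (h : IsHtOne 𝔭) (π : B) (hπ : LocGen π 𝔭)
    (b : B) (hb : b ≠ 0) : ∃ (k : ℕ) (s c : B), s ∉ 𝔭 ∧ c ∉ 𝔭 ∧ s * b = c * π ^ k := by
  have := N.dvrAtHtOne B 𝔭 h
  set R := Localization.AtPrime 𝔭 with hR
  have hinj : Function.Injective (algebraMap B R) :=
    IsLocalization.injective R 𝔭.primeCompl_le_nonZeroDivisors
  have hmax : IsLocalRing.maximalIdeal R = Ideal.span {algebraMap B R π} := by
    apply le_antisymm
    · rw [← Localization.AtPrime.map_eq_maximalIdeal, Ideal.map_le_iff_le_comap]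
      intro y hy
      obtain ⟨b', hb', c, hc⟩ := hπ.2 y hy
      rw [Ideal.mem_comap]
      have hbu : IsUnit (algebraMap B R b') :=
        IsLocalization.map_units R (⟨b', hb'⟩ : 𝔭.primeCompl)
      rw [← Ideal.unit_mul_mem_iff_mem _ hbu, ← map_mul, hc, map_mul]
      exact Ideal.mul_mem_right _ _ (Ideal.mem_span_singleton_self _)
    · rw [Ideal.span_singleton_le_iff_mem]
      exact (IsLocalization.AtPrime.to_map_mem_maximal_iff R 𝔭 π).mpr hπ.1
  have hirr : Irreducible (algebraMap B R π) :=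
    (IsDiscreteValuationRing.irreducible_iff_uniformizer _).2 hmax
  have hb' : algebraMap B R b ≠ 0 := fun h0 => hb (hinj (by rw [h0, map_zero]))
  obtain ⟨k, u, hu⟩ := IsDiscreteValuationRing.eq_unit_mul_pow_irreducible hb' hirr
  obtain ⟨c, s, hcs⟩ := IsLocalization.exists_mk'_eq 𝔭.primeCompl (u : R)
  have hspec : (u : R) * algebraMap B R (s : B) = algebraMap B R c := by
    rw [← hcs]
    exact IsLocalization.mk'_spec _ _ _
  refine ⟨k, s, c, s.2, ?_, ?_⟩
  · intro hc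
    have h1 : algebraMap B R c ∈ IsLocalRing.maximalIdeal R :=
      (IsLocalization.AtPrime.to_map_mem_maximal_iff R 𝔭 c).mpr hc
    have h2 : IsUnit (algebraMap B R c) := by
      rw [← hspec]
      exact u.isUnit.mul (IsLocalization.map_units R s)
    exact (IsLocalRing.mem_maximalIdeal _).1 h1 h2
  · apply hinj
    rw [map_mul, map_mul, map_pow, hu, ← hspec]
    ring

/-- elements of `F` factor as `unit * π ^ k`, `k : ℤ`. -/
theorem HDIV_factor (𝔭 : Ideal B) [𝔭.IsPrime] (h : IsHtOne 𝔭) (π : B) (hπ : LocGen π 𝔭)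
    (z : F) (hz : z ≠ 0) : ∃ k : ℤ, UnitAt 𝔭 (z / algebraMap B F π ^ k) := by
  have hinj : Function.Injective (algebraMap B F) := IsFractionRing.injective B F
  obtain ⟨a, b, hb, rfl⟩ := IsFractionRing.div_surjective (A := B) z
  have hb0 : b ≠ 0 := nonZeroDivisors.ne_zero hb
  have ha0 : a ≠ 0 := by
    rintro rfl
    simp at hz
  have hπ0 : π ≠ 0 := by
    rintro rfl
    apply h.2.1
    rw [eq_bot_iff]
    intro y hy
    obtain ⟨b', hb', c, hc⟩ := hπ.2 y hy
    rw [zero_mul] at hc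
    rcases mul_eq_zero.1 hc with h0 | h0
    · exact absurd (h0 ▸ 𝔭.zero_mem) hb'
    · exact h0
  have hπF : algebraMap B F π ≠ 0 := fun h0 => hπ0 (hinj (by rw [h0, map_zero]))
  obtain ⟨k₁, s₁, c₁, hs₁, hc₁, h₁⟩ := HDIV_factor_B 𝔭 h π hπ a ha0
  obtain ⟨k₂, s₂, c₂, hs₂, hc₂, h₂⟩ := HDIV_factor_B 𝔭 h π hπ b hb0
  refine ⟨(k₁ : ℤ) - k₂, s₁ * c₂, mul_not_mem_of_isPrime hs₁ hc₂, c₁ * s₂,
    mul_not_mem_of_isPrime hc₁ hs₂, ?_⟩
  have e₁ := congrArg (algebraMap B F) h₁
  have e₂ := congrArg (algebraMap B F) h₂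
  simp only [map_mul, map_pow] at e₁ e₂ ⊢
  have hbF : algebraMap B F b ≠ 0 := fun h0 => hb0 (hinj (by rw [h0, map_zero]))
  have hs₂F : algebraMap B F s₂ ≠ 0 := algebraMap_ne_zero_of_not_mem hs₂
  rw [zpow_sub₀ hπF, zpow_natCast, zpow_natCast]
  field_simp
  linear_combination (algebraMap B F c₂ * algebraMap B F π ^ k₂) * e₁
    - (algebraMap B F c₁ * algebraMap B F π ^ k₁) * e₂

/-- `π ^ k` is integral at `𝔭` iff `0 ≤ k`. -/
theorem HDIV_zpow_intAt (𝔭 : Ideal B) [𝔭.IsPrime] (π : B) {k : ℤ} (hk : 0 ≤ k) :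
    IntAt 𝔭 ((algebraMap B F π) ^ k) := by
  obtain ⟨n, rfl⟩ := Int.eq_ofNat_of_zero_le hk
  rw [zpow_natCast]
  exact (intAt_algebraMap π).pow n

omit [IsDomain B] [IsNoetherianRing B] [IsIntegrallyClosed B] [IsFractionRing B F] [CommRing B]
  [Algebra B F] in
theorem HDIV_mem_nonunits_iff (O : ValuationSubring F) {z : F} (hz : z ≠ 0) :
    z ∈ O.nonunits ↔ z⁻¹ ∉ O := by
  have h0 : 0 < O.valuation z := zero_lt_iff.2 ((Valuation.ne_zero_iff _).2 hz)
  rw [ValuationSubring.mem_nonunits_iff, ← ValuationSubring.valuation_le_one_iff, map_inv₀, not_le,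
    one_lt_inv₀ h0]

/-- the valuation ring of a height one prime. -/
theorem HDIV_exists_valuationSubring (𝔭 : Ideal B) [𝔭.IsPrime] (h : IsHtOne 𝔭) :
    ∃ (O : ValuationSubring F) (π : F), π ≠ 0 ∧ PosAt 𝔭 π ∧ (∀ z, z ∈ O ↔ IntAt 𝔭 z) ∧
      (∀ z, z ∈ O.nonunits ↔ PosAt 𝔭 z) ∧ (∀ z, PosAt 𝔭 z → IntAt 𝔭 (z / π)) ∧
      (∀ z : F, ∃ k : ℕ, IntAt 𝔭 (z * π ^ k)) ∧ ∀ z : F, z ≠ 0 → ∃ k : ℤ, UnitAt 𝔭 (z / π ^ k) := by
  obtain ⟨π, hπ⟩ := N.exists_locGen B 𝔭 h
  have hfac := fun z hz => HDIV_factor (F := F) 𝔭 h π hπ z hz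
  have hπpos : PosAt 𝔭 (algebraMap B F π) := posAt_algebraMap hπ.1
  have hπ0 : algebraMap B F π ≠ 0 := by
    intro h0
    obtain ⟨k, hk⟩ := hfac 1 one_ne_zero
    rw [h0] at hk
    rcases eq_or_ne k 0 with rfl | hk0
    · -- then every element is a unit: contradiction with `𝔭 ≠ ⊥`
      have hπB : π = 0 := IsFractionRing.injective B F (by rw [h0, map_zero])
      apply h.2.1
      rw [eq_bot_iff]
      intro y hy
      obtain ⟨b', hb', c, hc⟩ := hπ.2 y hy
      rw [hπB, zero_mul] at hc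
      rcases mul_eq_zero.1 hc with h1 | h1
      · exact absurd (h1 ▸ 𝔭.zero_mem) hb'
      · exact h1
    · rw [zero_zpow k hk0, div_zero] at hk
      exact hk.ne_zero rfl
  -- trichotomy
  have hint : ∀ z : F, z ≠ 0 → ∀ k : ℤ, UnitAt 𝔭 (z / algebraMap B F π ^ k) → 0 ≤ k → IntAt 𝔭 z := by
    intro z _ k hk hk0
    have := hk.intAt.mul (HDIV_zpow_intAt (F := F) 𝔭 π hk0)
    rwa [div_mul_cancel₀ _ (zpow_ne_zero _ hπ0)] at this
  have hpos : ∀ z : F, ∀ k : ℤ, UnitAt 𝔭 (z / algebraMap B F π ^ k) → 0 < k → PosAt 𝔭 z := by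
    intro z k hk hk0
    obtain ⟨n, rfl⟩ := Int.eq_ofNat_of_zero_le hk0.le
    have hn : 0 < n := by exact_mod_cast hk0
    have := hk.intAt.mul_posAt (hπpos.pow hn)
    rw [zpow_natCast] at this
    rwa [div_mul_cancel₀ _ (pow_ne_zero _ hπ0)] at this
  have hinv : ∀ z : F, ∀ k : ℤ, UnitAt 𝔭 (z / algebraMap B F π ^ k) →
      UnitAt 𝔭 (z⁻¹ / algebraMap B F π ^ (-k)) := by
    intro z k hk
    have := hk.inv
    rw [inv_div] at this
    rwa [zpow_neg, div_inv_eq_mul, mul_comm, ← div_eq_mul_inv]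
  let O : ValuationSubring F :=
    { carrier := {z | IntAt 𝔭 z}
      mul_mem' := fun ha hb => IntAt.mul ha hb
      one_mem' := intAt_one
      add_mem' := fun ha hb => IntAt.add ha hb
      zero_mem' := intAt_zero
      neg_mem' := fun ha => IntAt.neg ha
      mem_or_inv_mem' := by
        intro z
        rcases eq_or_ne z 0 with rfl | hz
        · exact Or.inl intAt_zero
        obtain ⟨k, hk⟩ := hfac z hz
        rcases le_total 0 k with h0 | h0
        · exact Or.inl (hint z hz k hk h0)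
        · exact Or.inr (hint z⁻¹ (inv_ne_zero hz) (-k) (hinv z k hk) (by omega)) }
  have hO : ∀ z, z ∈ O ↔ IntAt 𝔭 z := fun z => Iff.rfl
  have hnp : ∀ z : F, z ≠ 0 → PosAt 𝔭 z → ¬ IntAt 𝔭 z⁻¹ := by
    intro z hz hp hi
    have := hp.mul_intAt hi
    rw [mul_inv_cancel₀ hz] at this
    exact not_posAt_one this
  have hkpos : ∀ z : F, z ≠ 0 → ∀ k : ℤ, UnitAt 𝔭 (z / algebraMap B F π ^ k) → PosAt 𝔭 z →
      0 < k := by
    intro z hz k hk hp
    by_contra hcon
    exact hnp z hz hp (hint z⁻¹ (inv_ne_zero hz) (-k) (hinv z k hk) (by omega))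
  have hOn : ∀ z, z ∈ O.nonunits ↔ PosAt 𝔭 z := by
    intro z
    rcases eq_or_ne z 0 with rfl | hz
    · refine ⟨fun _ => posAt_zero, fun _ => ?_⟩
      rw [ValuationSubring.mem_nonunits_iff, map_zero]
      exact zero_lt_one
    rw [HDIV_mem_nonunits_iff O hz]
    obtain ⟨k, hk⟩ := hfac z hz
    constructor
    · intro hzn
      apply hpos z k hk
      by_contra hcon
      exact hzn (hint z⁻¹ (inv_ne_zero hz) (-k) (hinv z k hk) (by omega))
    · intro hp
      exact hnp z hz hp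
  refine ⟨O, algebraMap B F π, hπ0, hπpos, hO, hOn, ?_, ?_, hfac⟩
  · intro z hp
    rcases eq_or_ne z 0 with rfl | hz
    · rw [zero_div]
      exact intAt_zero
    obtain ⟨k, hk⟩ := hfac z hz
    have hk0 := hkpos z hz k hk hp
    have := hk.intAt.mul (HDIV_zpow_intAt (F := F) 𝔭 π (k := k - 1) (by omega))
    have e : z / algebraMap B F π ^ k * algebraMap B F π ^ (k - 1) = z / algebraMap B F π := by
      rw [zpow_sub₀ hπ0, zpow_one]
      field_simp
    rwa [e] at this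
  · intro z
    rcases eq_or_ne z 0 with rfl | hz
    · exact ⟨0, by rw [zero_mul]; exact intAt_zero⟩
    obtain ⟨k, hk⟩ := hfac z hz
    refine ⟨(-k).toNat, ?_⟩
    have := hk.intAt.mul (HDIV_zpow_intAt (F := F) 𝔭 π (k := k + ((-k).toNat : ℤ)) (by omega))
    have e : z / algebraMap B F π ^ k * algebraMap B F π ^ (k + ((-k).toNat : ℤ))
        = z * algebraMap B F π ^ (-k).toNat := by
      rw [zpow_add₀ hπ0, zpow_natCast]
      field_simp
    rwa [e] at this

end HDIVAbs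

end Fermat.Agent.S36.Base
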