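import Fermat.Agent.S36.Base.Interface
import Fermat.Agent.S36.AtAPI
import Fermat.Agent.S24.FundId
import Fermat.Agent.S24.DegreeBound
import Fermat.Agent.S24.DegPrincipalCore

/-!
# S36 / Base / HD1 : a place of `FF N` above a horizontal prime of a chart over `A_E`
-/

set_option autoImplicit false

noncomputable section

namespace Fermat.Agent.S36.Base

open Fermat.Agent.S24 (Qbar FF)
open Fermat.Agent.KL (PolyR Chart cst)
open AlgebraicCurve Polynomial IsDedekindDomain IntermediateField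

/-- HD1 (corrected: `𝔭 ≠ ⊥`). a place of `FF N` above a horizontal prime of a chart. -/
def Stmt_PlaceAbove' : Prop :=
  ∀ (A : ValuationSubring Qbar) (N : ℕ) [NeZero N] (t : FE A N), Transcendental (IE A) t →
    ∀ 𝔭 : Ideal (Chart (AE A) t), 𝔭.IsPrime → 𝔭 ≠ ⊥ →
      (∀ c : AE A, c ≠ 0 → cst (AE A) t c ∉ 𝔭) →
    ∃ P : Place Qbar (FF N),
      (∀ z : FE A N, z ≠ 0 → IntAt 𝔭 z → 0 ≤ P.ord (emb A N z)) ∧
      (∀ z : FE A N, z ≠ 0 → PosAt 𝔭 z → 0 < P.ord (emb A N z))

/-! ### a proper valuation ring containing a Dedekind model is a place -/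

section Abstract

variable {K F R : Type*} [Field K] [Field F] [Algebra K F] [CommRing R] [IsDedekindDomain R]
  [Algebra R F] [IsFractionRing R F] [Algebra K R] [IsScalarTower K R F]

theorem PlAb_place (V : ValuationSubring F) (hV : V ≠ ⊤) (h : ∀ r : R, algebraMap R F r ∈ V) :
    ∃ P : Place K F, (∀ x ∈ V, 0 ≤ P.ord x) ∧ (∀ x ∈ V.nonunits, x ≠ 0 → 0 < P.ord x) := by
  classical
  let φ : R →+* V := (algebraMap R F).codRestrict V.toSubring h
  let 𝔮 : Ideal R := (IsLocalRing.maximalIdeal V).comap φ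
  have hprime : 𝔮.IsPrime := Ideal.comap_isPrime φ _
  have hle : ∀ r : R, V.valuation (algebraMap R F r) ≤ 1 := fun r =>
    (V.valuation_le_one_iff _).2 (h r)
  have hmem : ∀ r : R, r ∈ 𝔮 ↔ V.valuation (algebraMap R F r) < 1 := fun r =>
    V.valuation_lt_one_iff (φ r)
  have hone : ∀ d : R, d ∉ 𝔮 → V.valuation (algebraMap R F d) = 1 := fun d hd =>
    le_antisymm (hle d) (not_lt.1 fun h' => hd ((hmem d).2 h'))
  have hne : 𝔮 ≠ ⊥ := by
    intro hbot
    apply hV
    refine SetLike.ext fun x => ⟨fun _ => ValuationSubring.mem_top x, fun _ => ?_⟩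
    obtain ⟨a, b, hb, rfl⟩ := IsFractionRing.div_surjective (A := R) x
    have hb0 : b ≠ 0 := nonZeroDivisors.ne_zero hb
    have hb𝔮 : b ∉ 𝔮 := by
      rw [hbot, Ideal.mem_bot]
      exact hb0
    rw [← V.valuation_le_one_iff, map_div₀, hone b hb𝔮, div_one]
    exact hle a
  let Q : HeightOneSpectrum R := ⟨𝔮, hprime, hne⟩
  have key1 : ∀ y : F, Q.valuation F y ≤ 1 → V.valuation y ≤ 1 := by
    intro y hy
    obtain ⟨n, d, hnd⟩ := Q.exists_primeCompl_mul_eq_of_integer y hy
    have h1 := congrArg V.valuation hnd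
    rw [map_mul, hone d d.2, mul_one] at h1
    rw [h1]
    exact hle n
  have key2 : ∀ y : F, Q.valuation F y < 1 → V.valuation y < 1 := by
    intro y hy
    obtain ⟨n, d, hnd⟩ := Q.exists_primeCompl_mul_eq_of_integer y hy.le
    have hn : n ∈ 𝔮 := by
      have h1 : Q.valuation F (algebraMap R F n) < 1 := by
        rw [← hnd, map_mul]
        exact mul_lt_one_of_lt_of_le hy (Q.valuation_le_one _)
      exact (Q.valuation_lt_one_iff_mem n).1 h1
    have h1 := congrArg V.valuation hnd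
    rw [map_mul, hone d d.2, mul_one] at h1
    rw [h1]
    exact (hmem n).1 hn
  refine ⟨Place.ofHeightOneSpectrum Q, ?_, ?_⟩
  · intro x hx
    rcases eq_or_ne x 0 with rfl | hx0
    · simp
    rw [Fermat.Agent.S24.ord_ofHeightOneSpectrum_nonneg_iff Q x hx0]
    by_contra hgt
    rw [not_le] at hgt
    have hlt : Q.valuation F x⁻¹ < 1 := by
      rw [map_inv₀]
      exact (inv_lt_one₀ (lt_trans zero_lt_one hgt)).2 hgt
    have h2 := key2 _ hlt
    have h3 : V.valuation x ≤ 1 := (V.valuation_le_one_iff _).2 hx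
    have h4 : V.valuation x * V.valuation x⁻¹ = 1 := by
      rw [← map_mul, mul_inv_cancel₀ hx0, map_one]
    have h5 : V.valuation x * V.valuation x⁻¹ < 1 := by
      rw [mul_comm]
      exact mul_lt_one_of_lt_of_le h2 h3
    rw [h4] at h5
    exact lt_irrefl _ h5
  · intro x hx hx0
    rw [Fermat.Agent.S24.ord_ofHeightOneSpectrum_pos_iff Q x hx0]
    by_contra hge
    rw [not_lt] at hge
    have hle' : Q.valuation F x⁻¹ ≤ 1 := by
      rw [map_inv₀]
      exact (inv_le_one₀ (lt_of_lt_of_le zero_lt_one hge)).2 hge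
    have h2 := key1 _ hle'
    have h3 : V.valuation x < 1 := (ValuationSubring.mem_nonunits_iff V).1 hx
    have h4 : V.valuation x * V.valuation x⁻¹ = 1 := by
      rw [← map_mul, mul_inv_cancel₀ hx0, map_one]
    have h5 : V.valuation x * V.valuation x⁻¹ < 1 := mul_lt_one_of_lt_of_le h3 h2
    rw [h4] at h5
    exact lt_irrefl _ h5

end Abstract

/-! ### transcendence of `emb t` -/

theorem PlAb_transcendental (A : ValuationSubring Qbar) (N : ℕ) (t : FE A N)
    (ht : Transcendental (IE A) t) : Transcendental Qbar (emb A N t) := by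
  intro halg
  have hmem : emb A N t ∈ (algebraMap Qbar (FF N)).range :=
    halg.isIntegral.mem_range_algebraMap_of_minpoly_splits (IsAlgClosed.splits _)
  obtain ⟨c, hc⟩ := hmem
  apply ht
  have h1 : ∀ n, algebraMap (IE A) Qbar ((t : LE A).coeff n)
      = (algebraMap Qbar (LaurentSeries Qbar) c).coeff n := by
    intro n
    have h := congrArg (fun x : FF N => (x : LaurentSeries Qbar).coeff n) hc
    exact h.symm
  have h2 : t = algebraMap (IE A) (FE A N) ((t : LE A).coeff 0) := by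
    apply Subtype.ext
    ext n
    show (t : LE A).coeff n = (algebraMap (IE A) (LE A) _).coeff n
    rw [ModularCurve.algebraMap_laurentSeries_eq_single]
    by_cases hn : n = 0
    · subst hn; simp
    · rw [HahnSeries.coeff_single_of_ne hn]
      apply IE.algebraMap_injective A
      rw [h1 n, map_zero, ModularCurve.algebraMap_laurentSeries_eq_single,
        HahnSeries.coeff_single_of_ne hn]
  rw [h2]
  exact isAlgebraic_algebraMap _

/-! ### linear disjointness through a linear functional -/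

theorem PlAb_coeff_smul (A : ValuationSubring Qbar) (N : ℕ) (e : IE A) (x : FE A N) (n : ℤ) :
    ((algebraMap (IE A) (FE A N) e * x : FE A N) : LE A).coeff n = e * (x : LE A).coeff n := by
  show (algebraMap (IE A) (LE A) e * (x : LE A)).coeff n = _
  rw [ModularCurve.algebraMap_laurentSeries_eq_single, HahnSeries.coeff_single_zero_mul]

theorem PlAb_coeff_smul' (N : ℕ) (a : Qbar) (x : FF N) (n : ℤ) :
    ((a • x : FF N) : LaurentSeries Qbar).coeff n = a * (x : LaurentSeries Qbar).coeff n := by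
  rw [Algebra.smul_def]
  show (algebraMap Qbar (LaurentSeries Qbar) a * (x : LaurentSeries Qbar)).coeff n = _
  rw [ModularCurve.algebraMap_laurentSeries_eq_single, HahnSeries.coeff_single_zero_mul]

theorem PlAb_span (A : ValuationSubring Qbar) (N : ℕ) (S : Set (FE A N)) (hS0 : 0 ∈ S)
    (hSadd : ∀ x y, x ∈ S → y ∈ S → x + y ∈ S)
    (hSsmul : ∀ (e : IE A) (x), x ∈ S → algebraMap (IE A) (FE A N) e * x ∈ S)
    (x : FF N) (hx : x ∈ Submodule.span Qbar (emb A N '' S)) (μ : Qbar →ₗ[IE A] IE A) :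
    ∃ w ∈ S, ∀ n, (w : LE A).coeff n = μ ((x : LaurentSeries Qbar).coeff n) := by
  induction hx using Submodule.span_induction generalizing μ with
  | mem x h =>
    obtain ⟨y, hy, rfl⟩ := h
    refine ⟨_, hSsmul (μ 1) y hy, fun n => ?_⟩
    rw [PlAb_coeff_smul, coe_emb, cmE_coeff, Algebra.algebraMap_eq_smul_one, map_smul,
      smul_eq_mul, mul_comm]
  | zero =>
    exact ⟨0, hS0, fun n => by simp⟩
  | add x y _ _ hx hy =>
    obtain ⟨w, hw, hw'⟩ := hx μ
    obtain ⟨w', hw1, hw1'⟩ := hy μ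
    refine ⟨w + w', hSadd _ _ hw hw1, fun n => ?_⟩
    show ((w : LE A) + (w' : LE A)).coeff n
      = μ (((x : LaurentSeries Qbar) + (y : LaurentSeries Qbar)).coeff n)
    rw [HahnSeries.coeff_add, HahnSeries.coeff_add, map_add, hw', hw1']
  | smul a x _ hx =>
    obtain ⟨w, hw, hw'⟩ := hx (μ ∘ₗ LinearMap.mulLeft (IE A) a)
    refine ⟨w, hw, fun n => ?_⟩
    rw [hw', PlAb_coeff_smul']
    rfl

theorem PlAb_mem_of_emb_mem (A : ValuationSubring Qbar) (N : ℕ) (S : Set (FE A N)) (hS0 : 0 ∈ S)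
    (hSadd : ∀ x y, x ∈ S → y ∈ S → x + y ∈ S)
    (hSsmul : ∀ (e : IE A) (x), x ∈ S → algebraMap (IE A) (FE A N) e * x ∈ S)
    (w : FE A N) (hw : emb A N w ∈ Submodule.span Qbar (emb A N '' S)) : w ∈ S := by
  obtain ⟨lam, hlam⟩ := LinearMap.exists_leftInverse_of_injective (Algebra.linearMap (IE A) Qbar)
    (LinearMap.ker_eq_bot.2 (IE.algebraMap_injective A))
  obtain ⟨w', hw', h⟩ := PlAb_span A N S hS0 hSadd hSsmul _ hw lam
  have : w' = w := by
    apply Subtype.ext
    ext n
    rw [h n, coe_emb, cmE_coeff]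
    exact LinearMap.congr_fun hlam _
  rwa [← this]

/-! ### the integral closure of `K[x]` lies in every valuation ring containing `K` and `x` -/

theorem PlAb_intRing_le {K F : Type*} [Field K] [Field F] [Algebra K F] {x : F}
    (V : ValuationSubring F) (hK : ∀ c : K, algebraMap K F c ∈ V) (hx : x ∈ V)
    (b : Fermat.Agent.S24.intRing K x) : (b : F) ∈ V := by
  let S : Subalgebra K F := { V.toSubring with algebraMap_mem' := hK }
  have hle : Fermat.Agent.S24.polyRing K x ≤ S := Algebra.adjoin_le (by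
    intro y hy
    rw [Set.mem_singleton_iff] at hy
    rw [hy]; exact hx)
  let φ : Fermat.Agent.S24.polyRing K x →+* V :=
    (algebraMap (Fermat.Agent.S24.polyRing K x) F).codRestrict V.toSubring (fun a => hle a.2)
  have h1 : IsIntegral V (b : F) := IsIntegral.map_of_comp_eq φ (RingHom.id F) rfl b.2
  obtain ⟨y, hy⟩ := (IsIntegrallyClosed.isIntegral_iff (R := V) (K := F)).mp h1
  rw [← hy]
  exact y.2

theorem PlAb_place' {K F : Type*} [Field K] [Field F] [Algebra K F] [CharZero K] {x : F}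
    (hx : Transcendental K x) [FiniteDimensional K⟮x⟯ F] (V : ValuationSubring F) (hV : V ≠ ⊤)
    (hK : ∀ c : K, algebraMap K F c ∈ V) (hxV : x ∈ V) :
    ∃ P : Place K F, (∀ x ∈ V, 0 ≤ P.ord x) ∧ (∀ x ∈ V.nonunits, x ≠ 0 → 0 < P.ord x) := by
  have := Fermat.Agent.S24.intRing_isDedekindDomain hx
  have := Fermat.Agent.S24.intRing_isFractionRing (K := K) x
  exact PlAb_place (K := K) (R := Fermat.Agent.S24.intRing K x) V hV
    (fun r => PlAb_intRing_le V hK hxV r)

/-! ### the main statement -/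

theorem stmt_PlaceAbove' : Stmt_PlaceAbove' := by
  intro A N _ t ht 𝔭 h𝔭 hne hcst
  have := h𝔭
  have hc : ∀ c : AE A, algebraMap (Chart (AE A) t) (FE A N) (cst (AE A) t c)
      = algebraMap (IE A) (FE A N) (algebraMap (AE A) (IE A) c) := fun c => rfl
  have hE : ∀ e : IE A, IntAt 𝔭 (algebraMap (IE A) (FE A N) e) := by
    intro e
    obtain ⟨a, b, hb, rfl⟩ := IsFractionRing.div_surjective (A := AE A) e
    have hb0 : b ≠ 0 := nonZeroDivisors.ne_zero hb
    have hb1 : algebraMap (IE A) (FE A N) (algebraMap (AE A) (IE A) b) ≠ 0 := by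
      rw [Ne, map_eq_zero, map_eq_zero_iff _ (AE.algebraMap_injective A)]
      exact hb0
    refine ⟨cst (AE A) t b, hcst b hb0, cst (AE A) t a, ?_⟩
    rw [hc, hc, map_div₀, mul_div_cancel₀ _ hb1]
  have ht𝔭 : IntAt 𝔭 t := intAt_algebraMap (F := FE A N) (Fermat.Agent.KL.crd (AE A) t)
  have h1M : ¬ PosAt 𝔭 (1 : FE A N) := by
    rintro ⟨s, hs, p, hp, e⟩
    rw [mul_one] at e
    have : s = p := Subtype.ext e
    exact hs (this ▸ hp)
  let SO : Set (FE A N) := {z | IntAt 𝔭 z}
  let SM : Set (FE A N) := {z | PosAt 𝔭 z}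
  let Osp : Submodule Qbar (FF N) := Submodule.span Qbar (emb A N '' SO)
  let Msp : Submodule Qbar (FF N) := Submodule.span Qbar (emb A N '' SM)
  have hOO : ∀ x y, x ∈ Osp → y ∈ Osp → x * y ∈ Osp := by
    intro x y hx hy
    have h := Submodule.mul_mem_mul hx hy
    rw [Submodule.span_mul_span] at h
    refine Submodule.span_mono ?_ h
    rintro _ ⟨_, ⟨a, ha, rfl⟩, _, ⟨b, hb, rfl⟩, rfl⟩
    exact ⟨a * b, IntAt.mul ha hb, map_mul _ _ _⟩
  have hOM : ∀ x y, x ∈ Osp → y ∈ Msp → x * y ∈ Msp := by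
    intro x y hx hy
    have h := Submodule.mul_mem_mul hx hy
    rw [Submodule.span_mul_span] at h
    refine Submodule.span_mono ?_ h
    rintro _ ⟨_, ⟨a, ha, rfl⟩, _, ⟨b, hb, rfl⟩, rfl⟩
    exact ⟨a * b, IntAt.mul_posAt ha hb, map_mul _ _ _⟩
  have h1O : (1 : FF N) ∈ Osp := Submodule.subset_span ⟨1, intAt_one, map_one _⟩
  let O' : Subalgebra Qbar (FF N) := Osp.toSubalgebra h1O hOO
  let I : Ideal O'.toSubring :=
    { carrier := {x | (x : FF N) ∈ Msp}
      add_mem' := fun ha hb => Msp.add_mem ha hb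
      zero_mem' := Msp.zero_mem
      smul_mem' := fun a x hx => hOM _ _ a.2 hx }
  have hI : I ≠ ⊤ := by
    intro h
    have h1 : (1 : O'.toSubring) ∈ I := by rw [h]; trivial
    have h2 : emb A N 1 ∈ Msp := by rw [map_one]; exact h1
    exact h1M (PlAb_mem_of_emb_mem A N SM posAt_zero (fun _ _ hx hy => PosAt.add hx hy)
      (fun e _ hx => IntAt.mul_posAt (hE e) hx) 1 h2)
  obtain ⟨V, hOV, hIV⟩ := Ideal.image_subset_nonunits_valuationSubring I hI
  have hOV' : ∀ z : FE A N, IntAt 𝔭 z → emb A N z ∈ V := fun z hz =>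
    hOV (show emb A N z ∈ Osp from Submodule.subset_span ⟨z, hz, rfl⟩)
  have hMV' : ∀ z : FE A N, PosAt 𝔭 z → emb A N z ∈ V.nonunits := fun z hz =>
    hIV ⟨⟨emb A N z, show emb A N z ∈ Osp from Submodule.subset_span ⟨z, hz.intAt, rfl⟩⟩,
      show emb A N z ∈ Msp from Submodule.subset_span ⟨z, hz, rfl⟩, rfl⟩
  have hQV : ∀ c : Qbar, algebraMap Qbar (FF N) c ∈ V := fun c => hOV (O'.algebraMap_mem c)
  have hVtop : V ≠ ⊤ := by
    intro hVtop
    obtain ⟨x0, hx0, hx00⟩ := Submodule.exists_mem_ne_zero_of_ne_bot hne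
    have hz : PosAt 𝔭 (algebraMap (Chart (AE A) t) (FE A N) x0) := posAt_algebraMap hx0
    have hz0 : algebraMap (Chart (AE A) t) (FE A N) x0 ≠ 0 := fun h => hx00 (Subtype.ext h)
    have hy0 : emb A N (algebraMap (Chart (AE A) t) (FE A N) x0) ≠ 0 :=
      (map_ne_zero (emb A N)).2 hz0
    have h1 := (ValuationSubring.mem_nonunits_iff V).1 (hMV' _ hz)
    have h2 : V.valuation (emb A N (algebraMap (Chart (AE A) t) (FE A N) x0))⁻¹ ≤ 1 :=
      (V.valuation_le_one_iff _).2 (by rw [hVtop]; trivial)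
    have h4 : V.valuation (emb A N (algebraMap (Chart (AE A) t) (FE A N) x0)) *
        V.valuation (emb A N (algebraMap (Chart (AE A) t) (FE A N) x0))⁻¹ = 1 := by
      rw [← map_mul, mul_inv_cancel₀ hy0, map_one]
    have h5 := mul_lt_one_of_lt_of_le h1 h2
    rw [h4] at h5
    exact lt_irrefl _ h5
  have htb : Transcendental Qbar (emb A N t) := PlAb_transcendental A N t ht
  have hfd : FiniteDimensional Qbar⟮emb A N t⟯ (FF N) := by
    have := (Fermat.Agent.S24.finrank_FF_le N).1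
    exact Fermat.Agent.S24.finiteDimensional_adjoin_simple_of_transcendental
      (Fermat.Agent.S24.jF N) (Fermat.Agent.S24.DegBd.transcendental_jF N) _ htb
  obtain ⟨P, hP1, hP2⟩ := PlAb_place' htb V hVtop hQV (hOV' t ht𝔭)
  exact ⟨P, fun z _ hz => hP1 _ (hOV' z hz),
    fun z hz0 hz => hP2 _ (hMV' z hz) ((map_ne_zero (emb A N)).2 hz0)⟩

/-- the form requested by the task (the linear disjointness hypothesis is not needed). -/
theorem stmt_PlaceAbove'_of (_hL : Stmt_LinDisj) : Stmt_PlaceAbove' := stmt_PlaceAbove'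

end Fermat.Agent.S36.Base

end
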