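import Fermat.Agent.S36.Base.Interface
import Fermat.Agent.S36.Base.HDIVAbs
import Fermat.Agent.S36.Base.PlaceAbove
import Fermat.Agent.KL.PolyRing
import Fermat.Agent.KL.PolyRing2
import Fermat.Agent.KL.PolyRing4
import Fermat.Agent.S27.R0
import Fermat.Agent.S24.DegreeBound
import Fermat.Agent.S36.ZAbs

/-!
# S36 / Base / HD3 : (HDIV) over `E`   (helper3)

If the divisor of `emb u` (over `ℚ̄`) is divisible by `m`, then the horizontal part of the divisor of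
`u ∈ F_E` on a chart over `A_E` is divisible by `m`.
-/

set_option autoImplicit false

noncomputable section

namespace Fermat.Agent.S36.Base

open Fermat.Agent.S24 (Qbar FF)
open Fermat.Agent.ES.Mid (GQ gal IsDiv)
open Fermat.Agent.KL Fermat.Agent.S36
open AlgebraicCurve Polynomial

/-! ### abstract lemmas -/

/-- the residue field of a valuation ring of a function field of one variable is algebraic over the
constants. -/
theorem HDIV_resAlg_abs {A₀ E F : Type} [CommRing A₀] [IsDomain A₀] [Field E] [Field F]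
    [Algebra A₀ E] [FaithfulSMul A₀ E] [Algebra A₀ F] [Algebra E F] [IsScalarTower A₀ E F]
    (O : ValuationSubring F) (hE : ∀ c : E, algebraMap E F c ∈ O) (π : F) (hπ0 : π ≠ 0)
    (hπ : π ∈ O.nonunits) (z : F) (hz : z ∈ O) (hfin : FinOverR (PolyR A₀ z) F) :
    ∃ h : E[X], h ≠ 0 ∧ aeval z h ∈ O.nonunits := by
  classical
  let _ : Algebra (FractionRing (PolyR A₀ z)) F := FractionRing.liftAlgebra (PolyR A₀ z) F
  have : IsScalarTower (PolyR A₀ z) (FractionRing (PolyR A₀ z)) F :=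
    FractionRing.isScalarTower_liftAlgebra (PolyR A₀ z) F
  have : FiniteDimensional (FractionRing (PolyR A₀ z)) F :=
    PR2.finiteDimensional_of_finOverR (P := PolyR A₀ z) hfin
  have halg : IsAlgebraic (PolyR A₀ z) π :=
    (IsFractionRing.isAlgebraic_iff (PolyR A₀ z) (FractionRing (PolyR A₀ z)) F).2
      (Algebra.IsAlgebraic.isAlgebraic π)
  obtain ⟨t, ht, r, hr0, hr⟩ := halg.exists_nonzero_eq_adjoin_mul (mem_nonZeroDivisors_of_ne_zero hπ0)
  -- `P ⊆ O`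
  have hA : ∀ a : A₀, algebraMap A₀ F a ∈ O := fun a => by
    rw [IsScalarTower.algebraMap_apply A₀ E F]; exact hE _
  have hP : ∀ x : F, x ∈ PolyR A₀ z → x ∈ O := by
    intro x hx
    induction hx using Algebra.adjoin_induction with
    | mem x hx => rw [Set.mem_singleton_iff] at hx; rw [hx]; exact hz
    | algebraMap a => exact hA a
    | add x y _ _ hx hy => exact O.add_mem _ _ hx hy
    | mul x y _ _ hx hy => exact O.mul_mem _ _ hx hy
  have hπO : π ∈ O := by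
    rw [ValuationSubring.mem_nonunits_iff] at hπ
    exact (O.valuation_le_one_iff _).1 hπ.le
  have htO : t ∈ O := by
    clear hr
    induction ht using Algebra.adjoin_induction with
    | mem x hx => rw [Set.mem_singleton_iff] at hx; rw [hx]; exact hπO
    | algebraMap a => exact hP _ a.2
    | add x y _ _ hx hy => exact O.add_mem _ _ hx hy
    | mul x y _ _ hx hy => exact O.mul_mem _ _ hx hy
  have hrn : (r : F) ∈ O.nonunits := by
    have : (r : F) = π * t := hr.symm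
    rw [this, ValuationSubring.mem_nonunits_iff, map_mul]
    rw [ValuationSubring.mem_nonunits_iff] at hπ
    exact mul_lt_one_of_lt_of_le hπ ((O.valuation_le_one_iff _).2 htO)
  have hr' : (r : F) ∈ (aeval z : A₀[X] →ₐ[A₀] F).range := by
    rw [← Algebra.adjoin_singleton_eq_range_aeval]; exact r.2
  obtain ⟨h0, hh0⟩ := hr'
  refine ⟨h0.map (algebraMap A₀ E), ?_, ?_⟩
  · intro h
    rw [Polynomial.map_eq_zero_iff (FaithfulSMul.algebraMap_injective A₀ E)] at h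
    apply hr0
    apply Subtype.ext
    rw [← hh0, h]; simp
  · rw [aeval_map_algebraMap]
    have : aeval z h0 = (r : F) := hh0
    rw [this]; exact hrn

/-- abstract core of HD3. -/
theorem HDIV_core (hEO : Stmt_EOne) {E Kb F Fb B : Type} [Field E] [CharZero E] [Field Kb] [Field F]
    [Field Fb] [Algebra E Kb] [Algebra E F] [Algebra Kb Fb] [Algebra F Fb] [Algebra E Fb]
    [IsScalarTower E Kb Fb] [IsScalarTower E F Fb]
    [CommRing B] [IsDomain B] [IsNoetherianRing B] [IsIntegrallyClosed B] [Algebra B F]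
    [IsFractionRing B F] (𝔭 : Ideal B) (h𝔭 : IsHtOne 𝔭) (P : Place Kb Fb)
    (hP0 : ∀ z : F, z ≠ 0 → IntAt 𝔭 z → 0 ≤ P.ord (algebraMap F Fb z))
    (hP1 : ∀ z : F, z ≠ 0 → PosAt 𝔭 z → 0 < P.ord (algebraMap F Fb z))
    (hE : ∀ c : E, IntAt 𝔭 (algebraMap E F c))
    (hres : ∀ z : F, IntAt 𝔭 z → ∃ h : E[X], h ≠ 0 ∧ PosAt 𝔭 (aeval z h))
    (hspan : ∀ x : Fb, ∃ (n : ℕ) (c : Fin n → Kb) (z : Fin n → F),
      x = ∑ i, algebraMap Kb Fb (c i) * algebraMap F Fb (z i))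
    (hval : ∀ f : Fb, f ≠ 0 → 0 ≤ P.ord f → ∃ a : Kb, f = algebraMap Kb Fb a ∨
      0 < P.ord (f - algebraMap Kb Fb a))
    (m : ℕ) (u : F) (hu0 : u ≠ 0) (hu : (m : ℤ) ∣ P.ord (algebraMap F Fb u)) :
    ∃ g : F, g ≠ 0 ∧ UnitAt 𝔭 (u / g ^ m) := by
  have := h𝔭.1
  obtain ⟨O, π, hπ0, hπpos, hO, hOn, hdiv, hpow, hfac⟩ :=
    HDIV_exists_valuationSubring (F := F) 𝔭 h𝔭
  have hone : P.ord (algebraMap F Fb π) = 1 := by
    refine hEO E Kb F Fb O π P (fun c => (hO _).2 (hE c)) hπ0 ((hOn _).2 hπpos)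
      (fun z hz => (hO _).2 (hdiv z ((hOn _).1 hz))) (fun z => ?_) (fun z hz => ?_) hspan hval
      (fun z hz hz0 => hP0 z hz0 ((hO _).1 hz)) (hP1 π hπ0 hπpos)
    · obtain ⟨k, hk⟩ := hpow z
      exact ⟨k, (hO _).2 hk⟩
    · obtain ⟨h, h0, hh⟩ := hres z ((hO _).1 hz)
      exact ⟨h, h0, (hOn _).2 hh⟩
  obtain ⟨k, hk⟩ := hfac u hu0
  have hinj : Function.Injective (algebraMap F Fb) := (algebraMap F Fb).injective
  have hne : ∀ z : F, z ≠ 0 → algebraMap F Fb z ≠ 0 := fun z hz h =>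
    hz (hinj (by rw [h, map_zero]))
  -- `ord (u / π ^ k) = 0`
  have h0 : P.ord (algebraMap F Fb (u / π ^ k)) = 0 := by
    obtain ⟨h1, h2, h3⟩ := unitAt_iff.1 hk
    have a1 := hP0 _ h3 h1
    have a2 := hP0 _ (inv_ne_zero h3) h2
    rw [map_inv₀, Place.ord_inv] at a2
    omega
  have h1 : P.ord (algebraMap F Fb u) = k := by
    have e : algebraMap F Fb u = algebraMap F Fb (u / π ^ k) * (algebraMap F Fb π) ^ k := by
      rw [← map_zpow₀, ← map_mul, div_mul_cancel₀ _ (zpow_ne_zero _ hπ0)]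
    rw [e, Place.ord_mul _ (hne _ hk.ne_zero) (zpow_ne_zero _ (hne _ hπ0)), h0, Place.ord_zpow, hone]
    ring
  rw [h1] at hu
  obtain ⟨l, rfl⟩ := hu
  refine ⟨π ^ l, zpow_ne_zero _ hπ0, ?_⟩
  have e : (π ^ l) ^ m = π ^ ((m : ℤ) * l) := by
    rw [← zpow_natCast, ← zpow_mul, mul_comm]
  rwa [e]

/-- HD3 for an abstract function field over a discrete valuation ring. -/
theorem HDIV_gen (hEO : Stmt_EOne) {A₀ E Kb F Fb : Type} [CommRing A₀] [IsDomain A₀]
    [IsDiscreteValuationRing A₀] [Field E] [CharZero E] [Field Kb] [Field F] [CharZero F]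
    [Field Fb] [Algebra A₀ E] [IsFractionRing A₀ E] [Algebra A₀ F] [FaithfulSMul A₀ F]
    [Algebra E Kb] [Algebra E F] [IsScalarTower A₀ E F] [Algebra Kb Fb] [Algebra F Fb] [Algebra E Fb]
    [IsScalarTower E Kb Fb] [IsScalarTower E F Fb]
    (ϖ : A₀) (hϖ : Irreducible ϖ) (t : F) (htr : Transcendental A₀ t)
    (hfin : ∀ z : F, Transcendental E z → FinOverR (PolyR A₀ z) F) (ht : Transcendental E t)
    (hPA : ∀ 𝔭 : Ideal (Chart A₀ t), 𝔭.IsPrime → 𝔭 ≠ ⊥ → (∀ c : A₀, c ≠ 0 → cst A₀ t c ∉ 𝔭) →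
      ∃ P : Place Kb Fb,
        (∀ z : F, z ≠ 0 → IntAt 𝔭 z → 0 ≤ P.ord (algebraMap F Fb z)) ∧
        (∀ z : F, z ≠ 0 → PosAt 𝔭 z → 0 < P.ord (algebraMap F Fb z)))
    (hspan : ∀ x : Fb, ∃ (n : ℕ) (c : Fin n → Kb) (z : Fin n → F),
      x = ∑ i, algebraMap Kb Fb (c i) * algebraMap F Fb (z i))
    (hval : ∀ (P : Place Kb Fb) (f : Fb), f ≠ 0 → 0 ≤ P.ord f → ∃ a : Kb, f = algebraMap Kb Fb a ∨
      0 < P.ord (f - algebraMap Kb Fb a))
    (m : ℕ) (u : F) (hu0 : u ≠ 0) (hu : ∀ P : Place Kb Fb, (m : ℤ) ∣ P.ord (algebraMap F Fb u)) :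
    HDiv (cst A₀ t ϖ) m u := by
  intro 𝔭 hp hbot hmin hϖp
  have hpv := (stmt_polyRConcrete A₀ F t htr).1
  have hfa : FaithfulSMul (PolyR A₀ t) F :=
    (faithfulSMul_iff_algebraMap_injective _ _).2 Subtype.val_injective
  obtain ⟨-, hN, hD, hIC, hFr, -, -⟩ := stmt_chartBasic A₀ (PolyR A₀ t) F
    (Chart A₀ t) (polyX A₀ t) hpv (hfin t ht)
  have hht : IsHtOne 𝔭 := ⟨hp, hbot, hmin⟩
  -- nonzero constants are units at `𝔭`
  have hc : ∀ c : A₀, c ≠ 0 → cst A₀ t c ∉ 𝔭 := by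
    intro c hc0 hmem
    obtain ⟨n, v, rfl⟩ := IsDiscreteValuationRing.eq_unit_mul_pow_irreducible hc0 hϖ
    have e : cst A₀ t ((v : A₀) * ϖ ^ n) = cst A₀ t (v : A₀) * cst A₀ t ϖ ^ n := by
      simp only [cst, map_mul, map_pow]
    rw [e] at hmem
    rcases hp.mem_or_mem hmem with h1 | h1
    · have hu1 : IsUnit (cst A₀ t (v : A₀)) :=
        (v.isUnit.map (algebraMap A₀ (PolyR A₀ t))).map (algebraMap (PolyR A₀ t) (Chart A₀ t))
      exact hp.ne_top (Ideal.eq_top_of_isUnit_mem _ h1 hu1)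
    · exact hϖp (hp.mem_of_pow_mem n h1)
  obtain ⟨P, hP0, hP1⟩ := hPA 𝔭 hp hbot hc
  have hcst : ∀ x : A₀, algebraMap (Chart A₀ t) F (cst A₀ t x) = algebraMap E F (algebraMap A₀ E x) := by
    intro x
    rw [← IsScalarTower.algebraMap_apply A₀ E F]
    rfl
  have hE : ∀ c : E, IntAt 𝔭 (algebraMap E F c) := by
    intro c
    obtain ⟨a, b, hb, rfl⟩ := IsFractionRing.div_surjective (A := A₀) c
    have hb0 : b ≠ 0 := nonZeroDivisors.ne_zero hb
    have hb1 : algebraMap A₀ E b ≠ 0 := by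
      intro h
      exact hb0 (IsFractionRing.injective A₀ E (by rw [h, map_zero]))
    refine ⟨cst A₀ t b, hc b hb0, cst A₀ t a, ?_⟩
    rw [hcst, hcst, ← map_mul, mul_div_cancel₀ _ hb1]
  refine HDIV_core hEO 𝔭 hht P hP0 hP1 hE ?_ hspan (hval P) m u hu0 (hu P)
  intro z hz
  by_cases halg : IsAlgebraic E z
  · obtain ⟨h, h0, hh⟩ := halg
    refine ⟨h, h0, ?_⟩
    rw [hh]
    exact posAt_zero
  obtain ⟨O, π, hπ0, hπpos, hO, hOn, -, -, -⟩ := HDIV_exists_valuationSubring (F := F) 𝔭 hht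
  obtain ⟨h, h0, hh⟩ := HDIV_resAlg_abs (A₀ := A₀) (E := E) O (fun c => (hO _).2 (hE c)) π hπ0
    ((hOn _).2 hπpos) z ((hO _).2 hz) (hfin z halg)
  exact ⟨h, h0, (hOn _).1 hh⟩

/-! ### instantiation -/

variable (A : ValuationSubring Qbar) (N : ℕ)

theorem HDIV_isFF [NeZero N] : S27.IsFF Qbar (FF N) :=
  ⟨S24.jF N, S24.DegBd.transcendental_jF N, (S24.finrank_FF_le N).1⟩

/-- **HD3** : (HDIV) on the chart of `t` over `A_E`. -/
theorem hdiv (hPA : Stmt_PlaceAbove') (hEO : Stmt_EOne) (hS : Stmt_SpanE) (hF : Stmt_Fin)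
    [IsDiscreteValuationRing (AE A)] (ϖ : AE A) (hϖ : Irreducible ϖ) (m : ℕ) [NeZero N]
    (t u : FE A N) (ht : Transcendental (IE A) t) (hu : IsDiv N m (emb A N u)) :
    HDiv (cst (AE A) t ϖ) m u := by
  let _ : Algebra (FE A N) (FF N) := (emb A N).toAlgebra
  let _ : Algebra (IE A) (FF N) :=
    ((algebraMap Qbar (FF N)).comp (algebraMap (IE A) Qbar)).toAlgebra
  have : IsScalarTower (IE A) Qbar (FF N) := IsScalarTower.of_algebraMap_eq fun _ => rfl
  have : IsScalarTower (IE A) (FE A N) (FF N) :=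
    IsScalarTower.of_algebraMap_eq fun c => (emb_algebraMap A N c).symm
  refine HDIV_gen hEO (A₀ := AE A) (E := IE A) (Kb := Qbar) (F := FE A N) (Fb := FF N) ϖ hϖ t
    (hF A N t ht).1 (fun z hz => (hF A N z hz).2) ht (fun 𝔭 hp hbot hc => hPA A N t ht 𝔭 hp hbot hc)
    (hS A N) ?_ m u ?_ hu.2
  · intro P f _ hf
    obtain ⟨a, ha⟩ := S27.R0.exists_value (HDIV_isFF N) P f (Or.inr hf)
    refine ⟨a, ?_⟩
    rcases ha with ha | ha
    · exact Or.inl (sub_eq_zero.1 ha)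
    · exact Or.inr ha
  · intro h
    apply hu.1
    rw [h, map_zero]

end Fermat.Agent.S36.Base

end
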