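import Fermat.Agent.S36.Base.Interface

/-!
# S36 / Base / B4 : elements of `E((q))` integral over `A_E` are constants of `A_E` (helper54)
-/

set_option autoImplicit false

noncomputable section

namespace Fermat.Agent.S36.Base

open Fermat.Agent.S24 (Qbar)
open Polynomial

section General

variable {K : Type*} [Field K]

theorem IntConst_coeff_algebraMap_mul (a : K) (x : LaurentSeries K) (m : ℤ) :
    (algebraMap K (LaurentSeries K) a * x).coeff m = a * x.coeff m := by
  rw [ModularCurve.algebraMap_laurentSeries_eq_single, HahnSeries.coeff_single_zero_mul]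

/-- an element of `K((q))` integral over `K` has no pole. -/
theorem IntConst_order_nonneg (y : LaurentSeries K) (hy : IsIntegral K y) : 0 ≤ y.order := by
  by_contra h
  push Not at h
  have hy0 : y ≠ 0 := by
    rintro rfl
    rw [HahnSeries.order_zero] at h
    exact lt_irrefl _ h
  obtain ⟨P, hPm, hP⟩ := hy
  rw [Polynomial.eval₂_eq_sum_range] at hP
  have h1 := congrArg (fun z : LaurentSeries K => z.coeff (P.natDegree • y.order)) hP
  simp only [HahnSeries.coeff_sum, HahnSeries.coeff_zero] at h1
  rw [Finset.sum_eq_single P.natDegree] at h1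
  · rw [IntConst_coeff_algebraMap_mul, hPm.coeff_natDegree, one_mul, ← HahnSeries.order_pow] at h1
    exact pow_ne_zero _ hy0 (HahnSeries.coeff_order_eq_zero.mp h1)
  · intro i hi hne
    have hi' : i < P.natDegree := by
      have := Finset.mem_range.mp hi
      omega
    rw [IntConst_coeff_algebraMap_mul, HahnSeries.coeff_eq_zero_of_lt_order, mul_zero]
    rw [HahnSeries.order_pow, nsmul_eq_mul, nsmul_eq_mul]
    have : (i : ℤ) < (P.natDegree : ℤ) := by exact_mod_cast hi'
    nlinarith
  · intro h'
    exact absurd (Finset.mem_range.mpr (Nat.lt_succ_self _)) h'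

/-- an element of `K((q))` integral over `K` is a constant. -/
theorem IntConst_const (c : LaurentSeries K) (hc : IsIntegral K c) :
    c = algebraMap K (LaurentSeries K) (c.coeff 0) := by
  rw [← sub_eq_zero]
  by_contra hy0
  set y := c - algebraMap K (LaurentSeries K) (c.coeff 0) with hy
  have hyint : IsIntegral K y := hc.sub isIntegral_algebraMap
  have h1 := IntConst_order_nonneg y hyint
  have h2 := IntConst_order_nonneg y⁻¹ hyint.inv
  have h3 : y.order + y⁻¹.order = 0 := by
    rw [← HahnSeries.order_mul hy0 (inv_ne_zero hy0), mul_inv_cancel₀ hy0, HahnSeries.order_one]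
  have h4 : y.order = 0 := by omega
  have h5 : y.coeff y.order ≠ 0 := fun h => hy0 (HahnSeries.coeff_order_eq_zero.mp h)
  rw [h4] at h5
  apply h5
  have h6 : (algebraMap K (LaurentSeries K) (c.coeff 0)).coeff 0 = c.coeff 0 := by
    have := IntConst_coeff_algebraMap_mul (c.coeff 0) (1 : LaurentSeries K) 0
    rwa [mul_one, HahnSeries.coeff_one, if_pos rfl, mul_one] at this
  rw [hy, HahnSeries.coeff_sub, h6, sub_self]

end General

theorem stmt_IntConst : Stmt_IntConst := by
  intro A c hc
  have hcomp : algebraMap (AE A) (LE A)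
      = (algebraMap (IE A) (LE A)).comp (algebraMap (AE A) (IE A)) :=
    RingHom.ext fun x => algebraMap_AE_LE A x
  obtain ⟨P, hPm, hP⟩ := hc
  have hcK : IsIntegral (IE A) c := by
    refine ⟨P.map (algebraMap (AE A) (IE A)), hPm.map _, ?_⟩
    rw [Polynomial.eval₂_map, ← hcomp]
    exact hP
  have hconst := IntConst_const c hcK
  have hint : IsIntegral (AE A) (c.coeff 0) := by
    refine ⟨P, hPm, ?_⟩
    apply (algebraMap (IE A) (LE A)).injective
    rw [map_zero, Polynomial.hom_eval₂, ← hcomp, ← hconst]
    exact hP
  obtain ⟨y, hy⟩ := IsIntegrallyClosed.isIntegral_iff.mp hint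
  exact ⟨y, by rw [algebraMap_AE_LE, hy, ← hconst]⟩

end Fermat.Agent.S36.Base

end
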