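import Fermat.Agent.S36.Base.Interface

/-!
# S36 / Base / B3 (helper17): `A_E → A / 𝔪_A` is onto
-/

set_option autoImplicit false

noncomputable section

namespace Fermat.Agent.S36.Base

open Fermat.Agent.S24 (Qbar)
open Polynomial

/-- a nonzero element of a field of characteristic `r` which is a root of an integer polynomial
with nonzero reduction modulo `r` is a root of unity of order prime to `r`. -/
theorem Res_pow_eq_one (r : ℕ) (hr : r.Prime) (k : Type*) [Field k] [CharP k r] (x : k)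
    (hx : x ≠ 0) (p : ℤ[X]) (hp : p.map (Int.castRingHom (ZMod r)) ≠ 0)
    (hpx : p.eval₂ (Int.castRingHom k) x = 0) : ∃ n : ℕ, n ≠ 0 ∧ ¬ r ∣ n ∧ x ^ n = 1 := by
  have : Fact r.Prime := ⟨hr⟩
  let : Algebra (ZMod r) k := ZMod.algebra k r
  have halg : IsAlgebraic (ZMod r) x := by
    refine ⟨p.map (Int.castRingHom (ZMod r)), hp, ?_⟩
    rw [aeval_def, eval₂_map]
    have : (algebraMap (ZMod r) k).comp (Int.castRingHom (ZMod r)) = Int.castRingHom k :=
      RingHom.ext_int _ _
    rw [this, hpx]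
  have hint : IsIntegral (ZMod r) x := halg.isIntegral
  have : FiniteDimensional (ZMod r) (IntermediateField.adjoin (ZMod r) {x}) :=
    IntermediateField.adjoin.finiteDimensional hint
  have : Finite (IntermediateField.adjoin (ZMod r) {x}) := Module.finite_of_finite (ZMod r)
  let : Fintype (IntermediateField.adjoin (ZMod r) {x}) := Fintype.ofFinite _
  have : CharP (IntermediateField.adjoin (ZMod r) {x}) r :=
    charP_of_injective_algebraMap
      (algebraMap (ZMod r) (IntermediateField.adjoin (ZMod r) {x})).injective r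
  set g : IntermediateField.adjoin (ZMod r) {x} := IntermediateField.AdjoinSimple.gen (ZMod r) x
    with hg
  have hgx : (g : k) = x := IntermediateField.AdjoinSimple.coe_gen (ZMod r) x
  have hg0 : g ≠ 0 := by
    intro h0
    apply hx
    rw [← hgx, h0]
    rfl
  have h1 := FiniteField.pow_card_sub_one_eq_one g hg0
  obtain ⟨f, -, hcard⟩ := FiniteField.card (IntermediateField.adjoin (ZMod r) {x}) r
  rw [hcard] at h1
  have hf : 0 < (f : ℕ) := f.pos
  have h2 : 2 ≤ r ^ (f : ℕ) :=
    le_trans hr.two_le (Nat.le_self_pow hf.ne' r)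
  refine ⟨r ^ (f : ℕ) - 1, by omega, fun hdvd => ?_, ?_⟩
  · have h3 : r ∣ r ^ (f : ℕ) := dvd_pow_self r hf.ne'
    have h4 : r ∣ 1 := by
      have := (Nat.dvd_sub h3 hdvd)
      rwa [show r ^ (f : ℕ) - (r ^ (f : ℕ) - 1) = 1 by omega] at this
    exact hr.one_lt.ne' (Nat.dvd_one.1 h4)
  · have := congrArg (Subtype.val) h1
    rw [← hgx]
    simpa using this

/-- an element of `ℚ̄` is a root of an integer polynomial with nonzero reduction modulo `r`. -/
theorem Res_exists_poly (r : ℕ) (hr : r.Prime) (a : Qbar) :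
    ∃ p : ℤ[X], p.map (Int.castRingHom (ZMod r)) ≠ 0 ∧ p.eval₂ (Int.castRingHom Qbar) a = 0 := by
  have h1 : IsAlgebraic ℚ a := (AlgebraicClosure.isAlgebraic ℚ).isAlgebraic a
  have h2 : IsAlgebraic ℤ a := (IsFractionRing.isAlgebraic_iff ℤ ℚ Qbar).2 h1
  obtain ⟨p, hp0, hpa⟩ := h2
  refine ⟨p.primPart, fun h0 => ?_, ?_⟩
  · have hdvd : C (r : ℤ) ∣ p.primPart := by
      rw [C_dvd_iff_dvd_coeff]
      intro i
      have := congrArg (fun q => q.coeff i) h0
      simp only [coeff_map, coeff_zero, eq_intCast] at this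
      exact (ZMod.intCast_zmod_eq_zero_iff_dvd _ _).1 this
    have hu := p.isPrimitive_primPart _ hdvd
    rw [Int.ofNat_isUnit, Nat.isUnit_iff] at hu
    exact hr.one_lt.ne' hu
  · have := aeval_primPart_eq_zero hp0 hpa
    rw [aeval_def] at this
    have e : algebraMap ℤ Qbar = Int.castRingHom Qbar := RingHom.ext_int _ _
    rwa [e] at this

/-- B3. -/
theorem stmt_Res (h : Stmt_Mu) : Stmt_Res := by
  intro r A hr hA a
  by_cases ha : a ∈ IsLocalRing.maximalIdeal A
  · exact ⟨0, by simpa using ha⟩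
  have hrA : ((r : ℕ) : A) ∈ IsLocalRing.maximalIdeal A := by
    obtain ⟨h1, h2⟩ := ValuationSubring.mem_nonunits_iff_exists_mem_maximalIdeal.1 hA
    have : (⟨(r : Qbar), h1⟩ : A) = ((r : ℕ) : A) := Subtype.ext (by simp)
    rwa [this] at h2
  have : CharP (IsLocalRing.ResidueField A) r := by
    rw [CharP.charP_iff_prime_eq_zero hr]
    have := (IsLocalRing.residue_eq_zero_iff ((r : ℕ) : A)).2 hrA
    simpa using this
  have hx : IsLocalRing.residue A a ≠ 0 := fun h0 => ha ((IsLocalRing.residue_eq_zero_iff a).1 h0)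
  obtain ⟨p, hp, hpa⟩ := Res_exists_poly r hr (a : Qbar)
  have hpA : p.eval₂ (Int.castRingHom A) a = 0 := by
    apply A.subtype_injective
    rw [map_zero, hom_eval₂]
    have : A.subtype.comp (Int.castRingHom A) = Int.castRingHom Qbar := RingHom.ext_int _ _
    rw [this]
    exact hpa
  have hpk : p.eval₂ (Int.castRingHom (IsLocalRing.ResidueField A)) (IsLocalRing.residue A a)
      = 0 := by
    have h1 := congrArg (IsLocalRing.residue A) hpA
    rw [map_zero, hom_eval₂] at h1
    have : (IsLocalRing.residue A).comp (Int.castRingHom A)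
        = Int.castRingHom (IsLocalRing.ResidueField A) := RingHom.ext_int _ _
    rwa [this] at h1
  obtain ⟨n, hn0, hrn, hxn⟩ := Res_pow_eq_one r hr _ _ hx p hp hpk
  obtain ⟨-, ⟨ζ, hζ⟩, -⟩ := h r A hr hA n hn0 hrn
  have hinj : Function.Injective (AE.toA A) := by
    intro x y hxy
    have h1 := congrArg (Subtype.val) hxy
    rw [AE.coe_toA, AE.coe_toA] at h1
    exact AE.algebraMap_injective A (IE.algebraMap_injective A h1)
  have hζ' : IsPrimitiveRoot (AE.toA A ζ) n := hζ.map_of_injective hinj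
  have hprod := X_pow_sub_one_eq_prod (Nat.pos_of_ne_zero hn0) hζ'
  have heval := congrArg (eval a) hprod
  rw [eval_sub, eval_pow, eval_X, eval_one, eval_prod] at heval
  have hmem : a ^ n - 1 ∈ IsLocalRing.maximalIdeal A := by
    rw [← IsLocalRing.residue_eq_zero_iff, map_sub, map_pow, hxn, map_one, sub_self]
  rw [heval] at hmem
  obtain ⟨η, hη, hηm⟩ := Ideal.IsPrime.prod_mem_iff.1 hmem
  rw [eval_sub, eval_X, eval_C] at hηm
  have : NeZero n := ⟨hn0⟩
  have hη1 : η ^ n = 1 := ((mem_nthRootsFinset (Nat.pos_of_ne_zero hn0) 1).1 hη)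
  obtain ⟨i, -, hi⟩ := hζ'.eq_pow_of_pow_eq_one hη1
  refine ⟨ζ ^ i, ?_⟩
  rw [map_pow, hi]
  exact hηm

end Fermat.Agent.S36.Base

end
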