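import Fermat.Agent.S36.Base.Interface

/-!
# S36 / Base : B6, `m`-th roots in `K((q))`, characteristic zero (`Stmt_RootL`)

The `m`-th root of `v = 1 + O(q)` is the binomial series `(1 + X)^(1/m)` evaluated at `v - 1`.
-/

set_option autoImplicit false

namespace Fermat.Agent.S36.Base

theorem RootL_binom_pow {K : Type*} [Field K] [CharZero K] (n : ℕ) (r : ℚ) :
    (PowerSeries.binomialSeries K r) ^ n = PowerSeries.binomialSeries K ((n : ℚ) * r) := by
  induction n with
  | zero => simp
  | succ n ih =>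
    rw [pow_succ, ih, ← PowerSeries.binomialSeries_add]
    congr 1
    push_cast
    ring

/-- `m`-th roots of power series with constant coefficient `1`. -/
theorem RootL_ps {K : Type*} [Field K] [CharZero K] (m : ℕ) (hm : m ≠ 0) (v : PowerSeries K)
    (hv : PowerSeries.constantCoeff v = 1) : ∃ y : PowerSeries K, y ^ m = v := by
  have hB : (PowerSeries.binomialSeries K ((1 : ℚ) / m)) ^ m = 1 + PowerSeries.X := by
    rw [RootL_binom_pow, mul_one_div_cancel (by exact_mod_cast hm)]
    simpa using PowerSeries.binomialSeries_nat (R := ℚ) (A := K) 1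
  have ha : PowerSeries.HasSubst (v - 1) :=
    PowerSeries.HasSubst.of_constantCoeff_zero' (by simp [hv])
  refine ⟨(PowerSeries.binomialSeries K ((1 : ℚ) / m)).subst (v - 1), ?_⟩
  rw [← PowerSeries.subst_pow ha, hB, PowerSeries.subst_add ha, PowerSeries.subst_X ha]
  have h1 : (1 : PowerSeries K).subst (v - 1) = (1 : PowerSeries K) := by
    rw [← PowerSeries.coe_substAlgHom ha]
    exact map_one _
  rw [h1]
  ring

theorem stmt_RootL : Stmt_RootL := by
  intro K _ _ m u hm hu hdvd hc
  obtain ⟨d, hd⟩ := hdvd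
  obtain ⟨c, hc⟩ := hc
  have hlc : u.leadingCoeff ≠ 0 := HahnSeries.leadingCoeff_ne_zero.2 hu
  set w : PowerSeries K := LaurentSeries.powerSeriesPart u with hw
  have hw0 : PowerSeries.constantCoeff w = u.leadingCoeff := by
    rw [← PowerSeries.coeff_zero_eq_constantCoeff_apply, hw, LaurentSeries.powerSeriesPart_coeff]
    rw [HahnSeries.leadingCoeff_eq]
    simp
  obtain ⟨y0, hy0⟩ := RootL_ps m hm (PowerSeries.C (u.leadingCoeff)⁻¹ * w) (by
    rw [map_mul, hw0, PowerSeries.constantCoeff_C, inv_mul_cancel₀ hlc])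
  refine ⟨HahnSeries.single d 1 * HahnSeries.ofPowerSeries ℤ K (PowerSeries.C c * y0), ?_⟩
  have e1 : (PowerSeries.C c * y0) ^ m = w := by
    rw [mul_pow, hy0, ← map_pow, hc, ← mul_assoc, ← map_mul, mul_inv_cancel₀ hlc, map_one, one_mul]
  have e2 : (HahnSeries.single d (1 : K)) ^ m = HahnSeries.single u.order (1 : K) := by
    rw [HahnSeries.single_pow, one_pow, nsmul_eq_mul, ← hd]
  rw [mul_pow, e2, ← map_pow (HahnSeries.ofPowerSeries ℤ K), e1]
  exact LaurentSeries.single_order_mul_powerSeriesPart u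

end Fermat.Agent.S36.Base

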