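import Fermat.Agent.ES.Mid.Defs
import Fermat.Agent.KL.Defs

/-!
# S36 / Base : the base `E = ℚ̄^I`, `A_E = A ∩ E`, `F_E = E · F₀ ⊆ E((q))`   (helper3)

`A` is a valuation subring of `ℚ̄` (over a prime `r`), `I` its inertia group.

* `IEf A : IntermediateField ℚ ℚ̄` the fixed field of `I`;  `IE A : Type` the same field as a type.
  `IE A` is NOT reducible (instance search on subtypes of `AlgebraicClosure ℚ` is far too slow);
  use `algebraMap (IE A) Qbar`, `mem_IEf_iff`, `IE.mk`, `IE.range_algebraMap`.
* `AEv A : ValuationSubring (IE A)`, `AE A : Type` the same ring as a type (again not reducible);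
  use `algebraMap (AE A) (IE A)`, `AE.mk`, `AE.range_algebraMap`.
* `LE A = E((q))`, `FE A N : IntermediateField (IE A) (LE A)`  (`= laurentBaseChange (IE A) F₀`).
* `cmE A : LE A →+* LaurentSeries Qbar` (coefficientwise inclusion), `emb A N : FE A N →+* FF N`.
-/

set_option autoImplicit false

noncomputable section

namespace Fermat.Agent.S36.Base

open Fermat.Agent.S24 (Qbar FF)
open Fermat.Agent.ES.Mid (GQ gal coe_gal)
open ModularCurve (coeffMap coeffMap_coeff coeffEmb laurentBaseChange modularFunctionFieldFull)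

variable (A : ValuationSubring Qbar)

/-! ### the field `E` -/

/-- `E = ℚ̄^I` as an intermediate field. -/
def IEf : IntermediateField ℚ Qbar := IntermediateField.fixedField (A.inertiaSubgroupIn ℚ)

theorem mem_IEf_iff {x : Qbar} : x ∈ IEf A ↔ ∀ σ ∈ A.inertiaSubgroupIn ℚ, σ x = x := by
  constructor
  · intro h σ hσ
    exact h ⟨σ, hσ⟩
  · intro h σ
    exact h σ.1 σ.2

/-- `E = ℚ̄^I` as a type (NOT reducible: keeps instance search fast). -/
def IE : Type := ↥(IEf A)

instance instFieldIE : Field (IE A) := inferInstanceAs (Field ↥(IEf A))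
instance instAlgebraIE : Algebra (IE A) Qbar := inferInstanceAs (Algebra ↥(IEf A) Qbar)
instance instCharZeroIE : CharZero (IE A) := inferInstanceAs (CharZero ↥(IEf A))

/-- an element of `ℚ̄` fixed by inertia, as an element of `E`. -/
def IE.mk (x : Qbar) (hx : ∀ σ ∈ A.inertiaSubgroupIn ℚ, σ x = x) : IE A :=
  (⟨x, (mem_IEf_iff A).2 hx⟩ : ↥(IEf A))

@[simp] theorem IE.algebraMap_mk (x : Qbar) (hx : ∀ σ ∈ A.inertiaSubgroupIn ℚ, σ x = x) :
    algebraMap (IE A) Qbar (IE.mk A x hx) = x := rfl

theorem IE.fixed (x : IE A) {σ : GQ} (hσ : σ ∈ A.inertiaSubgroupIn ℚ) :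
    σ (algebraMap (IE A) Qbar x) = algebraMap (IE A) Qbar x :=
  (mem_IEf_iff A).1 (x : ↥(IEf A)).2 σ hσ

theorem IE.mem_range_iff {x : Qbar} :
    x ∈ (algebraMap (IE A) Qbar).range ↔ ∀ σ ∈ A.inertiaSubgroupIn ℚ, σ x = x := by
  constructor
  · rintro ⟨y, rfl⟩ σ hσ
    exact IE.fixed A y hσ
  · intro h
    exact ⟨IE.mk A x h, rfl⟩

theorem IE.algebraMap_injective : Function.Injective (algebraMap (IE A) Qbar) :=
  (algebraMap (IE A) Qbar).injective

/-! ### the ring `A_E` -/

/-- `A_E = A ∩ E` as a valuation subring of `E`. -/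
def AEv : ValuationSubring (IE A) := A.comap (algebraMap (IE A) Qbar)

theorem mem_AEv_iff {x : IE A} : x ∈ AEv A ↔ algebraMap (IE A) Qbar x ∈ A := Iff.rfl

/-- `A_E = A ∩ E` as a type (NOT reducible). -/
def AE : Type := ↥(AEv A)

instance instCommRingAE : CommRing (AE A) := inferInstanceAs (CommRing ↥(AEv A))
instance instIsDomainAE : IsDomain (AE A) := inferInstanceAs (IsDomain ↥(AEv A))
instance instValuationRingAE : ValuationRing (AE A) := inferInstanceAs (ValuationRing ↥(AEv A))
instance instAlgebraAE : Algebra (AE A) (IE A) := inferInstanceAs (Algebra ↥(AEv A) (IE A))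
instance instIsFractionRingAE : IsFractionRing (AE A) (IE A) :=
  inferInstanceAs (IsFractionRing ↥(AEv A) (IE A))

/-- an element of `E` lying in `A`, as an element of `A_E`. -/
def AE.mk (x : IE A) (hx : algebraMap (IE A) Qbar x ∈ A) : AE A := (⟨x, hx⟩ : ↥(AEv A))

@[simp] theorem AE.algebraMap_mk (x : IE A) (hx : algebraMap (IE A) Qbar x ∈ A) :
    algebraMap (AE A) (IE A) (AE.mk A x hx) = x := rfl

theorem AE.mem (x : AE A) : algebraMap (IE A) Qbar (algebraMap (AE A) (IE A) x) ∈ A :=
  (x : ↥(AEv A)).2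

theorem AE.mem_range_iff {x : IE A} :
    x ∈ (algebraMap (AE A) (IE A)).range ↔ algebraMap (IE A) Qbar x ∈ A := by
  constructor
  · rintro ⟨y, rfl⟩
    exact AE.mem A y
  · intro h
    exact ⟨AE.mk A x h, rfl⟩

theorem AE.algebraMap_injective : Function.Injective (algebraMap (AE A) (IE A)) :=
  IsFractionRing.injective (AE A) (IE A)

/-- the inclusion `A_E → A`. -/
def AE.toA : AE A →+* A :=
  ((algebraMap (IE A) Qbar).comp (algebraMap (AE A) (IE A))).codRestrict A.toSubring
    (fun x => AE.mem A x)

@[simp] theorem AE.coe_toA (x : AE A) :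
    ((AE.toA A x : A) : Qbar) = algebraMap (IE A) Qbar (algebraMap (AE A) (IE A) x) := rfl

/-! ### Laurent series over `E` and the function field `F_E` -/

/-- `E((q))`. -/
abbrev LE : Type := LaurentSeries (IE A)

/-- `F_E = E · F₀ ⊆ E((q))`, the function field of `X₀(N)` over `E`. -/
abbrev FE (N : ℕ) : IntermediateField (IE A) (LE A) :=
  laurentBaseChange (IE A) (modularFunctionFieldFull N)

instance instAlgebraAEK (K : IntermediateField (IE A) (LE A)) : Algebra (AE A) K :=
  ((algebraMap (IE A) K).comp (algebraMap (AE A) (IE A))).toAlgebra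

instance instTowerAEK (K : IntermediateField (IE A) (LE A)) : IsScalarTower (AE A) (IE A) K :=
  IsScalarTower.of_algebraMap_eq fun _ => rfl

theorem algebraMap_AE_LE (x : AE A) :
    algebraMap (AE A) (LE A) x = algebraMap (IE A) (LE A) (algebraMap (AE A) (IE A) x) := by
  rw [ModularCurve.algebraMap_laurentSeries_eq_single, HahnSeries.algebraMap_apply']
  have h1 : algebraMap (AE A) (PowerSeries (IE A)) x
      = PowerSeries.C (algebraMap (AE A) (IE A) x) := by
    simp [PowerSeries.algebraMap_apply]
  rw [h1, HahnSeries.ofPowerSeries_C]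
  rfl

instance instTowerAEIELE :
    @IsScalarTower (AE A) (IE A) (LE A) Algebra.toSMul Algebra.toSMul Algebra.toSMul :=
  IsScalarTower.of_algebraMap_eq fun x => algebraMap_AE_LE A x

instance instTowerAEKL (K : IntermediateField (IE A) (LE A)) :
    @IsScalarTower (AE A) K (LE A) Algebra.toSMul Algebra.toSMul Algebra.toSMul :=
  IsScalarTower.of_algebraMap_eq fun x => algebraMap_AE_LE A x

instance instFaithfulAEK (K : IntermediateField (IE A) (LE A)) : FaithfulSMul (AE A) K :=
  (faithfulSMul_iff_algebraMap_injective (AE A) K).2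
    ((algebraMap (IE A) K).injective.comp (AE.algebraMap_injective A))

/-- the coefficientwise inclusion `E((q)) → ℚ̄((q))`. -/
def cmE : LE A →+* LaurentSeries Qbar := coeffMap (algebraMap (IE A) Qbar)

@[simp] theorem cmE_coeff (x : LE A) (n : ℤ) :
    (cmE A x).coeff n = algebraMap (IE A) Qbar (x.coeff n) := rfl

theorem cmE_injective : Function.Injective (cmE A) := (cmE A).injective

theorem cmE_algebraMap (c : IE A) :
    cmE A (algebraMap (IE A) (LE A) c)
      = algebraMap Qbar (LaurentSeries Qbar) (algebraMap (IE A) Qbar c) := by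
  rw [ModularCurve.algebraMap_laurentSeries_eq_single,
    ModularCurve.algebraMap_laurentSeries_eq_single]
  exact ModularCurve.coeffMap_single _ _ _

theorem cmE_coeffEmb (x : LaurentSeries ℚ) : cmE A (coeffEmb (IE A) x) = coeffEmb Qbar x := by
  ext n
  simp only [cmE_coeff, ModularCurve.coeffEmb_coeff]
  exact (IsScalarTower.algebraMap_apply ℚ (IE A) Qbar _).symm

theorem cmE_mem {N : ℕ} {x : LE A} (hx : x ∈ FE A N) :
    cmE A x ∈ ModularCurve.modularFunctionFieldBar N := by
  rw [ModularCurve.mem_laurentBaseChange_iff] at hx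
  induction hx using Subfield.closure_induction with
  | mem y hy =>
      rcases hy with ⟨a, rfl⟩ | ⟨z, hz, rfl⟩
      · rw [cmE_algebraMap]
        exact (ModularCurve.modularFunctionFieldBar N).algebraMap_mem _
      · rw [cmE_coeffEmb]
        exact ModularCurve.coeffEmb_mem_laurentBaseChange Qbar hz
  | one => simp
  | add x y _ _ hx hy => simpa using add_mem hx hy
  | neg x _ hx => simpa using neg_mem hx
  | inv x _ hx => simpa using inv_mem hx
  | mul x y _ _ hx hy => simpa using mul_mem hx hy

/-- the inclusion `F_E → F = FF N`. -/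
def emb (N : ℕ) : FE A N →+* FF N :=
  ((cmE A).comp (algebraMap (FE A N) (LE A))).codRestrict
    (ModularCurve.modularFunctionFieldBar N).toSubfield.toSubring (fun x => cmE_mem A x.2)

@[simp] theorem coe_emb (N : ℕ) (x : FE A N) :
    ((emb A N x : FF N) : LaurentSeries Qbar) = cmE A (x : LE A) := rfl

theorem emb_injective (N : ℕ) : Function.Injective (emb A N) := (emb A N).injective

theorem emb_algebraMap (N : ℕ) (c : IE A) :
    emb A N (algebraMap (IE A) (FE A N) c) = algebraMap Qbar (FF N) (algebraMap (IE A) Qbar c) :=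
  Subtype.ext (cmE_algebraMap A c)

/-- elements of `F_E` are fixed by inertia. -/
theorem gal_emb (N : ℕ) (x : FE A N) {σ : GQ} (hσ : σ ∈ A.inertiaSubgroupIn ℚ) :
    gal N σ (emb A N x) = emb A N x := by
  apply Subtype.ext
  rw [coe_gal]
  ext n
  simp only [coeffMap_coeff, coe_emb, cmE_coeff]
  exact IE.fixed A _ hσ

/-- sanity check: the instances needed by `Stmt_COV` are found. -/
example (N : ℕ) (P : ∀ (A₀ F L : Type) [CommRing A₀] [IsDomain A₀] [Field F] [CharZero F]
    [Algebra A₀ F] [FaithfulSMul A₀ F] [Field L] [Algebra F L] [Algebra A₀ L]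
    [IsScalarTower A₀ F L], Prop) : Prop := P (AE A) (FE A N) (LE A)

end Fermat.Agent.S36.Base

end
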