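import Fermat.Agent.S36.Base.Span
import Fermat.Agent.S36.Base.Descent
import Fermat.Agent.S36.Base.Unram
import Fermat.Agent.S36.Base.DVR
import Fermat.Agent.S36.Base.Mu
import Fermat.Agent.S36.Base.Res
import Fermat.Agent.S36.Base.IntConst
import Fermat.Agent.S36.Base.RootL
import Fermat.Agent.S36.Base.Fin
import Fermat.Agent.S36.Base.Frac
import Fermat.Agent.S36.Base.EOne
import Fermat.Agent.S36.Base.PlaceAbove
import Fermat.Agent.S36.Base.HDIV
import Fermat.Agent.S36.GeoInterface
import Fermat.Agent.S36.KumDesc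

/-!
# S36 / Base : everything, unconditionally   (helper3)

All the `Stmt_*` of `Base/Interface.lean` (except the false `Stmt_PlaceAbove`, replaced by
`Stmt_PlaceAbove'`), the base hypotheses of `GeoInterface.lean`, and (HDIV) in the shape consumed by
`Stmt_Inst`.
-/

set_option autoImplicit false

namespace Fermat.Agent.S36.Base

open Fermat.Agent.S24 (Qbar FF)
open Fermat.Agent.ES.Mid (GQ gal IsDiv)
open Fermat.Agent.KL Fermat.Agent.S36

theorem all_Span : Stmt_Span := stmt_Span
theorem all_LinDisj : Stmt_LinDisj := stmt_LinDisj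
theorem all_SpanE : Stmt_SpanE := stmt_SpanE stmt_Span
theorem all_Descent : Stmt_Descent := stmt_Descent stmt_Span
theorem all_Unram : Stmt_Unram := stmt_Unram
theorem all_DVR : Stmt_DVR := stmt_DVR stmt_Unram
theorem all_Mu : Stmt_Mu := stmt_Mu
theorem all_Res : Stmt_Res := stmt_Res stmt_Mu
theorem all_IntConst : Stmt_IntConst := stmt_IntConst
theorem all_RootL : Stmt_RootL := stmt_RootL
theorem all_Fin : Stmt_Fin := stmt_Fin stmt_LinDisj
theorem all_Frac : Stmt_Frac := stmt_Frac
theorem all_EOne : Stmt_EOne := stmt_EOne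
theorem all_PlaceAbove' : Stmt_PlaceAbove' := stmt_PlaceAbove'

/-- (HDIV) on the chart of any transcendental `t`. -/
theorem all_hdiv (A : ValuationSubring Qbar) (N : ℕ) [IsDiscreteValuationRing (AE A)] (ϖ : AE A)
    (hϖ : Irreducible ϖ) (m : ℕ) [NeZero N] (t u : FE A N) (ht : Transcendental (IE A) t)
    (hu : IsDiv N m (emb A N u)) : HDiv (cst (AE A) t ϖ) m u :=
  hdiv A N all_PlaceAbove' all_EOne all_SpanE all_Fin ϖ hϖ m t u ht hu

/-- (HDIV) on both charts, the shape of the last field of `Stmt_Inst`. -/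
theorem all_hdiv₂ (A : ValuationSubring Qbar) (N : ℕ) [IsDiscreteValuationRing (AE A)] (ϖ : AE A)
    (hϖ : Irreducible ϖ) (m : ℕ) [NeZero N] (t u : FE A N) (ht : Transcendental (IE A) t)
    (hu : IsDiv N m (emb A N u)) :
    HDiv (cst (AE A) t ϖ) m u ∧ HDiv (cst (AE A) t⁻¹ ϖ) m u :=
  ⟨all_hdiv A N ϖ hϖ m t u ht hu,
    all_hdiv A N ϖ hϖ m t⁻¹ u (fun h => ht (by simpa using h.inv)) hu⟩

/-- transcendence over `A_E` and over `E` are the same. -/
theorem all_transcendental_iff (A : ValuationSubring Qbar) (N : ℕ) (t : FE A N) :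
    Transcendental (AE A) t ↔ Transcendental (IE A) t :=
  not_congr (IsFractionRing.isAlgebraic_iff (AE A) (IE A) (FE A N))

/-! ### the base hypotheses of `GeoInterface.lean` -/

theorem all_BaseDVR : Stmt_BaseDVR := all_DVR

theorem all_BaseDescent : Stmt_BaseDescent := fun N _ A u h => all_Descent A N u h

theorem all_BaseRoot : Stmt_BaseRoot := fun r A hr hA m hm hrm c hc =>
  (all_Mu r A hr hA m hm.ne' hrm).2.2 c hc

theorem all_KumDesc : Stmt_KumDesc := kumDesc all_BaseDescent

end Fermat.Agent.S36.Base
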