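import Mathlib

/-!
# S36 / Base : the inertia field is unramified, abstract number field form  (helper50)

`L/K` a Galois extension of number fields, `v` a prime of `L`, `I_v ⊆ Gal(L/K)` its inertia group,
`e = |I_v|`.
* `UA_val_fixed` : the `v`-adic valuation of an element of `Lˣ` fixed by `I_v` is an `e`-th power;
* `UA_val_base`  : `v(a) = p(a) ^ e` for `a ∈ K`, `p` the prime of `K` under `v`;
* `UA_val_prime` : `v(q) = exp(-1) ^ e` for `K = ℚ`, `q` the residue characteristic;
* `UA_unit_K`, `UA_unit_Q` : an element fixed by `I_v` is a `v`-unit times a power of a uniformiser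
  of `K`.
-/

set_option autoImplicit false

noncomputable section

namespace Fermat.Agent.S36.Base

open IsDedekindDomain NumberField
open scoped Pointwise

/-- **abstract core.**  `L/K` Galois extension of number fields, `v` a prime of `L`.  The `v`-adic
valuation of an element fixed by the inertia group of `v` is an `e`-th power, `e` the order of the
inertia group. -/
theorem UA_val_fixed (K L : Type) [Field K] [NumberField K] [Field L] [NumberField L] [Algebra K L]
    [IsGalois K L] (v : HeightOneSpectrum (𝓞 L)) (x : L) (hx : x ≠ 0)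
    (hfix : ∀ h : L ≃ₐ[K] L, (∀ y : 𝓞 L, h • y - y ∈ v.asIdeal) → h x = x) :
    ∃ n : ℤ, v.valuation L x = WithZero.exp n ^ Nat.card (v.asIdeal.inertia (L ≃ₐ[K] L)) := by
  set I : Subgroup (L ≃ₐ[K] L) := v.asIdeal.inertia (L ≃ₐ[K] L) with hI
  set T : IntermediateField K L := IntermediateField.fixedField I with hT
  have hxT : x ∈ T := by
    rw [hT, IntermediateField.mem_fixedField_iff]
    intro h hh
    exact hfix h hh
  have hPmax : v.asIdeal.IsMaximal := v.isMaximal
  have hu0 : v.asIdeal.under (𝓞 T) ≠ ⊥ := by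
    intro h
    exact v.ne_bot (Ideal.eq_bot_of_comap_eq_bot h)
  let u : HeightOneSpectrum (𝓞 T) := ⟨v.asIdeal.under (𝓞 T), inferInstance, hu0⟩
  have hlo : v.asIdeal.LiesOver u.asIdeal := ⟨rfl⟩
  have hval := HeightOneSpectrum.valuation_liesOver L u v (⟨x, hxT⟩ : T)
  have htop : v.asIdeal.inertia (L ≃ₐ[T] L) = ⊤ := by
    rw [eq_top_iff]
    intro τ _
    have h1 : τ.restrictScalars K ∈ T.fixingSubgroup := by
      rw [IntermediateField.mem_fixingSubgroup_iff]
      intro y hy
      exact τ.commutes ⟨y, hy⟩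
    have h2 : T.fixingSubgroup = I := IntermediateField.fixingSubgroup_fixedField I
    rw [h2] at h1
    intro y
    exact h1 y
  have hcard : Nat.card (v.asIdeal.inertia (L ≃ₐ[T] L)) = Nat.card I := by
    rw [htop, Nat.card_congr (Subgroup.topEquiv (G := L ≃ₐ[T] L)).toEquiv,
      IsGalois.card_aut_eq_finrank]
    exact IntermediateField.finrank_fixedField_eq_card I
  have h2 := Ideal.card_inertia_eq_ramificationIdxIn (G := L ≃ₐ[T] L) u.asIdeal v.asIdeal
  rw [Ideal.ramificationIdxIn_eq_ramificationIdx u.asIdeal v.asIdeal (L ≃ₐ[T] L)] at h2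
  have h3 := Ideal.ramificationIdx'_eq_ramificationIdx u.asIdeal v.asIdeal hu0
  rw [← h2, hcard] at h3
  rw [h3] at hval
  have hx0 : (⟨x, hxT⟩ : T) ≠ 0 := fun h => hx (congrArg Subtype.val h)
  have hux0 : u.valuation T (⟨x, hxT⟩ : T) ≠ 0 := (Valuation.ne_zero_iff _).2 hx0
  refine ⟨WithZero.log (u.valuation T (⟨x, hxT⟩ : T)), ?_⟩
  rw [WithZero.exp_log hux0, hval]
  rfl

/-- elements of the base field. -/
theorem UA_val_base (K L : Type) [Field K] [NumberField K] [Field L] [NumberField L] [Algebra K L]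
    [IsGalois K L] (p : HeightOneSpectrum (𝓞 K)) (v : HeightOneSpectrum (𝓞 L))
    (hlo : v.asIdeal.LiesOver p.asIdeal) (a : K) :
    v.valuation L (algebraMap K L a)
      = p.valuation K a ^ Nat.card (v.asIdeal.inertia (L ≃ₐ[K] L)) := by
  have hval := HeightOneSpectrum.valuation_liesOver L p v a
  have h2 := Ideal.card_inertia_eq_ramificationIdxIn (G := L ≃ₐ[K] L) p.asIdeal v.asIdeal
  rw [Ideal.ramificationIdxIn_eq_ramificationIdx p.asIdeal v.asIdeal (L ≃ₐ[K] L)] at h2
  have h3 := Ideal.ramificationIdx'_eq_ramificationIdx p.asIdeal v.asIdeal p.ne_bot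
  rw [← h2] at h3
  rw [← hval, h3]

/-- the residue characteristic, base field `ℚ`. -/
theorem UA_val_prime (L : Type) [Field L] [NumberField L] [IsGalois ℚ L]
    (v : HeightOneSpectrum (𝓞 L)) (q : ℕ) (hq : q.Prime) (hqv : (q : 𝓞 L) ∈ v.asIdeal) :
    v.valuation L (q : L)
      = WithZero.exp (-1 : ℤ) ^ Nat.card (v.asIdeal.inertia (L ≃ₐ[ℚ] L)) := by
  have hqp : Prime (q : ℤ) := Nat.prime_iff_prime_int.mp hq
  have hq0 : (q : ℤ) ≠ 0 := hqp.ne_zero
  let p : HeightOneSpectrum ℤ := ⟨Ideal.span {(q : ℤ)},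
    (Ideal.span_singleton_prime hq0).2 hqp, by simpa using hq0⟩
  have hmax : p.asIdeal.IsMaximal := p.isMaximal
  have hlo : v.asIdeal.LiesOver p.asIdeal := by
    constructor
    refine hmax.eq_of_le (Ideal.IsPrime.under ℤ v.asIdeal).ne_top ?_
    show Ideal.span {(q : ℤ)} ≤ _
    rw [Ideal.span_singleton_le_iff_mem, Ideal.mem_comap]
    simpa using hqv
  have hval := HeightOneSpectrum.valuation_liesOver (K := ℚ) L p v (q : ℚ)
  have h2 := Ideal.card_inertia_eq_ramificationIdxIn (G := L ≃ₐ[ℚ] L) p.asIdeal v.asIdeal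
  rw [Ideal.ramificationIdxIn_eq_ramificationIdx p.asIdeal v.asIdeal (L ≃ₐ[ℚ] L)] at h2
  have h3 := Ideal.ramificationIdx'_eq_ramificationIdx p.asIdeal v.asIdeal p.ne_bot
  rw [← h2] at h3
  have h4 : p.valuation ℚ (q : ℚ) = WithZero.exp (-1 : ℤ) := by
    have h5 : (q : ℚ) = algebraMap ℤ ℚ (q : ℤ) := by simp
    rw [h5, HeightOneSpectrum.valuation_of_algebraMap]
    exact p.intValuation_singleton hq0 rfl
  rw [h3, h4, map_natCast] at hval
  exact hval.symm

theorem UA_exp_cancel (n : ℤ) (e : ℕ) :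
    WithZero.exp n ^ e * (WithZero.exp (-1 : ℤ) ^ e) ^ n = 1 := by
  rw [← WithZero.exp_nsmul, ← WithZero.exp_nsmul, ← WithZero.exp_zsmul, ← WithZero.exp_add]
  have : e • n + n • e • (-1 : ℤ) = 0 := by
    simp only [smul_eq_mul, nsmul_eq_mul]
    ring
  rw [this]
  rfl

/-- an element fixed by the inertia group is a unit times a power of a uniformiser of `K`. -/
theorem UA_unit_K (K L : Type) [Field K] [NumberField K] [Field L] [NumberField L] [Algebra K L]
    [IsGalois K L] (p : HeightOneSpectrum (𝓞 K)) (v : HeightOneSpectrum (𝓞 L))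
    (hlo : v.asIdeal.LiesOver p.asIdeal) (π : K) (hπ : p.valuation K π = WithZero.exp (-1 : ℤ))
    (x : L) (hx : x ≠ 0)
    (hfix : ∀ h : L ≃ₐ[K] L, (∀ y : 𝓞 L, h • y - y ∈ v.asIdeal) → h x = x) :
    ∃ n : ℤ, v.valuation L (x * algebraMap K L π ^ n) = 1 := by
  obtain ⟨n, hn⟩ := UA_val_fixed K L v x hx hfix
  refine ⟨n, ?_⟩
  rw [map_mul, map_zpow₀, hn, UA_val_base K L p v hlo π, hπ, UA_exp_cancel]

/-- base field `ℚ`: an element fixed by the inertia group is a unit times a power of `q`. -/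
theorem UA_unit_Q (L : Type) [Field L] [NumberField L] [IsGalois ℚ L]
    (v : HeightOneSpectrum (𝓞 L)) (q : ℕ) (hq : q.Prime) (hqv : (q : 𝓞 L) ∈ v.asIdeal)
    (x : L) (hx : x ≠ 0)
    (hfix : ∀ h : L ≃ₐ[ℚ] L, (∀ y : 𝓞 L, h • y - y ∈ v.asIdeal) → h x = x) :
    ∃ n : ℤ, v.valuation L (x * (q : L) ^ n) = 1 := by
  obtain ⟨n, hn⟩ := UA_val_fixed ℚ L v x hx hfix
  refine ⟨n, ?_⟩
  rw [map_mul, map_zpow₀, hn, UA_val_prime L v q hq hqv, UA_exp_cancel]

end Fermat.Agent.S36.Base

end
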